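import Fermat.Prelude.Def_FLTPrelim_Ramification
import Mathlib.FieldTheory.IsAlgClosed.AlgebraicClosure
import Mathlib.RingTheory.Polynomial.Content
import Mathlib.RingTheory.Ideal.Quotient.Operations
import Mathlib.RingTheory.Algebraic.Integral
import Mathlib.RingTheory.Valuation.LocalSubring
import Fermat.Agent.FFBasic.ResidueAlgClosed

/-!
# Valuation rings of `ℚ̄` over a prime

For `A` over `ℓ` the residue field is algebraically closed (`isAlgClosed_residueField`), the
maximal ideal is the radical of any nonzero proper ideal (`exists_dvd_pow`) and integers prime to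
`ℓ` are units. These are the hypotheses on `A` in `ModL`; also used by many geometric modules.
-/

set_option autoImplicit false

noncomputable section

open Polynomial

namespace FLTAgent.Deuring

export FFBasic (isAlgClosed_residueField)

variable {A : ValuationSubring (AlgebraicClosure ℚ)} {ℓ : ℕ}

/-- An integer prime to `ℓ` is a unit at a place over `ℓ`. -/
theorem isUnit_intCast_of_not_dvd [Fact ℓ.Prime] (hA : A.LiesOverPrime ℓ) {n : ℤ}
    (hn : ¬ (ℓ : ℤ) ∣ n) : IsUnit (n : A) := by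
  obtain ⟨u, v, huv⟩ := ((Nat.prime_iff_prime_int.mp Fact.out).coprime_iff_not_dvd.mpr hn)
  have hl : (ℓ : A) ∈ IsLocalRing.maximalIdeal A := by
    obtain ⟨hm, hu⟩ := (ValuationSubring.mem_nonunits_iff_exists_mem_maximalIdeal (A := A)
      (a := (ℓ : AlgebraicClosure ℚ))).mp hA
    exact hu
  by_contra hnu
  have hnm : (n : A) ∈ IsLocalRing.maximalIdeal A := (IsLocalRing.mem_maximalIdeal _).mpr hnu
  have h1 : ((u * ℓ + v * n : ℤ) : A) ∈ IsLocalRing.maximalIdeal A := by
    push_cast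
    exact Ideal.add_mem _ (Ideal.mul_mem_left _ _ hl) (Ideal.mul_mem_left _ _ hnm)
  rw [huv, Int.cast_one] at h1
  exact (IsLocalRing.mem_maximalIdeal _).mp h1 isUnit_one

theorem exists_int_dvd (b : A) (hb : b ≠ 0) : ∃ c : ℤ, c ≠ 0 ∧ b ∣ (c : A) := by
  have halg : IsAlgebraic ℤ (b : AlgebraicClosure ℚ) :=
    (IsFractionRing.isAlgebraic_iff ℤ ℚ (AlgebraicClosure ℚ)).mpr
      (Algebra.IsAlgebraic.isAlgebraic _)
  obtain ⟨p, hp0, hp⟩ := halg.exists_nonzero_coeff_and_aeval_eq_zero
    (mem_nonZeroDivisors_of_ne_zero fun h => hb (Subtype.ext h))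
  refine ⟨p.coeff 0, hp0, ⟨-(aeval b p.divX), ?_⟩⟩
  have hbA : aeval b p = 0 := by
    apply Subtype.val_injective
    show A.subtype (aeval b p) = _
    rw [aeval_def, hom_eval₂]
    rw [aeval_def] at hp
    rw [RingHom.ext_int (A.subtype.comp (algebraMap ℤ A)) (algebraMap ℤ (AlgebraicClosure ℚ))]
    exact hp
  have h := congrArg (aeval b) p.X_mul_divX_add
  rw [map_add, map_mul, aeval_X, aeval_C, hbA, algebraMap_int_eq, eq_intCast] at h
  linear_combination h

/-- A non-unit has a power divisible by any given nonzero element: the place has rank one. -/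
theorem exists_dvd_pow [Fact ℓ.Prime] (hA : A.LiesOverPrime ℓ) (a b : A)
    (ha : IsLocalRing.residue A a = 0) (hb : b ≠ 0) : ∃ n, b ∣ a ^ n := by
  have hℓ : ℓ.Prime := Fact.out
  have ham : a ∈ IsLocalRing.maximalIdeal A := (IsLocalRing.residue_eq_zero_iff a).mp ha
  obtain ⟨c, hc, hbc⟩ := exists_int_dvd b hb
  obtain ⟨e, c', hc', hce⟩ : ∃ (e : ℕ) (c' : ℤ), ¬ (ℓ : ℤ) ∣ c' ∧ c = (ℓ : ℤ) ^ e * c' := by
    obtain ⟨e, c', h1, h2⟩ := WfDvdMonoid.max_power_factor hc
      (Nat.prime_iff_prime_int.mp hℓ).irreducible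
    exact ⟨e, c', h1, h2⟩
  suffices h : a ∈ (Ideal.span {(ℓ : A)}).radical by
    obtain ⟨n, hn⟩ := h
    refine ⟨n * e, hbc.trans ?_⟩
    rw [hce, Int.cast_mul, Int.cast_pow, Int.cast_natCast, pow_mul,
      (isUnit_intCast_of_not_dvd hA hc').mul_right_dvd]
    exact pow_dvd_pow_of_dvd (Ideal.mem_span_singleton.mp hn) e
  rw [Ideal.radical_eq_sInf, Submodule.mem_sInf]
  rintro P ⟨hPℓ, hP⟩
  by_contra haP
  have hℓP : (ℓ : A) ∈ P := hPℓ (Ideal.mem_span_singleton_self _)
  -- in the domain `A ⧸ P` the image of `a` is a nonzero element algebraic over `𝔽_ℓ`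
  set φ := Ideal.Quotient.mk P
  have hiff : ∀ n : ℤ, φ (n : A) ≠ 0 → IsUnit (φ (n : A)) := by
    intro n hn
    refine (isUnit_intCast_of_not_dvd hA fun hdvd => hn ?_).map φ
    obtain ⟨m, rfl⟩ := hdvd
    rw [Ideal.Quotient.eq_zero_iff_mem, Int.cast_mul, Int.cast_natCast]
    exact Ideal.mul_mem_right _ P hℓP
  have halg : IsAlgebraic ℤ (a : AlgebraicClosure ℚ) :=
    (IsFractionRing.isAlgebraic_iff ℤ ℚ (AlgebraicClosure ℚ)).mpr
      (Algebra.IsAlgebraic.isAlgebraic _)
  obtain ⟨p, hp0, hp⟩ := halg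
  have hp' : aeval (a : AlgebraicClosure ℚ) p.primPart = 0 :=
    aeval_primPart_eq_zero hp0 hp
  set g := p.primPart.map (φ.comp (Int.castRingHom A)) with hg
  have hg0 : g ≠ 0 := by
    intro h0
    have hdvd : ∀ n, (ℓ : ℤ) ∣ p.primPart.coeff n := by
      intro n
      by_contra hn
      have hu := (isUnit_intCast_of_not_dvd hA hn).map φ
      have := congrArg (fun q => q.coeff n) h0
      simp only [hg, coeff_map, eq_intCast, coeff_zero] at this
      simp only [map_intCast] at hu this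
      rw [this] at hu
      exact not_isUnit_zero hu
    have := (isPrimitive_primPart p) (ℓ : ℤ) (C_dvd_iff_dvd_coeff _ _ |>.mpr hdvd)
    rw [Int.isUnit_iff] at this
    have := hℓ.two_le
    omega
  have hga : g.IsRoot (φ a) := by
    rw [IsRoot, hg, eval_map, ← hom_eval₂]
    have h : eval₂ (Int.castRingHom A) a p.primPart = 0 := by
      apply Subtype.val_injective
      show A.subtype _ = _
      rw [hom_eval₂]
      rw [aeval_def] at hp'
      rw [RingHom.ext_int (A.subtype.comp (Int.castRingHom A)) (algebraMap ℤ (AlgebraicClosure ℚ))]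
      exact hp'
    rw [h, map_zero]
  obtain ⟨q, hq, hqd⟩ := exists_eq_pow_rootMultiplicity_mul_and_not_dvd g hg0 0
  rw [map_zero, sub_zero] at hq hqd
  set j := rootMultiplicity 0 g
  have hq0 : q.coeff 0 ≠ 0 := fun h => hqd (X_dvd_iff.mpr h)
  have hqj : q.coeff 0 = g.coeff j := by
    have h := coeff_X_pow_mul q j 0
    rw [zero_add] at h
    rw [hq]
    exact h.symm
  have hqu : IsUnit (q.coeff 0) := by
    rw [hqj, hg, coeff_map, RingHom.comp_apply, eq_intCast]
    refine hiff _ fun h0 => hq0 ?_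
    rw [hqj, hg, coeff_map, RingHom.comp_apply, eq_intCast, h0]
  have hane : φ a ≠ 0 := fun h => haP (Ideal.Quotient.eq_zero_iff_mem.mp h)
  have hqa : q.eval (φ a) = 0 := by
    rw [IsRoot, hq, eval_mul, eval_pow, eval_X] at hga
    exact (mul_eq_zero.mp hga).resolve_left (pow_ne_zero _ hane)
  have hua : IsUnit (φ a) := by
    have h := congrArg (eval (φ a)) q.X_mul_divX_add
    rw [eval_add, eval_mul, eval_X, eval_C, hqa] at h
    have h' : φ a * (-q.divX.eval (φ a)) = q.coeff 0 := by linear_combination -h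
    exact isUnit_of_mul_isUnit_left (h' ▸ hqu)
  obtain ⟨w, hw⟩ := hua.exists_right_inv
  obtain ⟨w, rfl⟩ := Ideal.Quotient.mk_surjective w
  rw [← map_mul, ← map_one φ, Ideal.Quotient.eq] at hw
  have h1 : (1 : A) ∈ IsLocalRing.maximalIdeal A := by
    rw [← sub_sub_cancel (a * w) 1]
    exact Ideal.sub_mem _ (Ideal.mul_mem_right _ _ ham)
      (IsLocalRing.le_maximalIdeal hP.ne_top hw)
  exact (IsLocalRing.mem_maximalIdeal _).mp h1 isUnit_one

/-- A place over a prime has a nonzero non-unit. -/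
theorem exists_residue_eq_zero [Fact ℓ.Prime] (hA : A.LiesOverPrime ℓ) :
    ∃ t : A, t ≠ 0 ∧ IsLocalRing.residue A t = 0 := by
  refine ⟨(ℓ : A), Nat.cast_ne_zero.mpr (Fact.out : ℓ.Prime).ne_zero, ?_⟩
  obtain ⟨hm, hu⟩ := (ValuationSubring.mem_nonunits_iff_exists_mem_maximalIdeal (A := A)
    (a := (ℓ : AlgebraicClosure ℚ))).mp hA
  exact (IsLocalRing.residue_eq_zero_iff _).mpr hu

/-- An integer prime to `ℓ` has nonzero residue at a place over `ℓ`. -/
theorem natCast_residue_ne_zero [Fact ℓ.Prime] (hA : A.LiesOverPrime ℓ) {m : ℕ} (hm : ¬ ℓ ∣ m) :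
    (m : IsLocalRing.ResidueField A) ≠ 0 := by
  rw [← map_natCast (IsLocalRing.residue A), Ne, IsLocalRing.residue_eq_zero_iff,
    IsLocalRing.mem_maximalIdeal, mem_nonunits_iff, not_not, ← Int.cast_natCast]
  exact isUnit_intCast_of_not_dvd hA (by exact_mod_cast hm)

end FLTAgent.Deuring
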