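import Fermat.Agent.Deuring.ModularModel
import Fermat.Agent.Deuring.Archimedean

/-!
# Reduction of `J₀(N)` modulo `ℓ`, given good reduction

Specialises `ModularModel` to the residue field of a place of `ℚ̄` over `ℓ`:
`reductionInputsModL`, and injectivity on torsion prime to `ℓ`
(`eq_zero_of_reductionModL_eq_zero`). Used by S18 and the congruence and Mazur steps.
-/

set_option autoImplicit false

noncomputable section

open AlgebraicCurve ModularCurve FLTAgent.GoodReduction

namespace FLTAgent.Deuring.Modular

variable {N : ℕ} {A : ValuationSubring (AlgebraicClosure ℚ)}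
variable (H : X0GoodReduction A (IsLocalRing.residue A) N)

include H in
theorem reductionInputsModL : ReductionInputsModL A N :=
  have := isAlgClosed_residueField A
  reductionInputsAlong_of_goodReduction H IsLocalRing.residue_surjective

variable {ℓ : ℕ} [Fact ℓ.Prime]

include H in
/-- For any reduction map, reduction is injective on torsion prime to `ℓ`. -/
theorem eq_zero_of_reductionPic0Along_residue (hA : A.LiesOverPrime ℓ)
    {r : Place (AlgebraicClosure ℚ) (modularFunctionFieldBar N) →
      Place (IsLocalRing.ResidueField A) (modularFunctionFieldFullC (IsLocalRing.ResidueField A) N)}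
    (hr : IsPlaceReductionModL A N r)
    (hgen : PrincipalGeneratedByIntegral A (IsLocalRing.residue A) N)
    {m : ℕ} (hm : ¬ ℓ ∣ m) (z : JZero N) (hmz : m • z = 0)
    (hz : reductionPic0Along r hr hgen z = 0) : z = 0 :=
  have := isAlgClosed_residueField A
  eq_zero_of_reductionPic0Along_eq_zero H IsLocalRing.residue_surjective
    (exists_dvd_pow hA) (exists_residue_eq_zero hA) hr hgen (natCast_residue_ne_zero hA hm) z hmz hz

include H in
/-- Reduction modulo `ℓ` is injective on torsion prime to `ℓ`. -/
theorem eq_zero_of_reductionModL_eq_zero (hA : A.LiesOverPrime ℓ) (h : ReductionInputsModL A N)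
    {m : ℕ} (hm : ¬ ℓ ∣ m) (z : JZero N) (hmz : m • z = 0) (hz : reductionModL A N z = 0) :
    z = 0 := by
  rw [show reductionModL A N = reductionPic0Along h.choose h.choose_spec.1 h.choose_spec.2 from
    reductionAlong_eq h] at hz
  exact eq_zero_of_reductionPic0Along_residue H hA h.choose_spec.1 h.choose_spec.2 hm z hmz hz

end FLTAgent.Deuring.Modular
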