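import Fermat.Agent.Deuring.PlaceMap
import Fermat.Agent.Semistable.CommonZero
import Mathlib.Algebra.Ring.GeomSum

/-!
# Injectivity of reduction on prime-to-residue-characteristic torsion

`mem_principal_of_mapDomain_mem_principal`: if `m • D` and the reduction of `D` are principal,
so is `D`. An `m`-th root is built to arbitrary precision on two charts, glued in a finite
lattice and shown to exist exactly. Used by `ModularModel` for `J₀(N)`.
-/

set_option autoImplicit false

noncomputable section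

open AlgebraicCurve

namespace FLTAgent.Deuring

theorem exists_one_add_pow {R : Type*} [CommRing R] (y : R) :
    ∀ m : ℕ, ∃ q, (1 + y) ^ m = 1 + (m : R) * y + y ^ 2 * q
  | 0 => ⟨0, by simp⟩
  | m + 1 => by
    obtain ⟨q, hq⟩ := exists_one_add_pow y m
    exact ⟨q + m + y * q, by rw [pow_succ, hq]; push_cast; ring⟩

variable {L k F Fb : Type*} [Field L] [Field k] [Field F] [Field Fb]
  [Algebra L F] [Algebra k Fb]

namespace Reduction

variable {C : Reduction L k F Fb} {r : Place L F → Place k Fb} [IsAlgClosed L] [IsAlgClosed k]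
  [FFBasic.IsFunctionField L F] [FFBasic.IsFunctionField k Fb]

/-- Decomposition of lattices with two disjointly reducing pole divisors. -/
theorem exists_decomp (hr : C.IsReductionMap r)
    (hgen : genusFF L F = genusFF k Fb) {X E E' : Divisor L F} (hX : Finsupp.mapDomain r X = 0)
    (hE : 0 ≤ E) (hE' : 0 ≤ E') (hdE' : rrBound L F < Divisor.degree E')
    (hdisj : ∀ Q, Finsupp.mapDomain r E Q = 0 ∨ Finsupp.mapDomain r E' Q = 0)
    (n n' : ℕ) (w : C.O)
    (hw : (w : F) ∈ riemannRochSpace (X + (n + 1) • E + (n' + 1) • E')) :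
    ∃ w₁ w₂ : C.O, (w₁ : F) ∈ riemannRochSpace (X + (n + 1) • E + E') ∧
      (w₂ : F) ∈ riemannRochSpace (X + E + (n' + 1) • E') ∧ w = w₁ + w₂ := by
  have hX0 : Divisor.degree X = 0 := by rw [← degree_mapDomain hr.1 X, hX, map_zero]
  have hpos : 0 ≤ Divisor.degree E ∧ 0 ≤ Divisor.degree E' := by
    constructor <;>
    · simp only [Divisor.degree, Finsupp.liftAddHom_apply]
      refine Finsupp.sum_nonneg fun v _ => ?_
      first
        | exact mul_nonneg (hE v) (Int.natCast_nonneg _)
        | exact mul_nonneg (hE' v) (Int.natCast_nonneg _)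
  set V := riemannRochSpace (X + (n + 1) • E + (n' + 1) • E') with hVdef
  set W₁ := riemannRochSpace (X + (n + 1) • E + E') with hW₁
  set W₂ := riemannRochSpace (X + E + (n' + 1) • E') with hW₂
  have hE'n : E' ≤ (n' + 1) • E' := by
    rw [succ_nsmul]; exact le_add_of_nonneg_left (nsmul_nonneg hE' n')
  have hEn : E ≤ (n + 1) • E := by
    rw [succ_nsmul]; exact le_add_of_nonneg_left (nsmul_nonneg hE n)
  refine C.exists_add_of_resSub_le (FFBasic.riemannRochSpace_mono (by gcongr))
    (FFBasic.riemannRochSpace_mono (by gcongr)) ?_ w hw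
  have hdn : 0 ≤ (n : ℤ) * Divisor.degree E := mul_nonneg (Int.natCast_nonneg _) hpos.1
  have hdn' : 0 ≤ (n' : ℤ) * Divisor.degree E' := mul_nonneg (Int.natCast_nonneg _) hpos.2
  rw [resSub_rr_eq hr hgen _ (by simp [hX0]; nlinarith),
    resSub_rr_eq hr hgen _ (by simp [hX0]; nlinarith),
    resSub_rr_eq hr hgen _ (by simp [hX0]; nlinarith)]
  simp only [Finsupp.mapDomain_add, hX, zero_add]
  set e := Finsupp.mapDomain r E with he
  set e' := Finsupp.mapDomain r E' with he'
  have hn1 : Finsupp.mapDomain r ((n + 1) • E) = (n + 1) • e :=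
    (Finsupp.mapDomain.addMonoidHom r).map_nsmul _ _
  have hn2 : Finsupp.mapDomain r ((n' + 1) • E') = (n' + 1) • e' :=
    (Finsupp.mapDomain.addMonoidHom r).map_nsmul _ _
  rw [hn1, hn2]
  have de : Divisor.degree e = Divisor.degree E := degree_mapDomain hr.1 E
  have de' : Divisor.degree e' = Divisor.degree E' := degree_mapDomain hr.1 E'
  have he0 : 0 ≤ e := mapDomain_nonneg r hE
  have he0' : 0 ≤ e' := mapDomain_nonneg r hE'
  set S₁ := riemannRochSpace ((n + 1) • e + e') with hS₁
  set S₂ := riemannRochSpace (e + (n' + 1) • e') with hS₂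
  set T := riemannRochSpace ((n + 1) • e + (n' + 1) • e') with hT
  have hsup : S₁ ⊔ S₂ ≤ T := by
    refine sup_le (FFBasic.riemannRochSpace_mono ?_) (FFBasic.riemannRochSpace_mono ?_)
    · gcongr; rw [succ_nsmul]; exact le_add_of_nonneg_left (nsmul_nonneg he0' n')
    · gcongr; rw [succ_nsmul]; exact le_add_of_nonneg_left (nsmul_nonneg he0 n)
  have hinf : S₁ ⊓ S₂ ≤ riemannRochSpace (e + e') := by
    rintro f ⟨h1, h2⟩
    refine mem_rr_inf (fun Q => ?_) h1 h2
    simp only [Finsupp.add_apply, Finsupp.smul_apply, nsmul_eq_mul]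
    push_cast
    rcases hdisj Q with h | h <;> rw [h] <;> simp
  refine (Submodule.eq_of_le_of_finrank_le hsup ?_).ge
  have h1 := Submodule.finrank_sup_add_finrank_inf_eq S₁ S₂
  have h2 := Submodule.finrank_mono hinf
  have d0 := finrank_rr_of_genus_eq hgen (D := e + e') (by rw [map_add, de, de']; linarith)
  have d1 := finrank_rr_of_genus_eq hgen (D := (n + 1) • e + e') (by simp [de, de']; nlinarith)
  have d2 := finrank_rr_of_genus_eq hgen (D := e + (n' + 1) • e') (by simp [de, de']; nlinarith)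
  have d3 := finrank_rr_of_genus_eq hgen (D := (n + 1) • e + (n' + 1) • e')
    (by simp [de, de']; nlinarith)
  rw [← hS₁] at d1
  rw [← hS₂] at d2
  rw [← hT] at d3
  simp only [map_add, map_nsmul, de, de', nsmul_eq_mul] at d0 d1 d2 d3
  push_cast at d1 d2 d3
  linarith

/-- Newton approximations to `f ^ (-1/m)` with poles along multiples of `E`. -/
theorem exists_newton (hr : C.IsReductionMap r)
    (hgen : genusFF L F = genusFF k Fb) {m : ℕ} (hm : (m : k) ≠ 0) {X E : Divisor L F}
    (hX : Finsupp.mapDomain r X = 0) (hE : 0 ≤ E) (hdE : rrBound L F < Divisor.degree E)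
    (f : C.O) (hfX : ∀ P, P.ord (f : F) = (m : ℤ) * X P) (hf1 : C.res f = 1)
    (harch : ∀ a b : C.A, C.π a = 0 → b ≠ 0 → ∃ N, b ∣ a ^ N) (b : C.A) (hb : b ≠ 0) :
    ∃ (N : ℕ) (u : C.O), (u : F) ∈ riemannRochSpace (X + (N + 1) • E) ∧ C.res u = 1 ∧
      C.ι b ∣ 1 - u ^ m * f := by
  obtain ⟨u₀, hu₀, hu₀1⟩ := exists_lift hr hgen (X + E)
    (by rw [map_add, ← degree_mapDomain hr.1 X, hX, map_zero, zero_add]; exact hdE)
    (w := 1) (one_mem_rr (by rw [Finsupp.mapDomain_add, hX, zero_add]; exact mapDomain_nonneg r hE))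
  have hmu : IsUnit (m : C.O) := C.isUnit_of_res_ne_zero (by
    rw [map_natCast, ← map_natCast (algebraMap k Fb)]
    exact (map_ne_zero _).mpr hm)
  obtain ⟨mi, hmi⟩ := hmu.exists_left_inv
  have hmiL : ∃ c : L, (mi : F) = algebraMap L F c := by
    refine ⟨(m : L)⁻¹, ?_⟩
    have h : (mi : F) * (m : F) = 1 := by simpa using congrArg Subtype.val hmi
    rw [map_inv₀, map_natCast]
    exact eq_inv_of_mul_eq_one_left h
  obtain ⟨cm, hcm⟩ := hmiL
  have key : ∀ j : ℕ, ∃ (N : ℕ) (u : C.O), (u : F) ∈ riemannRochSpace (X + (N + 1) • E) ∧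
      C.res u = 1 ∧ (1 - u₀ ^ m * f) ^ (2 ^ j) ∣ 1 - u ^ m * f := by
    intro j
    induction j with
    | zero => exact ⟨0, u₀, by simpa using hu₀, hu₀1, by simp⟩
    | succ j ih =>
      obtain ⟨N, u, hu, hu1, hdvd⟩ := ih
      set e := 1 - u ^ m * f with he
      have hres_e : C.res e = 0 := by simp [he, hu1, hf1]
      have hE0 : 0 ≤ (m * (N + 1)) • E := nsmul_nonneg hE _
      have heL : (e : F) ∈ riemannRochSpace ((m * (N + 1)) • E) := by
        rw [he]
        push_cast
        refine Submodule.sub_mem _ (one_mem_rr hE0) ?_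
        have hfm : (f : F) ∈ riemannRochSpace (-((m : ℕ) • X)) :=
          mem_riemannRochSpace_iff.mpr fun P => Or.inr (by simp [hfX P])
        refine FFBasic.riemannRochSpace_mono (le_of_eq ?_)
          (FFBasic.mul_mem_riemannRochSpace (FFBasic.pow_mem_riemannRochSpace hu m) hfm)
        rw [nsmul_add, ← mul_nsmul', add_right_comm, add_neg_cancel, zero_add]
      obtain ⟨q, hq⟩ := exists_one_add_pow (mi * e) m
      refine ⟨N + m * (N + 1), u * (1 + mi * e), ?_, ?_, ?_⟩
      · have h1 : ((1 + mi * e : C.O) : F) ∈ riemannRochSpace ((m * (N + 1)) • E) := by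
          push_cast
          refine Submodule.add_mem _ (one_mem_rr hE0) ?_
          rw [hcm, ← Algebra.smul_def]
          exact Submodule.smul_mem _ _ heL
        refine FFBasic.riemannRochSpace_mono (le_of_eq ?_)
          (by exact_mod_cast FFBasic.mul_mem_riemannRochSpace hu h1)
        rw [add_assoc, ← add_nsmul]
        ring_nf
      · simp [hu1, hres_e]
      · have hid : 1 - (u * (1 + mi * e)) ^ m * f = e ^ 2 * (1 - (1 - e) * mi ^ 2 * q) := by
          have huf : u ^ m * f = 1 - e := by rw [he]; ring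
          have hm1 : (m : C.O) * (mi * e) = e := by
            rw [← mul_assoc, mul_comm (m : C.O), hmi, one_mul]
          rw [mul_pow, mul_right_comm, huf, hq, hm1]
          ring
        rw [hid, pow_succ, pow_mul]
        exact (pow_dvd_pow_of_dvd hdvd 2).mul_right _
  by_cases h0 : 1 - u₀ ^ m * f = 0
  · exact ⟨0, u₀, by simpa using hu₀, hu₀1, h0 ▸ dvd_zero _⟩
  obtain ⟨a, w, hw, hae, -⟩ := C.exists_eq_ι_mul_unit h0
  have hπa : C.π a = 0 := by
    have := congrArg C.res hae
    simp only [map_sub, map_one, map_mul, map_pow, hu₀1, hf1, one_pow, mul_one, sub_self,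
      res_ι] at this
    have hw0 : C.res w ≠ 0 := C.res_ne_zero_iff.mpr hw
    have h2 := (mul_eq_zero.mp this.symm).resolve_right hw0
    simpa using h2
  obtain ⟨N, hN⟩ := harch a b hπa hb
  obtain ⟨N', u, hu, hu1, hd⟩ := key N
  refine ⟨N', u, hu, hu1, dvd_trans ?_ hd⟩
  rw [hae, mul_pow]
  refine Dvd.dvd.mul_right (dvd_trans ((map_dvd C.ι hN).trans ?_) dvd_rfl) _
  rw [map_pow]
  exact pow_dvd_pow _ Nat.lt_two_pow_self.le

/-- Approximate `m`-th roots in a fixed lattice. -/
theorem exists_bounded_approx (hr : C.IsReductionMap r)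
    (hgen : genusFF L F = genusFF k Fb) {m : ℕ} (hm : (m : k) ≠ 0) {X E E' : Divisor L F}
    (hX : Finsupp.mapDomain r X = 0) (hE : 0 ≤ E) (hE' : 0 ≤ E')
    (hdE : rrBound L F < Divisor.degree E) (hdE' : rrBound L F < Divisor.degree E')
    (hdisj : ∀ Q, Finsupp.mapDomain r E Q = 0 ∨ Finsupp.mapDomain r E' Q = 0)
    (f : C.O) (hfX : ∀ P, P.ord (f : F) = (m : ℤ) * X P) (hf1 : C.res f = 1)
    (harch : ∀ a b : C.A, C.π a = 0 → b ≠ 0 → ∃ N, b ∣ a ^ N) (b : C.A) (hb : b ≠ 0) :
    ∃ u : C.O, (u : F) ∈ riemannRochSpace (X + E + E') ∧ C.ι b ∣ 1 - u ^ m * f := by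
  obtain ⟨N, u, hu, hu1, hud⟩ := exists_newton hr hgen hm hX hE hdE f hfX hf1 harch b hb
  obtain ⟨N', u', hu', hu'1, hud'⟩ := exists_newton hr hgen hm hX hE' hdE' f hfX hf1 harch b hb
  set S := ∑ i ∈ Finset.range m, u ^ i * u' ^ (m - 1 - i) with hS
  have hSf : IsUnit (S * f) := C.isUnit_of_res_ne_zero (by
    simp only [map_mul, hf1, mul_one, hS, map_sum, map_pow, hu1, hu'1, one_pow,
      Finset.sum_const, Finset.card_range, nsmul_eq_mul]
    rw [← map_natCast (algebraMap k Fb)]
    exact (map_ne_zero _).mpr hm)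
  have hdiff : C.ι b ∣ u - u' := by
    rw [← hSf.dvd_mul_right (b := u - u')]
    have : (u - u') * (S * f) = (1 - u' ^ m * f) - (1 - u ^ m * f) := by
      have hg := geom_sum₂_mul u u' m
      rw [← hS] at hg
      linear_combination (f : C.O) * hg
    rw [this]
    exact dvd_sub hud' hud
  obtain ⟨w, hw⟩ := hdiff
  have hb0 : (b : L) ≠ 0 := fun h => hb (Subtype.ext h)
  have hwL : (w : F) ∈ riemannRochSpace (X + (N + 1) • E + (N' + 1) • E') := by
    have h1 : (w : F) = (b : L)⁻¹ • ((u : F) - (u' : F)) := by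
      have h := congrArg Subtype.val hw
      push_cast at h
      simp only [coe_ι] at h
      rw [h, ← Algebra.smul_def, inv_smul_smul₀ hb0]
    rw [h1]
    refine Submodule.smul_mem _ _ (Submodule.sub_mem _ (FFBasic.riemannRochSpace_mono ?_ hu)
      (FFBasic.riemannRochSpace_mono ?_ hu'))
    · exact le_add_of_nonneg_right (nsmul_nonneg hE' _)
    · rw [add_right_comm]; exact le_add_of_nonneg_right (nsmul_nonneg hE _)
  obtain ⟨w₁, w₂, h₁, h₂, hw12⟩ := exists_decomp hr hgen hX hE hE' hdE' hdisj N N' w hwL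
  set v := u - C.ι b * w₁ with hv
  have hv' : v = u' + C.ι b * w₂ := by
    rw [hv, sub_eq_iff_eq_add', ← add_assoc, add_comm _ u', add_assoc, ← mul_add, ← hw12, ← hw]
    ring
  refine ⟨v, ?_, ?_⟩
  · refine mem_rr_inf (D := X + (N + 1) • E + E') (E := X + E + (N' + 1) • E') (fun P => ?_) ?_ ?_
    · simp only [Finsupp.add_apply, Finsupp.smul_apply, nsmul_eq_mul]
      have he := hE P
      have he' := hE' P
      simp only [Finsupp.zero_apply] at he he'
      push_cast
      rcases eq_or_lt_of_le he with h | h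
      · rw [← h]; simp
      rcases eq_or_lt_of_le he' with h' | h'
      · rw [← h']; simp
      exfalso
      have key : ∀ (G : Divisor L F), 0 ≤ G → 0 < G P → 0 < Finsupp.mapDomain r G (r P) := by
        intro G hG hGP
        have h3 : Finsupp.single P (G P) ≤ G := by
          classical
          intro P'
          rw [Finsupp.single_apply]
          split_ifs with heq
          · rw [heq]
          · exact hG P'
        have h4 := mapDomain_nonneg r (sub_nonneg.mpr h3) (r P)
        rw [Finsupp.mapDomain_sub, Finsupp.sub_apply, Finsupp.mapDomain_single,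
          Finsupp.single_eq_same] at h4
        simp only [Finsupp.zero_apply] at h4
        omega
      rcases hdisj (r P) with h5 | h5
      · exact (key E hE h).ne' h5
      · exact (key E' hE' h').ne' h5
    · rw [hv]; push_cast
      refine Submodule.sub_mem _ (FFBasic.riemannRochSpace_mono (le_add_of_nonneg_right hE') hu) ?_
      simp only [coe_ι, ← Algebra.smul_def]
      exact Submodule.smul_mem _ _ h₁
    · rw [hv']; push_cast
      refine Submodule.add_mem _ (FFBasic.riemannRochSpace_mono ?_ hu') ?_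
      · rw [add_right_comm]; exact le_add_of_nonneg_right hE
      simp only [coe_ι, ← Algebra.smul_def]
      exact Submodule.smul_mem _ _ h₂
  · have h1 : C.ι b ∣ u ^ m - v ^ m :=
      dvd_trans ⟨w₁, by rw [hv]; ring⟩ (sub_dvd_pow_sub_pow u v m)
    have : 1 - v ^ m * f = (1 - u ^ m * f) + (u ^ m - v ^ m) * f := by ring
    rw [this]
    exact dvd_add hud (h1.mul_right _)

omit [IsAlgClosed k] [FFBasic.IsFunctionField L F] [FFBasic.IsFunctionField k Fb] in
/-- An exact root from approximate roots in a fixed finite dimensional space. -/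
theorem exists_root {m : ℕ} (f : C.O) (V : Submodule L F)
    [FiniteDimensional L V] (ht : ∃ t : C.A, t ≠ 0 ∧ C.π t = 0)
    (happ : ∀ b : C.A, b ≠ 0 → ∃ u : C.O, (u : F) ∈ V ∧ C.ι b ∣ 1 - u ^ m * f) :
    ∃ v : F, v ∈ V ∧ v ^ m * (f : F) = 1 := by
  classical
  obtain ⟨β, hβV, hβ⟩ := C.ortho V
  let G : MvPolynomial (Fin (Module.finrank L V)) C.O :=
    MvPolynomial.C f * (∑ i, MvPolynomial.C (β i) * MvPolynomial.X i) ^ m - 1
  let W : Submodule L F :=
    Submodule.span L (Set.range fun d : G.support => ((G.coeff d.1 : C.O) : F))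
  have : FiniteDimensional L W := FiniteDimensional.span_of_finite L (Set.finite_range _)
  obtain ⟨γ, hγW, hγ⟩ := C.ortho W
  choose a ha using fun d : G.support =>
    C.exists_coords γ hγW hγ (G.coeff d.1) (Submodule.subset_span ⟨d, rfl⟩)
  let P : Fin (Module.finrank L W) → MvPolynomial (Fin (Module.finrank L V)) C.A :=
    fun l => ∑ d : G.support, MvPolynomial.monomial d.1 (a d l)
  have hG : G = ∑ l, MvPolynomial.C (γ l) * MvPolynomial.map C.ι (P l) := by
    simp only [P, map_sum, MvPolynomial.map_monomial, Finset.mul_sum, MvPolynomial.C_mul_monomial]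
    rw [Finset.sum_comm]
    conv_lhs => rw [G.as_sum, ← Finset.sum_coe_sort]
    refine Finset.sum_congr rfl fun d _ => ?_
    rw [ha d, map_sum (MvPolynomial.monomial d.1)]
    exact Finset.sum_congr rfl fun l _ => by rw [mul_comm (C.ι (a d l))]
  have happP : ∀ b : C.A, b ≠ 0 → ∃ x : Fin (Module.finrank L V) → C.A,
      ∀ l, b ∣ MvPolynomial.eval x (P l) := by
    intro b hb
    obtain ⟨u, huV, c, hc⟩ := happ b hb
    obtain ⟨x, rfl⟩ := C.exists_coords β hβV hβ u huV
    refine ⟨x, ?_⟩
    have hev : MvPolynomial.eval (fun i => C.ι (x i)) G =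
        ∑ l, C.ι (MvPolynomial.eval x (P l)) * γ l := by
      rw [hG, map_sum]
      refine Finset.sum_congr rfl fun l _ => ?_
      rw [map_mul, MvPolynomial.eval_C, mul_comm, MvPolynomial.eval_map,
        show MvPolynomial.eval₂ C.ι (fun i => C.ι (x i)) (P l) =
            C.ι (MvPolynomial.eval x (P l)) from
          (MvPolynomial.eval₂_comp C.ι x (P l)).symm]
    have hev2 : MvPolynomial.eval (fun i => C.ι (x i)) G = C.ι b * (-c) := by
      rw [mul_neg, ← hc]
      simp only [G, map_sub, map_mul, map_pow, map_sum, map_one, MvPolynomial.eval_C,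
        MvPolynomial.eval_X]
      simp only [mul_comm (C.ι _) (β _)]
      ring
    have hcW : ((-c : C.O) : F) ∈ W := by
      have hb0 : (b : L) ≠ 0 := fun h => hb (Subtype.ext h)
      have h := congrArg Subtype.val (hev2.symm.trans hev)
      push_cast at h
      simp only [coe_ι, mul_neg] at h
      push_cast
      rw [show -(c : F) = (b : L)⁻¹ • -(algebraMap L F b * (c : F)) by
        rw [smul_neg, ← Algebra.smul_def, inv_smul_smul₀ hb0], h]
      refine Submodule.smul_mem _ _ (Submodule.sum_mem _ fun l _ => ?_)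
      rw [← Algebra.smul_def]
      exact Submodule.smul_mem _ _ (hγW l)
    obtain ⟨y, hy⟩ := C.exists_coords γ hγW hγ (-c) hcW
    intro l
    refine ⟨y l, ?_⟩
    have hz : ∑ j, (((MvPolynomial.eval x (P j) : C.A) : L) - ((b * y j : C.A) : L)) • (γ j : F)
        = 0 := by
      simp only [sub_smul, Finset.sum_sub_distrib]
      rw [sub_eq_zero]
      have h : (∑ j, C.ι (MvPolynomial.eval x (P j)) * γ j : C.O) =
          ∑ j, C.ι (b * y j) * γ j := by
        rw [← hev, hev2, hy, Finset.mul_sum]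
        exact Finset.sum_congr rfl fun j _ => by rw [map_mul, mul_assoc]
      have h' := congrArg Subtype.val h
      push_cast at h'
      simpa [Algebra.smul_def] using h'
    have := Fintype.linearIndependent_iff.mp (C.linearIndependent_of_res γ hγ) _ hz l
    exact Subtype.ext (sub_eq_zero.mp this)
  obtain ⟨x, hx⟩ := Semistable.exists_exact_zero C.π P ht happP
  refine ⟨∑ i, x i • (β i : F), V.sum_mem fun i _ => V.smul_mem _ (hβV i), ?_⟩
  have h0 : MvPolynomial.eval₂ C.O.subtype (fun i => algebraMap L F (x i)) G = 0 := by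
    rw [hG, MvPolynomial.eval₂_sum]
    refine Finset.sum_eq_zero fun l _ => ?_
    rw [MvPolynomial.eval₂_mul, MvPolynomial.eval₂_map,
      show C.O.subtype.comp C.ι = (algebraMap L F).comp C.A.subtype from RingHom.ext fun _ => rfl]
    have : MvPolynomial.eval₂ ((algebraMap L F).comp C.A.subtype)
        (fun i => algebraMap L F (x i)) (P l) = 0 := by
      rw [show (fun i => algebraMap L F (x i)) = algebraMap L F ∘ x from rfl,
        ← MvPolynomial.eval₂_comp_left, ← MvPolynomial.eval_map, hx l, map_zero]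
    rw [this, mul_zero]
  simp only [G, MvPolynomial.eval₂_sub, MvPolynomial.eval₂_mul, MvPolynomial.eval₂_pow,
    MvPolynomial.eval₂_C, MvPolynomial.eval₂_sum, MvPolynomial.eval₂_X, MvPolynomial.eval₂_one,
    sub_eq_zero] at h0
  rw [← h0]
  simp [Algebra.smul_def, mul_comm]

/-- **Injectivity**: an `m`-torsion divisor class with principal reduction is trivial. -/
theorem mem_principal_of_mapDomain_mem_principal (hr : C.IsReductionMap r)
    (hgen : genusFF L F = genusFF k Fb)
    (hdeg : ∀ P : Place L F, P.deg = 1) (hnc : ∃ P P', r P ≠ r P')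
    (harch : ∀ a b : C.A, C.π a = 0 → b ≠ 0 → ∃ N, b ∣ a ^ N)
    (ht : ∃ t : C.A, t ≠ 0 ∧ C.π t = 0) {m : ℕ} (hm : (m : k) ≠ 0) {D : Divisor L F}
    (hD : Divisor.degree D = 0) (hmD : m • D ∈ Divisor.principal (K := L) (F := F))
    (hrD : Finsupp.mapDomain r D ∈ Divisor.principal (K := k) (F := Fb)) :
    D ∈ Divisor.principal (K := L) (F := F) := by
  classical
  obtain ⟨P₁, P₂, hP⟩ := hnc
  set a : ℤ := (rrBound L F).natAbs + 1 with ha
  set E : Divisor L F := Finsupp.single P₁ a with hEdef
  set E' : Divisor L F := Finsupp.single P₂ a with hE'def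
  have hE : 0 ≤ E := by rw [hEdef, Finsupp.single_nonneg]; omega
  have hE' : 0 ≤ E' := by rw [hE'def, Finsupp.single_nonneg]; omega
  have hdE : rrBound L F < Divisor.degree E := by
    rw [hEdef, Divisor.degree_single, hdeg]; push_cast; omega
  have hdE' : rrBound L F < Divisor.degree E' := by
    rw [hE'def, Divisor.degree_single, hdeg]; push_cast; omega
  have hdisj : ∀ Q, Finsupp.mapDomain r E Q = 0 ∨ Finsupp.mapDomain r E' Q = 0 := by
    intro Q
    rw [hEdef, hE'def, Finsupp.mapDomain_single, Finsupp.mapDomain_single]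
    by_cases h : r P₁ = Q
    · right
      rw [Finsupp.single_apply, if_neg fun h' => hP (h.trans h'.symm)]
    · left
      rw [Finsupp.single_apply, if_neg h]
  -- move `D` to a divisor with zero push-forward
  obtain ⟨g, hg, hgD⟩ := hrD
  have hginv : g⁻¹ ∈ riemannRochSpace (Finsupp.mapDomain r (D + E)) := by
    refine mem_riemannRochSpace_iff.mpr fun Q => Or.inr ?_
    rw [Finsupp.mapDomain_add, Finsupp.add_apply, Q.ord_inv, hgD Q]
    have : (0 : ℤ) ≤ Finsupp.mapDomain r E Q := mapDomain_nonneg r hE Q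
    omega
  obtain ⟨G, -, hG⟩ := exists_lift hr hgen (D + E) (by rw [map_add, hD, zero_add]; exact hdE) hginv
  have hGres : C.res G ≠ 0 := by rw [hG]; exact inv_ne_zero hg
  have hG0 : (G : F) ≠ 0 := fun h =>
    hGres (by rw [show G = 0 from Subtype.ext h, map_zero])
  obtain ⟨DG, hDG, -⟩ := HasPrincipalDivisors.exists_divisor (K := L) (G : F) hG0
  set X := D + DG with hXdef
  have hX : Finsupp.mapDomain r X = 0 := by
    ext Q
    rw [hXdef, Finsupp.mapDomain_add, Finsupp.add_apply, hr.2 G hGres DG hDG Q, hG, Q.ord_inv,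
      hgD Q]
    simp
  have hDGp : DG ∈ Divisor.principal (K := L) (F := F) := ⟨_, hG0, hDG⟩
  suffices hXp : X ∈ Divisor.principal (K := L) (F := F) by
    simpa [hXdef] using AddSubgroup.sub_mem _ hXp hDGp
  -- normalise the function with divisor `m X`
  have hmX : m • X ∈ Divisor.principal (K := L) (F := F) := by
    rw [hXdef, nsmul_add]
    exact AddSubgroup.add_mem _ hmD (AddSubgroup.nsmul_mem _ hDGp m)
  obtain ⟨f₀, hf₀, hf₀X⟩ := hmX
  obtain ⟨f₁, hf₁r, hf₁o⟩ := C.exists_unit_same_ord hf₀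
  obtain ⟨c₀, hc₀⟩ := exists_const_of_forall_ord_nonneg (K := k) (f := C.res f₁) fun Q => by
    rw [← hr.2 f₁ hf₁r (m • X) (fun P => by rw [hf₁o, hf₀X]) Q,
      ← Finsupp.mapDomain.addMonoidHom_apply, map_nsmul, Finsupp.mapDomain.addMonoidHom_apply, hX]
    simp
  have hc0 : c₀ ≠ 0 := fun h => hf₁r (by rw [← hc₀, h, map_zero])
  obtain ⟨ai, hai⟩ := C.π_surj c₀⁻¹
  have hai0 : (ai : L) ≠ 0 := fun h => inv_ne_zero hc0 (by
    rw [← hai, show ai = 0 from Subtype.ext h, map_zero])
  set f := C.ι ai * f₁ with hfdef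
  have hf1 : C.res f = 1 := by
    rw [hfdef, map_mul, res_ι, hai, ← hc₀, ← map_mul, inv_mul_cancel₀ hc0, map_one]
  have hf0 : (f : F) ≠ 0 := fun h => by
    rw [show f = 0 from Subtype.ext h, map_zero] at hf1
    exact zero_ne_one hf1
  have hfX : ∀ P, P.ord (f : F) = (m : ℤ) * X P := fun P => by
    rw [hfdef]; push_cast
    rw [coe_ι, ← Algebra.smul_def, FFBasic.ord_smul_const P hai0, hf₁o, ← hf₀X]
    simp
  obtain ⟨v, -, hv⟩ := exists_root f (riemannRochSpace (X + E + E')) ht fun b hb =>
    exists_bounded_approx hr hgen hm hX hE hE' hdE hdE' hdisj f hfX hf1 harch b hb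
  have hm0 : m ≠ 0 := by rintro rfl; simp at hm
  have hv0 : v ≠ 0 := fun h => by rw [h, zero_pow hm0, zero_mul] at hv; exact zero_ne_one hv
  refine ⟨v⁻¹, inv_ne_zero hv0, fun P => ?_⟩
  have h := congrArg P.ord hv
  rw [P.ord_mul (pow_ne_zero _ hv0) hf0, FFBasic.ord_pow, hfX, P.ord_one] at h
  rw [P.ord_inv]
  have : (m : ℤ) * (X P + P.ord v) = 0 := by rw [mul_add]; linarith
  have := (mul_eq_zero.mp this).resolve_left (by exact_mod_cast hm0)
  omega

end Reduction

end FLTAgent.Deuring
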