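import Fermat.Agent.Deuring.ModelAtlas
import Fermat.Agent.Deuring.Injective
import Fermat.Agent.GoodReduction.Data
import Fermat.Prelude.Def_ModularCurve_ReductionModL
import Mathlib.FieldTheory.Relrank

/-!
# Good reduction of `X₀(N)`: integral series and basis lifts

From the record `X0GoodReduction`: the ring `seriesRing` of functions with integral `q`-series,
its reduction `red`, transcendence of `j` and lifts of a basis over `k(j)` (`exists_basis_lifts`).
These feed the model built in `ModularModel`.
-/

set_option autoImplicit false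

noncomputable section

open AlgebraicCurve ModularCurve Polynomial IntermediateField
open FLTAgent.GoodReduction FLTAgent.FFBasic

namespace FLTAgent.Deuring.Modular

section Series

variable (K : Type*) [Field K]

theorem coeff_aeval_j (p : K[X]) :
    (aeval (jqModC K) p).coeff (-(p.natDegree : ℤ)) = p.leadingCoeff := by
  rw [aeval_eq_sum_range, HahnSeries.coeff_sum, Finset.sum_eq_single p.natDegree]
  · rw [Algebra.smul_def, algebraMap_laurentSeries_eq_single, HahnSeries.coeff_single_zero_mul,
      ModularCurve.coeff_jqModC_pow_self, mul_one]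
    rfl
  · intro i hi hne
    rw [Algebra.smul_def, algebraMap_laurentSeries_eq_single, HahnSeries.coeff_single_zero_mul,
      ModularCurve.coeff_jqModC_pow_of_lt, mul_zero]
    simp only [Finset.mem_range] at hi
    omega
  · simp

theorem transcendental_j : Transcendental K (jqModC K) := by
  rintro ⟨p, hp, h⟩
  have := coeff_aeval_j K p
  rw [h, HahnSeries.coeff_zero] at this
  exact hp (Polynomial.leadingCoeff_eq_zero.mp this.symm)

end Series

section General

variable {K E : Type*} [Field K] [Field E] [Algebra K E] (B : IntermediateField K E)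

theorem transcendental_subtype {x : B} (hx : Transcendental K (x : E)) : Transcendental K x :=
  fun h => hx (h.algHom B.val)

theorem relfinrank_adjoin_eq (x : B) :
    relfinrank (adjoin K {(x : E)}) B = Module.finrank (adjoin K {x}) B := by
  have h1 : (adjoin K {x}).map B.val = adjoin K {(x : E)} := by
    rw [adjoin_map, Set.image_singleton]; rfl
  have h2 : (⊤ : IntermediateField K B).map B.val = B := by
    rw [← AlgHom.fieldRange_eq_map, fieldRange_val]
  conv_lhs => rw [← h1]
  rw [show relfinrank ((adjoin K {x}).map B.val) B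
      = relfinrank ((adjoin K {x}).map B.val) ((⊤ : IntermediateField K B).map B.val) by rw [h2],
    relfinrank_map_map, relfinrank_top_right]

theorem isIntegral_coe_of_isIntegral {y f : B}
    (h : IsIntegral (Algebra.adjoin K ({y} : Set B)) f) :
    IsIntegral (Algebra.adjoin K ({(y : E)} : Set E)) (f : E) := by
  have hmap : (Algebra.adjoin K ({y} : Set B)).map B.val =
      Algebra.adjoin K ({(y : E)} : Set E) := by
    rw [AlgHom.map_adjoin_singleton]; rfl
  let φ : Algebra.adjoin K ({y} : Set B) →+* Algebra.adjoin K ({(y : E)} : Set E) :=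
    { toFun := fun g => ⟨((g : B) : E), hmap ▸ ⟨(g : B), g.2, rfl⟩⟩
      map_one' := rfl
      map_mul' := fun _ _ => rfl
      map_zero' := rfl
      map_add' := fun _ _ => rfl }
  exact h.map_of_comp_eq φ B.val.toRingHom (RingHom.ext fun _ => rfl)

/-- Clearing the finite poles of a function with a polynomial in `x`. -/
theorem exists_aeval_mul_inB {F : Type*} [Field F] [Algebra K F] [IsAlgClosed K]
    [IsFunctionField K F] {x : F} (hx : Transcendental K x) (w : F) :
    ∃ q : K[X], q ≠ 0 ∧ InB K x (aeval x q * w) := by
  classical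
  set S := (pol (K := K) w).support.filter fun v => 0 ≤ v.ord x with hS
  have hval : ∀ v ∈ S, ∃ c : K, 0 < v.ord (x - algebraMap K F c) := fun v hv =>
    exists_value v hx (Finset.mem_filter.mp hv).2
  choose! c hc using hval
  refine ⟨∏ v ∈ S, (X - C (c v)) ^ (pol (K := K) w v).toNat,
    Finset.prod_ne_zero_iff.mpr fun v _ => pow_ne_zero _ (X_sub_C_ne_zero _), fun v hv => ?_⟩
  have hreg : ∀ p : K[X], aeval x p ∈ v.toValuationSubring := fun p =>
    aeval_mem v.algebraMap_mem' (mem_of_ord_nonneg v hv) p
  by_cases hvS : v ∈ S
  · rw [← Finset.mul_prod_erase S _ hvS, map_mul, map_pow, map_sub, aeval_X, aeval_C]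
    set n := (pol (K := K) w v).toNat with hn
    have hnw : -(n : ℤ) ≤ v.ord w := by
      rw [hn, pol_apply]
      omega
    have hn' : (n : ℤ) * 1 ≤ (n : ℤ) * v.ord (x - algebraMap K F (c v)) :=
      mul_le_mul_of_nonneg_left (hc v hvS) (Int.natCast_nonneg n)
    have hA : (x - algebraMap K F (c v)) ^ n ∈ filt v (n : ℤ) :=
      mem_filt_of_le (by rw [FFBasic.ord_pow]; omega)
    have h1 := mul_mem_filt (mul_mem_filt hA (mem_filt_zero.mpr (hreg
      (∏ u ∈ S.erase v, (X - C (c u)) ^ (pol (K := K) w u).toNat)))) (mem_filt_of_le hnw)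
    rw [add_zero, add_neg_cancel] at h1
    exact ord_nonneg_of_mem v (mem_filt_zero.mp h1)
  · have hw : 0 ≤ v.ord w := by
      by_contra hlt
      refine hvS (Finset.mem_filter.mpr ⟨Finsupp.mem_support_iff.mpr ?_, hv⟩)
      rw [pol_apply]
      omega
    exact ord_nonneg_of_mem v (mul_mem (hreg _) (mem_of_ord_nonneg v hw))

end General

variable {L : Type*} [Field L] [Algebra ℚ L] (A : ValuationSubring L)
variable {k : Type*} [Field k] (π : A →+* k) (N : ℕ)

/-- The generic fibre. -/
abbrev FF (L : Type*) [Field L] [Algebra ℚ L] (N : ℕ) : IntermediateField L (LaurentSeries L) :=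
  laurentBaseChange L (modularFunctionFieldFull N)

omit [Algebra ℚ L] in
theorem coeffMap_subtype_injective : Function.Injective (coeffMap (A.subtype : A →+* L)) := by
  intro a b h
  ext n
  have := congrArg (fun z : LaurentSeries L => z.coeff n) h
  simpa [coeffMap_coeff] using this

theorem jqModC_mem_FF (L : Type*) [Field L] [Algebra ℚ L] (N : ℕ) : jqModC L ∈ FF L N := by
  have h : coeffEmb L jq = jqModC L := map_jqModC (K := ℚ) (algebraMap ℚ L)
  rw [← h]
  exact coeffEmb_mem_laurentBaseChange L
    (by simpa [qExpand_one_apply] using jqd_mem_full N (one_dvd N))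

/-- `j` on the generic fibre. -/
def jF : FF L N := ⟨jqModC L, jqModC_mem_FF L N⟩

/-- `j` on the special fibre. -/
def jFb : modularFunctionFieldFullC k N := ⟨jqModC k, jqModC_mem_full k N⟩

theorem coe_jF : ((jF (L := L) N : FF L N) : LaurentSeries L) = jqModC L := rfl

theorem coe_jFb : ((jFb (k := k) N : modularFunctionFieldFullC k N) : LaurentSeries k) =
    jqModC k := rfl

theorem transcendental_jF : Transcendental L (jF (L := L) N) :=
  transcendental_subtype _ (transcendental_j L)

/-- The reduced `j` is transcendental. -/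
theorem transcendental_jFb : Transcendental k (jFb (k := k) N) :=
  transcendental_subtype _ (transcendental_j k)

/-- Integral series of `F`. -/
def seriesRing : Subring (FF L N) :=
  (coeffMap (A.subtype : A →+* L)).range.comap (FF L N).val.toRingHom

theorem mem_seriesRing {f : FF L N} :
    f ∈ seriesRing A N ↔ ∃ y : LaurentSeries A, coeffMap A.subtype y = (f : LaurentSeries L) :=
  Iff.rfl

/-- The series with coefficients in `A`. -/
def seriesOf (s : seriesRing A N) : LaurentSeries A := (mem_seriesRing A N).mp s.2 |>.choose

theorem coeffMap_seriesOf (s : seriesRing A N) :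
    coeffMap A.subtype (seriesOf A N s) = ((s : FF L N) : LaurentSeries L) :=
  ((mem_seriesRing A N).mp s.2).choose_spec

/-- The inclusion of integral series. -/
def seriesHom : seriesRing A N →+* LaurentSeries A where
  toFun := seriesOf A N
  map_one' := coeffMap_subtype_injective A (by rw [coeffMap_seriesOf, map_one]; rfl)
  map_mul' a b := coeffMap_subtype_injective A (by
    rw [map_mul, coeffMap_seriesOf, coeffMap_seriesOf, coeffMap_seriesOf]; rfl)
  map_zero' := coeffMap_subtype_injective A (by rw [coeffMap_seriesOf, map_zero]; rfl)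
  map_add' a b := coeffMap_subtype_injective A (by
    rw [map_add, coeffMap_seriesOf, coeffMap_seriesOf, coeffMap_seriesOf]; rfl)

theorem seriesHom_eq {s : seriesRing A N} {y : LaurentSeries A}
    (h : coeffMap A.subtype y = ((s : FF L N) : LaurentSeries L)) : seriesHom A N s = y :=
  coeffMap_subtype_injective A ((coeffMap_seriesOf A N s).trans h.symm)

variable {A π N} (H : X0GoodReduction A π N)

include H in
theorem red_seriesOf_mem (s : seriesRing A N) :
    coeffMap π (seriesHom A N s) ∈ modularFunctionFieldFullC k N :=
  H.red_mem _ (by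
    rw [show coeffMap A.subtype (seriesHom A N s) = ((s : FF L N) : LaurentSeries L) from
      coeffMap_seriesOf A N s]
    exact (s : FF L N).2)

/-- Reduction of integral series. -/
def red : seriesRing A N →+* modularFunctionFieldFullC k N :=
  ((coeffMap π).comp (seriesHom A N)).codRestrict
    (modularFunctionFieldFullC k N).toSubfield.toSubring
    (red_seriesOf_mem H)

theorem coe_red (s : seriesRing A N) :
    (red H s : LaurentSeries k) = coeffMap π (seriesHom A N s) := rfl

theorem red_eq {s : seriesRing A N} {y : LaurentSeries A}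
    (h : coeffMap A.subtype y = ((s : FF L N) : LaurentSeries L)) :
    (red H s : LaurentSeries k) = coeffMap π y := by
  rw [coe_red, seriesHom_eq A N h]

theorem const_mem_seriesRing (a : A) : algebraMap L (FF L N) a ∈ seriesRing A N := by
  refine (mem_seriesRing A N).mpr ⟨HahnSeries.single 0 a, ?_⟩
  rw [coeffMap_single]
  exact (algebraMap_laurentSeries_eq_single L (a : L)).symm

theorem red_const (a : A) :
    red H ⟨algebraMap L (FF L N) a, const_mem_seriesRing a⟩ =
      algebraMap k (modularFunctionFieldFullC k N) (π a) := by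
  apply Subtype.ext
  rw [red_eq H (y := HahnSeries.single 0 a) (by
    rw [coeffMap_single]; exact (algebraMap_laurentSeries_eq_single L (a : L)).symm),
    coeffMap_single]
  exact (algebraMap_laurentSeries_eq_single k (π a)).symm

theorem jF_mem : jF (L := L) N ∈ seriesRing A N :=
  (mem_seriesRing A N).mpr ⟨jqModC A, coeffMap_jqModC A.subtype⟩

/-- The reduction of `j` is `j`. -/
theorem red_jF : red H ⟨jF (L := L) N, jF_mem⟩ = jFb (k := k) N := by
  apply Subtype.ext
  rw [red_eq H (y := jqModC A) (coeffMap_jqModC A.subtype)]
  exact coeffMap_jqModC π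

theorem inB_of_mem_chartRing {s f : FF L N}
    (hf : (f : LaurentSeries L) ∈ chartRing A N (s : LaurentSeries L)) : InB L s f := by
  intro v hv
  have hgen : baseRing A (s : LaurentSeries L) ≤
      v.toValuationSubring.toSubring.map (FF L N).val.toRingHom := by
    rw [baseRing, Subring.closure_le]
    rintro _ (rfl | ⟨a, rfl⟩)
    · exact ⟨s, mem_of_ord_nonneg v hv, rfl⟩
    · exact ⟨algebraMap L (FF L N) a, v.algebraMap_mem' _, rfl⟩
  have hsub : ∀ g : baseRing A (s : LaurentSeries L), (g : LaurentSeries L) ∈ FF L N := by
    intro g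
    obtain ⟨g', -, hg'⟩ := hgen g.2
    rw [← hg']
    exact g'.2
  let ψ : baseRing A (s : LaurentSeries L) →+* v.toValuationSubring :=
    { toFun := fun g => ⟨⟨g, hsub g⟩, by
        obtain ⟨g', hg'm, hg'⟩ := hgen g.2
        have : (⟨(g : LaurentSeries L), hsub g⟩ : FF L N) = g' := Subtype.ext hg'.symm
        rw [this]; exact hg'm⟩
      map_one' := rfl
      map_mul' := fun _ _ => rfl
      map_zero' := rfl
      map_add' := fun _ _ => rfl }
  obtain ⟨p, hp, hpf⟩ := (mem_chartRing_iff.mp hf).1
  have hint : IsIntegral v.toValuationSubring f := by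
    refine ⟨p.map ψ, hp.map ψ, ?_⟩
    apply (FF L N).val.toRingHom.injective
    rw [eval₂_map, hom_eval₂, map_zero, ← hpf]
    rfl
  obtain ⟨g, hg⟩ := IsIntegrallyClosed.isIntegral_iff.mp hint
  exact ord_nonneg_of_mem v (hg ▸ g.2)

include H in
theorem finrank_pos_L : 0 < Module.finrank (adjoin L {jF (L := L) N}) (FF L N) := by
  rw [← relfinrank_adjoin_eq]; exact H.degree_pos

include H in
/-- The degree of the reduced modular function field over `k(j)`. -/
theorem finrank_eq : Module.finrank (adjoin k {jFb (k := k) N}) (modularFunctionFieldFullC k N) =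
    Module.finrank (adjoin L {jF (L := L) N}) (FF L N) := by
  rw [← relfinrank_adjoin_eq, ← relfinrank_adjoin_eq]; exact H.degree_eq

include H in
/-- The modular function field over `L` is a function field. -/
theorem isFunctionFieldL : IsFunctionField L (FF L N) :=
  ⟨jF N, transcendental_jF N, Module.finite_of_finrank_pos (finrank_pos_L H)⟩

include H in
/-- The reduced modular function field is a function field. -/
theorem isFunctionFieldk : IsFunctionField k (modularFunctionFieldFullC k N) :=
  ⟨jFb N, transcendental_jFb N,
    Module.finite_of_finrank_pos (by rw [finrank_eq H]; exact finrank_pos_L H)⟩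

/-- The degree over the `j`-line. -/
def deg (L : Type*) [Field L] [Algebra ℚ L] (N : ℕ) : ℕ :=
  Module.finrank (adjoin L {jF (L := L) N}) (FF L N)

include H in
theorem exists_basis_lifts [IsAlgClosed k] :
    ∃ b : Fin (deg L N) → seriesRing A N,
      (∀ i, InB L (jF (L := L) N) (b i : FF L N)) ∧
      ∀ P : Fin (deg L N) → k[X],
        ∑ i, aeval (jFb (k := k) N) (P i) * red H (b i) = 0 → ∀ i, P i = 0 := by
  have := isFunctionFieldk H
  set x := jFb (k := k) N with hx
  have hfin : Module.Finite (adjoin k {x}) (modularFunctionFieldFullC k N) :=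
    IsFunctionField.finiteDimensional_adjoin (transcendental_jFb N)
  let e := Module.finBasisOfFinrankEq (adjoin k {x}) (modularFunctionFieldFullC k N)
    (finrank_eq H : _ = deg L N)
  choose q hq0 hqB using fun i => exists_aeval_mul_inB (transcendental_jFb N) (e i)
  have hlift : ∀ i, ∃ s : seriesRing A N, InB L (jF (L := L) N) (s : FF L N) ∧
      red H s = aeval x (q i) * e i := by
    intro i
    have hi := isIntegral_coe_of_isIntegral _ (isIntegral_of_inB (hqB i))
    rw [coe_jFb] at hi
    obtain ⟨y, hy, hyr⟩ := H.red_surj_fin _ (SetLike.coe_mem _) hi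
    have hyF := (mem_chartRing_iff.mp hy).2
    rw [← coe_jF (L := L) N] at hy
    refine ⟨⟨⟨_, hyF⟩, (mem_seriesRing A N).mpr ⟨y, rfl⟩⟩,
      inB_of_mem_chartRing (f := ⟨_, hyF⟩) hy, Subtype.ext ?_⟩
    rw [red_eq H (y := y) rfl, hyr]
  choose b hbB hb using hlift
  refine ⟨b, hbB, fun P hP i => ?_⟩
  have hli := Fintype.linearIndependent_iff.mp e.linearIndependent
    (fun i => (⟨aeval x (P i * q i), algebra_adjoin_le_adjoin k {x}
      (Algebra.adjoin_singleton_eq_range_aeval k x ▸ AlgHom.mem_range_self _ _)⟩ :
        adjoin k {x})) ?_ i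
  · have h0 : P i * q i = 0 :=
      transcendental_iff.mp (transcendental_jFb N) _ (congrArg Subtype.val hli)
    exact (mul_eq_zero.mp h0).resolve_right (hq0 i)
  · rw [← hP]
    refine Finset.sum_congr rfl fun i _ => ?_
    rw [IntermediateField.smul_def, smul_eq_mul, hb i, ← mul_assoc, ← map_mul]

end FLTAgent.Deuring.Modular
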