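import Fermat.Agent.Deuring.Chart

/-!
# Specialisation of places in a chart

For a place `P` with integral coordinate the reductions of functions vanishing at `P` cut out a
unique place `special` of the special fibre; several places with the same image cut out the
corresponding multiple of it. Used by `Construct` for the reduction map.
-/

set_option autoImplicit false

noncomputable section

open AlgebraicCurve IntermediateField FLTAgent.FFBasic

namespace FLTAgent.Deuring

section Generic

variable {K F : Type*} [Field K] [Field F] [Algebra K F]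

theorem ord_const_sub_pos_eq {v : Place K F} {f : F} {a b : K}
    (ha : 0 < v.ord (f - algebraMap K F a)) (hb : 0 < v.ord (f - algebraMap K F b)) : a = b := by
  by_contra hne
  have h := sub_mem (mem_filt_of_le (v := v) (n := 1) ha) (mem_filt_of_le (v := v) (n := 1) hb)
  rw [sub_sub_sub_cancel_left, ← map_sub] at h
  have := le_ord_of_mem_filt h (by simpa [sub_eq_zero] using fun e : b = a => hne e.symm)
  rw [ord_algebraMap] at this
  omega

variable [IsFunctionField K F]

theorem pol_sub_const (x : F) (c : K) :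
    pol (K := K) (x - algebraMap K F c) = pol (K := K) x := by
  ext v
  rw [pol_apply, pol_apply]
  rcases lt_or_ge (v.ord x) 0 with h | h
  · have hx : x ≠ 0 := by rintro rfl; simp at h
    rw [sub_eq_add_neg, ← map_neg,
      (ord_add_eq_left v hx (mem_filt_of_le (by rw [ord_algebraMap]; omega))).2]
  · have h' : 0 ≤ v.ord (x - algebraMap K F c) :=
      ord_nonneg_of_mem v (sub_mem (mem_of_ord_nonneg v h) (v.algebraMap_mem' c))
    omega

theorem exists_value [IsAlgClosed K] (v : Place K F) {f : F} (hf : Transcendental K f)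
    (h : 0 ≤ v.ord f) : ∃ a : K, 0 < v.ord (f - algebraMap K F a) := by
  obtain ⟨a, ha⟩ := exists_sub_mem_filt_one v (mem_of_ord_nonneg v h)
  refine ⟨a, le_ord_of_mem_filt ha fun h0 => hf ?_⟩
  rw [sub_eq_zero.mp h0]
  exact isAlgebraic_algebraMap a

theorem degree_filter_eq_mapDomain [IsAlgClosed K] {K' F' : Type*} [Field K'] [Field F']
    [Algebra K' F'] (r : Place K F → Place K' F') (Q : Place K' F') (D : Divisor K F)
    [DecidablePred fun P => r P = Q] :
    Divisor.degree (D.filter fun P => r P = Q) = Finsupp.mapDomain r D Q := by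
  induction D using Finsupp.induction with
  | zero => simp [show (0 : Divisor K F).filter (fun P => r P = Q) = 0 from
      Finsupp.ext fun _ => by simp [Finsupp.filter_apply]]
  | single_add P n D _ _ ih =>
    rw [Finsupp.filter_add, map_add, Finsupp.mapDomain_add, Finsupp.add_apply, ih,
      Finsupp.mapDomain_single]
    congr 1
    by_cases h : r P = Q
    · rw [Finsupp.filter_single_of_pos (p := fun P => r P = Q) h, degree_single_one, h,
        Finsupp.single_eq_same]
    · rw [Finsupp.filter_single_of_neg (p := fun P => r P = Q) h, map_zero,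
        Finsupp.single_eq_of_ne (Ne.symm h)]

end Generic

variable {L k F Fb : Type*} [Field L] [Field k] [Field F] [Field Fb]
  [Algebra L F] [Algebra k Fb]

namespace Reduction.Chart

variable {C : Reduction L k F Fb} (X : C.Chart)

/-- The coordinate of the place `P` is finite and integral. -/
def InChart (P : Place L F) : Prop :=
  ∃ a : C.A, 0 < P.ord ((X.x : F) - algebraMap L F a)

theorem InChart.ord_nonneg {X : C.Chart} {P : Place L F} (hP : X.InChart P) :
    0 ≤ P.ord (X.x : F) := by
  obtain ⟨a, ha⟩ := hP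
  have := add_mem (mem_of_ord_nonneg P ha.le) (P.algebraMap_mem' (a : L))
  rw [sub_add_cancel] at this
  exact ord_nonneg_of_mem P this

variable [IsFunctionField L F] [IsFunctionField k Fb]

omit [IsFunctionField k Fb] in
theorem InChart.pol_eq_zero {X : C.Chart} {P : Place L F} (hP : X.InChart P) :
    pol (K := L) (X.x : F) P = 0 := by
  have := hP.ord_nonneg
  rw [pol_apply]
  omega

/-- Numerical good behaviour of a chart. -/
structure Good : Prop where
  degree_eq : Divisor.degree (pol (K := L) (X.x : F)) = Divisor.degree (pol (K := k) (C.res X.x))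
  genus_eq : genusFF L F = genusFF k Fb
  surj_eq : ∃ n₀ : ℕ, ∀ n, n₀ ≤ n → C.resSub (riemannRochSpace (n • pol (K := L) (X.x : F))) =
      riemannRochSpace (n • pol (K := k) (C.res X.x))

variable [IsAlgClosed L] [IsAlgClosed k]

theorem good_of_inv (X' : C.Chart) (hinv : (X'.x : F) = (X.x : F)⁻¹) : X.Good :=
  ⟨(degree_genus_eq X X' hinv).1, (degree_genus_eq X X' hinv).2, exists_resSub_eq X X' hinv⟩

variable {X}

/-- Reductions of bounded functions vanishing along `Z`. -/
def cut (X : C.Chart) (Z : Divisor L F) (n : ℕ) : Submodule k Fb :=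
  C.resSub (riemannRochSpace (n • pol (K := L) (X.x : F) - Z))

omit [IsFunctionField k Fb] [IsAlgClosed L] [IsAlgClosed k] in
theorem cut_mono_n (Z : Divisor L F) {m n : ℕ} (h : m ≤ n) : X.cut Z m ≤ X.cut Z n := by
  rintro _ ⟨u, hu, rfl⟩
  exact ⟨u,
    riemannRochSpace_mono (sub_le_sub_right (nsmul_le_nsmul_left (pol_nonneg _) h) Z) hu, rfl⟩

omit [IsFunctionField k Fb] [IsAlgClosed L] [IsAlgClosed k] in
theorem mul_mem_cut {Z Z' : Divisor L F} {m n : ℕ} {v w : Fb} (hv : v ∈ X.cut Z m)
    (hw : w ∈ X.cut Z' n) : v * w ∈ X.cut (Z + Z') (m + n) := by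
  obtain ⟨u, hu, rfl⟩ := hv
  obtain ⟨u', hu', rfl⟩ := hw
  refine ⟨u * u', ?_, map_mul _ _ _⟩
  push_cast
  refine riemannRochSpace_mono (le_of_eq ?_) (mul_mem_riemannRochSpace hu hu')
  rw [add_nsmul]; abel

omit [IsAlgClosed L] [IsAlgClosed k] in
theorem cut_le {Z : Divisor L F} (hZ : 0 ≤ Z) {n₀ n : ℕ}
    (hn₀ : ∀ n, n₀ ≤ n → C.resSub (riemannRochSpace (n • pol (K := L) (X.x : F))) =
      riemannRochSpace (n • pol (K := k) (C.res X.x))) :
    X.cut Z n ≤ riemannRochSpace (n • pol (K := k) (C.res X.x)) := by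
  intro w hw
  have h1 : w ∈ riemannRochSpace ((max n n₀) • pol (K := k) (C.res X.x)) := by
    rw [← hn₀ _ (le_max_right n n₀)]
    obtain ⟨u, hu, rfl⟩ := hw
    exact ⟨u, rr_nsmul_pol_mono _ (le_max_left n n₀)
      (riemannRochSpace_mono (sub_le_self _ hZ) hu), rfl⟩
  rcases le_or_gt n₀ n with h | h
  · rw [max_eq_left h] at h1; exact h1
  · rcases eq_or_ne w 0 with rfl | hw0
    · exact Submodule.zero_mem _
    -- bound at each pole by the inverse chart estimate in a large degree
    obtain ⟨u, hu, rfl⟩ := hw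
    have h2 : C.res u * C.res X.x ^ (n₀ - n) ∈
        riemannRochSpace (n₀ • pol (K := k) (C.res X.x)) := by
      rw [← hn₀ n₀ le_rfl]
      have := mul_x_mem_resSub X (m := n) (w := C.res u)
        ⟨u, riemannRochSpace_mono (sub_le_self _ hZ) hu, rfl⟩ (n₀ - n)
      rwa [Nat.add_sub_cancel' h.le] at this
    refine mem_rr_of_ord fun Q => ?_
    have h1' := (mem_rr_iff_of_ne hw0).mp h1 Q
    have h2' := (mem_rr_iff_of_ne (mul_ne_zero hw0 (pow_ne_zero _ X.res_x_ne_zero))).mp h2 Q
    rw [Q.ord_mul hw0 (pow_ne_zero _ X.res_x_ne_zero), ord_pow] at h2'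
    simp only [Finsupp.smul_apply, pol_apply, nsmul_eq_mul] at h1' h2' ⊢
    rw [Nat.cast_sub h.le] at h2'
    rcases le_total 0 (Q.ord (C.res X.x)) with h' | h'
    · rw [max_eq_right (show -Q.ord (C.res X.x) ≤ 0 by omega), mul_zero] at h1' ⊢; omega
    · rw [max_eq_left (show 0 ≤ -Q.ord (C.res X.x) by omega)] at h2' ⊢; linarith

omit [IsAlgClosed k] in
theorem finrank_cut (hX : X.Good) {Z : Divisor L F} {n : ℕ}
    (hn : bound L k F Fb + Divisor.degree Z < n * Divisor.degree (pol (K := L) (X.x : F))) :
    (Module.finrank k (X.cut Z n) : ℤ) =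
      n * Divisor.degree (pol (K := k) (C.res X.x)) - Divisor.degree Z + 1 - genusFF k Fb := by
  rw [cut, C.finrank_resSub, finrank_rrF (k := k) (Fb := Fb)
    (by rw [map_sub, map_nsmul, nsmul_eq_mul]; linarith),
    map_sub, map_nsmul, nsmul_eq_mul, hX.degree_eq, hX.genus_eq]

/-- Threshold for the degree arguments in a chart. -/
def threshold (L k F Fb : Type*) [Field L] [Field k] [Field F] [Field Fb]
    [Algebra L F] [Algebra k Fb] [IsAlgClosed L] [IsAlgClosed k] [IsFunctionField L F]
    [IsFunctionField k Fb] : ℕ :=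
  (bound L k F Fb).toNat + 3

theorem threshold_spec (hX : X.Good) {n : ℕ} {s : ℕ} (hn : threshold L k F Fb + s ≤ n) :
    bound L k F Fb + 2 + s < n * Divisor.degree (pol (K := L) (X.x : F)) ∧
      bound L k F Fb + 2 + s < n * Divisor.degree (pol (K := k) (C.res X.x)) := by
  have hd : 0 < Divisor.degree (pol (K := k) (C.res X.x)) := degree_pol_pos X.transFb
  rw [hX.degree_eq]
  refine ⟨?_, ?_⟩ <;>
  · unfold threshold at hn
    calc bound L k F Fb + 2 + s < (n : ℤ) * 1 := by omega
      _ ≤ _ := by gcongr; omega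

omit [IsAlgClosed L] [IsFunctionField L F] [IsAlgClosed k] in
/-- The coordinate has no pole where it takes a finite value. -/
private theorem pol_eq_zero_of_ord_pos {c : k} {Q : Place k Fb}
    (h : 0 < Q.ord (C.res X.x - algebraMap k Fb c)) : pol (K := k) (C.res X.x) Q = 0 := by
  rw [← pol_sub_const (C.res X.x) c, pol_apply]; omega

omit [IsAlgClosed L] [IsAlgClosed k] in
/-- If a cut vanishes at a place without pole, so do the cuts in smaller degrees. -/
private theorem cut_le_of_le {Z : Divisor L F} (hZ : 0 ≤ Z) {n₀ : ℕ}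
    (hn₀ : ∀ n, n₀ ≤ n → C.resSub (riemannRochSpace (n • pol (K := L) (X.x : F))) =
      riemannRochSpace (n • pol (K := k) (C.res X.x)))
    {Q : Place k Fb} (hQ : pol (K := k) (C.res X.x) Q = 0) {i n : ℕ} (hin : i ≤ n)
    (h : X.cut Z n ≤ riemannRochSpace (n • pol (K := k) (C.res X.x) - Finsupp.single Q 1)) :
    X.cut Z i ≤ riemannRochSpace (i • pol (K := k) (C.res X.x) - Finsupp.single Q 1) := by
  intro w hw
  refine mem_rr_inf (fun R => ?_) (cut_le hZ hn₀ hw) (h (cut_mono_n _ hin hw))
  simp only [Finsupp.sub_apply, Finsupp.smul_apply, nsmul_eq_mul]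
  rcases eq_or_ne R Q with rfl | hR
  · rw [Finsupp.single_eq_same, hQ]
    simp
  · rw [Finsupp.single_eq_of_ne hR]; simp

/-- In large degree some nonzero reduction vanishes at a given place of the chart. -/
private theorem cut_single_ne_bot (hX : X.Good) (P : Place L F) {n : ℕ}
    (hn : threshold L k F Fb + 1 ≤ n) : X.cut (Finsupp.single P 1) n ≠ ⊥ := by
  intro hb
  set xb := C.res X.x with hxb
  obtain ⟨b1, b2⟩ := threshold_spec (X := X) hX (n := n) (s := 1) hn
  rw [← hxb] at b2
  have h := finrank_cut hX (Z := Finsupp.single P 1) (n := n) (by rw [degree_single_one]; omega)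
  rw [hb, finrank_bot, degree_single_one] at h
  obtain ⟨w, hw, hw0, -⟩ := exists_exact_rr (D := n • pol (K := k) xb - Finsupp.single
      (nonempty_place (K := k) (F := Fb)).some 1)
    (by
      rw [map_sub, map_nsmul, nsmul_eq_mul, degree_single_one]
      have : rrBound k Fb ≤ bound L k F Fb := le_max_right _ _
      omega) ∅
  have h2 := finrank_rrFb (L := L) (F := F) (D := n • pol (K := k) xb - Finsupp.single
      (nonempty_place (K := k) (F := Fb)).some 1)
    (by rw [map_sub, map_nsmul, nsmul_eq_mul, degree_single_one]; omega)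
  have hpos : 0 < Module.finrank k (riemannRochSpace (n • pol (K := k) xb - Finsupp.single
      (nonempty_place (K := k) (F := Fb)).some 1)) :=
    Module.finrank_pos_iff_exists_ne_zero.mpr ⟨⟨w, hw⟩, fun e => hw0 (congrArg Subtype.val e)⟩
  rw [map_sub, map_nsmul, nsmul_eq_mul, degree_single_one] at h2
  rw [← hxb] at h
  push_cast at h
  omega

/-- If no zero of `x̄ - c` works, some reduction vanishing at `P` is a unit at all of them. -/
private theorem exists_cut_ord_eq_zero (hX : X.Good) (P : Place L F) {n₀ : ℕ}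
    (hn₀ : ∀ n, n₀ ≤ n → C.resSub (riemannRochSpace (n • pol (K := L) (X.x : F))) =
      riemannRochSpace (n • pol (K := k) (C.res X.x)))
    {c : k} (hno : ∀ Q : Place k Fb, 0 < Q.ord (C.res X.x - algebraMap k Fb c) → ∃ n,
      ¬ X.cut (Finsupp.single P 1) n ≤
        riemannRochSpace (n • pol (K := k) (C.res X.x) - Finsupp.single Q 1)) :
    ∃ n, ∃ w ∈ X.cut (Finsupp.single P 1) n, w ≠ 0 ∧
      ∀ Q : Place k Fb, 0 < Q.ord (C.res X.x - algebraMap k Fb c) → Q.ord w = 0 := by
  classical
  set G := divPos (divFun (K := k) (C.res X.x - algebraMap k Fb c)) with hG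
  have hmem : ∀ Q, Q ∈ G.support ↔ 0 < Q.ord (C.res X.x - algebraMap k Fb c) := fun Q => by
    simp [hG]
  have hno' : ∀ Q ∈ G.support, ∃ n, ¬ X.cut (Finsupp.single P 1) n ≤
      riemannRochSpace (n • pol (K := k) (C.res X.x) - Finsupp.single Q 1) :=
    fun Q hQ => hno Q ((hmem Q).mp hQ)
  choose! ν hν using hno'
  set n := G.support.sup ν + (threshold L k F Fb + 1) with hn
  have hZ0 : (0 : Divisor L F) ≤ Finsupp.single P 1 := Finsupp.single_nonneg.mpr zero_le_one
  obtain ⟨w, hw, hw0, hwS⟩ := exists_exact (D := n • pol (K := k) (C.res X.x)) G.support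
    (cut_le hZ0 hn₀) (cut_single_ne_bot hX P (n := n) (by omega)) fun Q hQ hle =>
      hν Q hQ (cut_le_of_le hZ0 hn₀ (pol_eq_zero_of_ord_pos ((hmem Q).mp hQ))
        ((Finset.le_sup (f := ν) hQ).trans (Nat.le_add_right _ _)) hle)
  refine ⟨n, w, hw, hw0, fun Q hQ => ?_⟩
  rw [hwS Q ((hmem Q).mpr hQ), Finsupp.smul_apply, pol_eq_zero_of_ord_pos hQ, smul_zero, neg_zero]

omit [IsAlgClosed L] [IsAlgClosed k] in
/-- Multiples of a reduction in a cut lie in the cut. -/
private theorem rr_sub_divFun_le_cut {Z : Divisor L F} {n₀ n m : ℕ} (hm : n₀ ≤ m)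
    (hn₀ : ∀ n, n₀ ≤ n → C.resSub (riemannRochSpace (n • pol (K := L) (X.x : F))) =
      riemannRochSpace (n • pol (K := k) (C.res X.x)))
    {w : Fb} (hw : w ∈ X.cut Z n) (hw0 : w ≠ 0) :
    riemannRochSpace (m • pol (K := k) (C.res X.x) - divFun w) ≤ X.cut Z (n + m) := by
  intro g hg
  have hq : g * w⁻¹ ∈ riemannRochSpace (m • pol (K := k) (C.res X.x)) := by
    rcases eq_or_ne g 0 with rfl | hg0
    · simp
    refine mem_rr_of_ord fun Q => ?_
    have := (mem_rr_iff_of_ne hg0).mp hg Q
    rw [Finsupp.sub_apply, divFun_apply] at this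
    rw [Q.ord_mul hg0 (inv_ne_zero hw0), Q.ord_inv]
    omega
  rw [← hn₀ m hm] at hq
  have hq' : g * w⁻¹ ∈ X.cut 0 m := by rw [cut, sub_zero]; exact hq
  have := mul_mem_cut hw hq'
  rwa [add_zero, mul_comm g, ← mul_assoc, mul_inv_cancel₀ hw0, one_mul] at this

omit [IsAlgClosed L] [IsAlgClosed k] in
/-- Reductions vanishing at all zeros of `x̄ - π a` come from functions vanishing at `P`. -/
private theorem rr_sub_zeros_le_cut {P : Place L F} {a : C.A}
    (ha : 0 < P.ord ((X.x : F) - algebraMap L F a)) {n₀ n : ℕ} (hn : n₀ < n)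
    (hn₀ : ∀ n, n₀ ≤ n → C.resSub (riemannRochSpace (n • pol (K := L) (X.x : F))) =
      riemannRochSpace (n • pol (K := k) (C.res X.x))) :
    riemannRochSpace (n • pol (K := k) (C.res X.x) -
        divPos (divFun (K := k) (C.res X.x - algebraMap k Fb (C.π a)))) ≤
      X.cut (Finsupp.single P 1) n := by
  classical
  set xb := C.res X.x with hxb
  set y := xb - algebraMap k Fb (C.π a) with hy
  have hy0 : y ≠ 0 := fun h => X.transFb (by
    rw [show C.res X.x = algebraMap k Fb (C.π a) from sub_eq_zero.mp h]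
    exact isAlgebraic_algebraMap _)
  intro g hg
  have hq : g * y⁻¹ ∈ riemannRochSpace ((n - 1) • pol (K := k) xb) := by
    rcases eq_or_ne g 0 with rfl | hg0
    · simp
    refine mem_rr_of_ord fun Q => ?_
    have h1 := (mem_rr_iff_of_ne hg0).mp hg Q
    have h2 : pol (K := k) xb Q = max (-Q.ord y) 0 := by
      rw [hy, ← pol_sub_const xb (C.π a), pol_apply]
    simp only [Finsupp.sub_apply, Finsupp.smul_apply, nsmul_eq_mul, divPos_apply,
      divFun_apply, h2] at h1 ⊢
    rw [Q.ord_mul hg0 (inv_ne_zero hy0), Q.ord_inv]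
    rw [Nat.cast_sub (by omega)]
    push_cast at h1 ⊢
    rcases le_total 0 (Q.ord y) with h | h
    · rw [max_eq_left h, max_eq_right (show -Q.ord y ≤ 0 by omega)] at h1
      rw [max_eq_right (show -Q.ord y ≤ 0 by omega)]; linarith
    · rw [max_eq_right h, max_eq_left (show (0 : ℤ) ≤ -Q.ord y by omega)] at h1
      rw [max_eq_left (show (0 : ℤ) ≤ -Q.ord y by omega)]; linarith
  rw [← hn₀ (n - 1) (by omega)] at hq
  obtain ⟨u, hu, hres⟩ := hq
  refine ⟨(X.x - C.ι a) * u, ?_, ?_⟩
  · push_cast
    rw [coe_ι]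
    rcases eq_or_ne (u : F) 0 with h0 | h0
    · simp [h0]
    have hxa : (X.x : F) - algebraMap L F a ≠ 0 := fun h => by simp [h] at ha
    refine mem_rr_of_ord fun v => ?_
    have h1 := (mem_rr_iff_of_ne h0).mp hu v
    have h2 : pol (K := L) (X.x : F) v = max (-v.ord ((X.x : F) - algebraMap L F a)) 0 := by
      rw [← pol_apply, pol_sub_const]
    simp only [Finsupp.sub_apply, Finsupp.smul_apply, nsmul_eq_mul] at h1 ⊢
    rw [Nat.cast_sub (by omega)] at h1
    rw [v.ord_mul hxa h0]
    push_cast at h1 ⊢
    rcases eq_or_ne v P with rfl | hv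
    · rw [InChart.pol_eq_zero (X := X) ⟨a, ha⟩, mul_zero] at h1
      rw [InChart.pol_eq_zero (X := X) ⟨a, ha⟩, mul_zero, Finsupp.single_eq_same]; linarith
    · rw [Finsupp.single_eq_of_ne hv]
      rw [h2] at h1 ⊢
      rcases le_total 0 (v.ord ((X.x : F) - algebraMap L F a)) with h | h
      · rw [max_eq_right (by omega)] at h1 ⊢; linarith
      · rw [max_eq_left (by omega)] at h1 ⊢; linarith
  · rw [map_mul, map_sub, res_ι, hres, mul_comm g, ← mul_assoc, mul_inv_cancel₀ hy0, one_mul]

omit [IsAlgClosed L] [IsFunctionField L F] [IsAlgClosed k] in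
/-- A unit at the zeros of `x̄ - c` and these zeros leave no common condition. -/
private theorem sub_divFun_sup_sub_zeros {c : k} {w : Fb} {n m : ℕ}
    (hwn : ∀ Q : Place k Fb, -(n • pol (K := k) (C.res X.x)) Q ≤ Q.ord w)
    (hwS : ∀ Q : Place k Fb, 0 < Q.ord (C.res X.x - algebraMap k Fb c) → Q.ord w = 0) :
    (m • pol (K := k) (C.res X.x) - divFun w) ⊔ ((n + m) • pol (K := k) (C.res X.x) -
        divPos (divFun (K := k) (C.res X.x - algebraMap k Fb c))) =
      (n + m) • pol (K := k) (C.res X.x) := by
  ext Q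
  have hwQ := hwn Q
  simp only [Finsupp.sup_apply, Finsupp.sub_apply, Finsupp.smul_apply, nsmul_eq_mul,
    divFun_apply, divPos_apply] at hwQ ⊢
  rw [Nat.cast_add n m, add_mul]
  rcases lt_or_ge 0 (Q.ord (C.res X.x - algebraMap k Fb c)) with h | h
  · rw [hwS Q h, pol_eq_zero_of_ord_pos h, max_eq_left h.le]
    simp only [mul_zero, sub_zero, add_zero, zero_sub]
    omega
  · rw [max_eq_right h, sub_zero]
    refine max_eq_right ?_
    linarith

omit [IsAlgClosed L] [IsFunctionField L F] [IsAlgClosed k] in
/-- `x̄ - c` has as many zeros as `x̄` has poles. -/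
private theorem degree_zeros_sub_const (c : k) :
    Divisor.degree (divPos (divFun (K := k) (C.res X.x - algebraMap k Fb c))) =
      Divisor.degree (pol (K := k) (C.res X.x)) := by
  rw [← pol_sub_const (C.res X.x) c, pol, degree_poles (fun hal => X.transFb ?_),
    degree_zeros (fun hal => X.transFb ?_)]
  all_goals
    have := hal.add (isAlgebraic_algebraMap (R := k) (A := Fb) c)
    simpa using this

/-- In large degree not every bounded function reduces to one from a function vanishing at `P`. -/
private theorem not_rr_le_cut_single (hX : X.Good) (P : Place L F) {n₀ n : ℕ}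
    (hn₀ : ∀ n, n₀ ≤ n → C.resSub (riemannRochSpace (n • pol (K := L) (X.x : F))) =
      riemannRochSpace (n • pol (K := k) (C.res X.x)))
    (hn : threshold L k F Fb + 1 ≤ n) :
    ¬ riemannRochSpace (n • pol (K := k) (C.res X.x)) ≤ X.cut (Finsupp.single P 1) n := by
  intro hall
  set xb := C.res X.x with hxb
  have hfin := Submodule.finiteDimensional_of_le
    (cut_le (X := X) (n := n)
      (Finsupp.single_nonneg.mpr zero_le_one : (0 : Divisor L F) ≤ Finsupp.single P 1) hn₀)
  have h1 := Submodule.finrank_mono hall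
  obtain ⟨b3, b4⟩ := threshold_spec (X := X) hX (n := n) (s := 1) hn
  have h2 := finrank_cut hX (Z := Finsupp.single P 1) (n := n)
    (by rw [degree_single_one]; omega)
  have h3 := finrank_rrFb (L := L) (F := F) (D := n • pol (K := k) xb)
    (by rw [map_nsmul, nsmul_eq_mul]; rw [← hxb] at b4; omega)
  rw [degree_single_one] at h2
  rw [map_nsmul, nsmul_eq_mul] at h3
  rw [← hxb] at b4 h2
  omega

/-- The place of the special fibre under a place of the chart. -/
theorem exists_special (hX : X.Good) {P : Place L F} {a : C.A}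
    (ha : 0 < P.ord ((X.x : F) - algebraMap L F a)) :
    ∃ Q : Place k Fb, 0 < Q.ord (C.res X.x - algebraMap k Fb (C.π a)) ∧
      ∀ n, X.cut (Finsupp.single P 1) n ≤
        riemannRochSpace (n • pol (K := k) (C.res X.x) - Finsupp.single Q 1) := by
  classical
  obtain ⟨n₀, hn₀⟩ := hX.surj_eq
  set xb := C.res X.x with hxb
  set G := divPos (divFun (K := k) (xb - algebraMap k Fb (C.π a))) with hG
  by_contra! hno
  -- `w` is cut out by `P` but vanishes at no zero of `x̄ - π a`
  obtain ⟨n, w, hw, hw0, hwS⟩ := exists_cut_ord_eq_zero hX P hn₀ hno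
  have hwn : ∀ Q : Place k Fb, -(n • pol (K := k) xb) Q ≤ Q.ord w :=
    (mem_rr_iff_of_ne hw0).mp (cut_le (Finsupp.single_nonneg.mpr (zero_le_one' ℤ)) hn₀ hw)
  set m := threshold L k F Fb + n₀ + 1 with hm
  -- so in degree `n + m` both kinds of reductions together fill the whole space
  have hsup := sub_divFun_sup_sub_zeros (X := X) (m := m) hwn hwS
  have hdeg : rrBound k Fb <
      Divisor.degree ((m • pol (K := k) xb - divFun w) ⊓ ((n + m) • pol (K := k) xb - G)) := by
    have h := degree_inf_add_degree_sup (m • pol (K := k) xb - divFun w)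
      ((n + m) • pol (K := k) xb - G)
    rw [hsup, map_sub, map_sub, map_nsmul, map_nsmul, degree_divFun, sub_zero, hG,
      degree_zeros_sub_const (X := X)] at h
    simp only [nsmul_eq_mul] at h
    obtain ⟨-, c2⟩ := threshold_spec (X := X) hX (n := m - 1) (s := 0) (by omega)
    rw [Nat.cast_sub (by omega), sub_mul, Nat.cast_one, one_mul] at c2
    push_cast at h c2
    rw [add_mul] at h
    have hb : rrBound k Fb ≤ bound L k F Fb := le_max_right _ _
    rw [← hxb] at c2
    linarith
  refine not_rr_le_cut_single hX P hn₀ (n := n + m) (by omega) ?_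
  rw [← hsup, ← rr_sup_eq hdeg]
  exact sup_le (rr_sub_divFun_le_cut (by omega) hn₀ hw hw0)
    (rr_sub_zeros_le_cut ha (by omega) hn₀)

open Classical in
/-- The specialisation of a place of the chart. -/
def special (X : C.Chart) (hX : X.Good) (P : Place L F) (hP : X.InChart P) : Place k Fb :=
  (exists_special hX hP.choose_spec).choose

theorem special_ord_pos (hX : X.Good) {P : Place L F} (hP : X.InChart P) {a : C.A}
    (ha : 0 < P.ord ((X.x : F) - algebraMap L F a)) :
    0 < (X.special hX P hP).ord (C.res X.x - algebraMap k Fb (C.π a)) := by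
  have h := (exists_special hX hP.choose_spec).choose_spec.1
  have e : a = hP.choose := Subtype.ext (ord_const_sub_pos_eq ha hP.choose_spec)
  subst e
  exact h

theorem special_ord_nonneg (hX : X.Good) {P : Place L F} (hP : X.InChart P) :
    0 ≤ (X.special hX P hP).ord (C.res X.x) := by
  obtain ⟨a, ha⟩ := id hP
  have h := add_mem (mem_of_ord_nonneg _ (special_ord_pos hX hP ha).le)
    ((X.special hX P hP).algebraMap_mem' (C.π a))
  rw [sub_add_cancel] at h
  exact ord_nonneg_of_mem _ h

theorem cut_single_le (hX : X.Good) {P : Place L F} (hP : X.InChart P) (n : ℕ) :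
    X.cut (Finsupp.single P 1) n ≤ riemannRochSpace
      (n • pol (K := k) (C.res X.x) - Finsupp.single (X.special hX P hP) 1) :=
  (exists_special hX hP.choose_spec).choose_spec.2 n

theorem cut_single_eq (hX : X.Good) {P : Place L F} (hP : X.InChart P) {n : ℕ}
    (hn : threshold L k F Fb + 1 ≤ n) :
    X.cut (Finsupp.single P 1) n = riemannRochSpace
      (n • pol (K := k) (C.res X.x) - Finsupp.single (X.special hX P hP) 1) := by
  refine Submodule.eq_of_le_of_finrank_le (cut_single_le hX hP n) ?_
  obtain ⟨b1, b2⟩ := threshold_spec (X := X) hX hn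
  have h1 := finrank_cut hX (Z := Finsupp.single P 1) (n := n)
    (by rw [degree_single_one]; omega)
  have h2 := finrank_rrFb (L := L) (F := F)
    (D := n • pol (K := k) (C.res X.x) - Finsupp.single (X.special hX P hP) 1)
    (by rw [map_sub, map_nsmul, nsmul_eq_mul, degree_single_one]; omega)
  rw [degree_single_one] at h1
  rw [map_sub, map_nsmul, nsmul_eq_mul, degree_single_one] at h2
  omega

/-- Several places with one specialisation cut out the multiple of it. -/
theorem exists_cut_eq (hX : X.Good) (Q : Place k Fb) (hQ : 0 ≤ Q.ord (C.res X.x)) :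
    ∀ (s : ℕ) (Z : Divisor L F), 0 ≤ Z → Divisor.degree Z = s →
      (∀ P, Z P ≠ 0 → ∃ hP : X.InChart P, X.special hX P hP = Q) →
      ∃ M : ℕ, ∀ n, M ≤ n → X.cut Z n =
        riemannRochSpace (n • pol (K := k) (C.res X.x) - Finsupp.single Q (s : ℤ)) := by
  classical
  set xb := C.res X.x with hxb
  have hQpol : pol (K := k) xb Q = 0 := by rw [pol_apply]; omega
  intro s
  induction s with
  | zero =>
    intro Z hZ hdeg _
    have hZ0 : Z = 0 := by
      ext P
      have h1 : Finsupp.single P (Z P) ≤ Z := by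
        intro R
        rw [Finsupp.single_apply]
        split_ifs with h
        · rw [h]
        · exact hZ R
      have h2 := FFRiemannRoch.degree_le_degree h1
      rw [degree_single_one, hdeg] at h2
      have : (0 : ℤ) ≤ Z P := hZ P
      simp only [Finsupp.zero_apply]
      omega
    obtain ⟨n₀, hn₀⟩ := hX.surj_eq
    refine ⟨n₀, fun n hn => ?_⟩
    rw [cut, hZ0, sub_zero, hn₀ n hn, Nat.cast_zero, Finsupp.single_zero, sub_zero]
  | succ s ih =>
    intro Z hZ hdeg hsupp
    obtain ⟨P, hPs⟩ : Z.support.Nonempty := by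
      rw [Finsupp.support_nonempty_iff]
      rintro rfl
      simp at hdeg
      omega
    have hZP : Z P ≠ 0 := Finsupp.mem_support_iff.mp hPs
    obtain ⟨hP, hPQ⟩ := hsupp P hZP
    set Z' := Z - Finsupp.single P 1 with hZ'
    have hZ'0 : 0 ≤ Z' := by
      intro R
      rw [hZ', Finsupp.sub_apply, Finsupp.zero_apply, Finsupp.single_apply]
      have : (0 : ℤ) ≤ Z R := hZ R
      split_ifs with h
      · subst h; omega
      · omega
    obtain ⟨M, hM⟩ := ih Z' hZ'0 (by rw [hZ', map_sub, degree_single_one, hdeg]; omega)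
      (fun R hR => hsupp R (by
        intro h0
        apply hR
        rw [hZ', Finsupp.sub_apply, h0, Finsupp.single_apply]
        split_ifs with h
        · subst h; exact absurd h0 hZP
        · simp))
    set m := M + threshold L k F Fb + (s + 1) with hm
    obtain ⟨a1, a2⟩ := threshold_spec (X := X) hX (n := m) (s := s + 1) (by omega)
    push_cast at a1 a2
    obtain ⟨d, hd⟩ : ∃ d : ℕ, (d : ℤ) = Divisor.degree (pol (K := k) xb) :=
      ⟨(Divisor.degree (pol (K := k) xb)).toNat,
        Int.toNat_of_nonneg (degree_pol_pos X.transFb).le⟩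
    refine ⟨m + (threshold L k F Fb + 1) + m * d + 1, fun N hN => ?_⟩
    obtain ⟨n, rfl⟩ : ∃ n, N = m + n := ⟨N - m, by omega⟩
    obtain ⟨c1, c2⟩ := threshold_spec (X := X) hX (n := n) (s := 1 + m * d) (by omega)
    push_cast at c1 c2
    have hbk : rrBound k Fb ≤ bound L k F Fb := le_max_right _ _
    set D := m • pol (K := k) xb - Finsupp.single Q (s : ℤ) with hD
    have hdD : Divisor.degree D = (m : ℤ) * Divisor.degree (pol (K := k) xb) - s := by
      rw [hD, map_sub, map_nsmul, nsmul_eq_mul, degree_single_one]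
    rw [← hxb] at a2 c2
    obtain ⟨w₁, hw₁, hw₁0, hw₁S⟩ := exists_exact_rr (D := D) (by rw [hdD]; omega)
      (insert Q (pol (K := k) xb).support)
    obtain ⟨w₂, hw₂, hw₂0, hw₂S⟩ := exists_exact_rr (D := D) (by rw [hdD]; omega)
      (divFun (K := k) w₁).support
    set T := (m + n) • pol (K := k) xb - Finsupp.single Q ((s + 1 : ℕ) : ℤ) with hT
    have step : ∀ w ∈ riemannRochSpace D, w ≠ 0 →
        riemannRochSpace (n • pol (K := k) xb - Finsupp.single Q 1 - divFun w) ≤
          X.cut Z (m + n) := by
      intro w hw hw0 g hg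
      have hq : g * w⁻¹ ∈ riemannRochSpace (n • pol (K := k) xb - Finsupp.single Q 1) := by
        rcases eq_or_ne g 0 with rfl | hg0
        · simp
        refine mem_rr_of_ord fun R => ?_
        have := (mem_rr_iff_of_ne hg0).mp hg R
        rw [Finsupp.sub_apply, divFun_apply] at this
        rw [R.ord_mul hg0 (inv_ne_zero hw0), R.ord_inv]
        omega
      rw [← hPQ, ← cut_single_eq hX hP (by omega)] at hq
      have hw' : w ∈ X.cut Z' m := by rw [hM m (by omega)]; exact hw
      have := mul_mem_cut hw' hq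
      rwa [hZ', sub_add_cancel, mul_comm g, ← mul_assoc, mul_inv_cancel₀ hw0, one_mul] at this
    have hsup : (n • pol (K := k) xb - Finsupp.single Q 1 - divFun w₁) ⊔
        (n • pol (K := k) xb - Finsupp.single Q 1 - divFun w₂) = T := by
      ext R
      have h1 := (mem_rr_iff_of_ne hw₁0).mp hw₁ R
      have h2 := (mem_rr_iff_of_ne hw₂0).mp hw₂ R
      simp only [hT, hD, Finsupp.sup_apply, Finsupp.sub_apply, Finsupp.smul_apply, divFun_apply,
        nsmul_eq_mul] at h1 h2 ⊢
      have hs : Finsupp.single Q ((s + 1 : ℕ) : ℤ) R =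
          Finsupp.single Q (s : ℤ) R + Finsupp.single Q (1 : ℤ) R := by
        rw [← Finsupp.add_apply, ← Finsupp.single_add]; push_cast; rfl
      rw [hs, Nat.cast_add, add_mul]
      refine le_antisymm (max_le (by omega) (by omega)) ?_
      by_cases hR : R ∈ insert Q (pol (K := k) xb).support
      · refine le_trans ?_ (le_max_left _ _)
        have h := hw₁S R hR
        simp only [hD, Finsupp.sub_apply, Finsupp.smul_apply, nsmul_eq_mul] at h
        omega
      · rw [Finset.mem_insert, not_or, Finsupp.mem_support_iff, not_not] at hR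
        simp only [hR.2, Finsupp.single_eq_of_ne hR.1] at h1 h2 ⊢
        by_cases hw : R.ord w₁ = 0
        · refine le_trans ?_ (le_max_left _ _); rw [hw]; simp
        · have h := hw₂S R (by simpa using hw)
          simp only [hD, Finsupp.sub_apply, Finsupp.smul_apply, nsmul_eq_mul, hR.2,
            Finsupp.single_eq_of_ne hR.1] at h
          refine le_trans ?_ (le_max_right _ _); rw [h]; simp
    have hinf : rrBound k Fb < Divisor.degree
      ((n • pol (K := k) xb - Finsupp.single Q 1 - divFun w₁)
        ⊓ (n • pol (K := k) xb - Finsupp.single Q 1 - divFun w₂)) := by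
      have h := degree_inf_add_degree_sup (n • pol (K := k) xb - Finsupp.single Q 1 - divFun w₁)
        (n • pol (K := k) xb - Finsupp.single Q 1 - divFun w₂)
      rw [hsup, hT] at h
      simp only [map_sub, map_nsmul, nsmul_eq_mul, degree_divFun, degree_single_one] at h
      push_cast at h
      rw [add_mul] at h
      have hmd : (m : ℤ) * Divisor.degree (pol (K := k) xb) = (m : ℤ) * d := by rw [hd]
      omega
    have hge : riemannRochSpace T ≤ X.cut Z (m + n) := by
      rw [← hsup, ← rr_sup_eq hinf]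
      exact sup_le (step w₁ hw₁ hw₁0) (step w₂ hw₂ hw₂0)
    have : FiniteDimensional k (X.cut Z (m + n)) := C.finiteDimensional_resSub _
    refine (Submodule.eq_of_le_of_finrank_le hge ?_).symm
    obtain ⟨e1, e2⟩ := threshold_spec (X := X) hX (n := m + n) (s := s + 1) (by omega)
    push_cast at e1 e2
    rw [← hxb] at e2
    have h1 := finrank_cut hX (Z := Z) (n := m + n) (by rw [hdeg]; push_cast; omega)
    have h2 := finrank_rrFb (L := L) (F := F) (D := T)
      (by rw [hT, map_sub, map_nsmul, nsmul_eq_mul, degree_single_one]; push_cast; omega)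
    rw [hdeg, ← hxb] at h1
    rw [hT, map_sub, map_nsmul, nsmul_eq_mul, degree_single_one, ← hT] at h2
    push_cast at h1 h2
    omega

/-- The inequality `ord_Q (ū) ≥ Σ_{P ↦ Q} ord_P u` in a chart. -/
theorem degree_filter_le_ord (hX : X.Good) {u : C.O} (hu : InB L (X.x : F) (u : F))
    (hres : C.res u ≠ 0) (Q : Place k Fb) (hQ : 0 ≤ Q.ord (C.res X.x)) (p : Place L F → Prop)
    [DecidablePred p] (hp : ∀ P, p P → ∃ hP : X.InChart P, X.special hX P hP = Q) :
    Divisor.degree ((divFun (K := L) (u : F)).filter p) ≤ Q.ord (C.res u) := by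
  classical
  set Z := (divFun (K := L) (u : F)).filter p with hZdef
  have hu0 : (u : F) ≠ 0 := fun h =>
    hres (by rw [show u = 0 from Subtype.ext h, map_zero])
  have hZsupp : ∀ P, Z P ≠ 0 → ∃ hP : X.InChart P, X.special hX P hP = Q := by
    intro P hP
    by_cases h : p P
    · exact hp P h
    · exact absurd (Finsupp.filter_apply_neg _ _ h) hP
  have hZ : 0 ≤ Z := by
    intro P
    by_cases h : p P
    · obtain ⟨hP, -⟩ := hp P h
      rw [Finsupp.zero_apply, hZdef, Finsupp.filter_apply_pos _ _ h, divFun_apply]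
      exact hu P hP.ord_nonneg
    · rw [Finsupp.zero_apply, hZdef, Finsupp.filter_apply_neg _ _ h]
  have hs : Divisor.degree Z = ((Divisor.degree Z).toNat : ℤ) := by
    have := FFRiemannRoch.degree_le_degree hZ
    rw [map_zero] at this
    omega
  obtain ⟨M, hM⟩ := exists_cut_eq hX Q hQ _ Z hZ hs hZsupp
  obtain ⟨n, hn⟩ := hu.exists_mem
  have hmem : C.res u ∈ X.cut Z (max M n) := by
    refine ⟨u, mem_rr_of_ord fun v => ?_, rfl⟩
    have h1 := (mem_rr_iff_of_ne hu0).mp (rr_nsmul_pol_mono _ (le_max_right M n) hn) v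
    rw [Finsupp.sub_apply]
    by_cases h : p v
    · obtain ⟨hv, -⟩ := hp v h
      rw [hZdef, Finsupp.filter_apply_pos _ _ h, divFun_apply, Finsupp.smul_apply,
        hv.pol_eq_zero]
      simp
    · rw [hZdef, Finsupp.filter_apply_neg _ _ h, sub_zero]
      exact h1
  rw [hM _ (le_max_left M n)] at hmem
  have := (mem_rr_iff_of_ne hres).mp hmem Q
  rw [Finsupp.sub_apply, Finsupp.single_eq_same, Finsupp.smul_apply, pol_apply,
    max_eq_right (show -Q.ord (C.res X.x) ≤ 0 by omega), smul_zero] at this
  omega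

end Reduction.Chart

end FLTAgent.Deuring
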