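import Fermat.Agent.Deuring.Echelon
import Mathlib.LinearAlgebra.FiniteDimensional.Basic

/-!
# Constant reductions of fields over a valued field

`Reduction L k F Fb`: a valuation ring `A` of `L` with residue map onto `k` and a valuation ring
`O` of the `L`-algebra `F` with residue map into `Fb`, every element being scalable to a unit of
`O`, with reduced bases of finite dimensional subspaces. `resSub` reduces a subspace without
changing its dimension (`finrank_resSub`); this is the object of all `Deuring` files.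
-/

set_option autoImplicit false

noncomputable section

namespace FLTAgent.Deuring

variable (L k F Fb : Type*) [Field L] [Field k] [Field F] [Field Fb]
  [Algebra L F] [Algebra k Fb]

/-- A reduction of `F` over a valued constant field: valuation rings with residue maps such that
every element scales by a constant to a unit and finite dimensional subspaces have reduced bases. -/
structure Reduction where
  A : ValuationSubring L
  O : ValuationSubring F
  π : A →+* k
  π_surj : Function.Surjective π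
  res : O →+* Fb
  algebraMap_mem : ∀ a : A, algebraMap L F a ∈ O
  res_algebraMap : ∀ a : A,
    res ⟨algebraMap L F a, algebraMap_mem a⟩ = algebraMap k Fb (π a)
  scale : ∀ f : F, f ≠ 0 → ∃ (c : L) (h : c • f ∈ O), res ⟨c • f, h⟩ ≠ 0
  ortho : ∀ (V : Submodule L F) [FiniteDimensional L V],
    ∃ b : Fin (Module.finrank L V) → O, (∀ i, (b i : F) ∈ V) ∧
      LinearIndependent k (fun i => res (b i))

variable {L k F Fb}

namespace Reduction

variable (C : Reduction L k F Fb)

/-- The structure map of constants. -/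
def ι : C.A →+* C.O where
  toFun a := ⟨algebraMap L F a, C.algebraMap_mem a⟩
  map_one' := Subtype.ext (by simp)
  map_mul' a b := Subtype.ext (by simp)
  map_zero' := Subtype.ext (by simp)
  map_add' a b := Subtype.ext (by simp)

@[simp] theorem coe_ι (a : C.A) : (C.ι a : F) = algebraMap L F a := rfl

@[simp] theorem res_ι (a : C.A) : C.res (C.ι a) = algebraMap k Fb (C.π a) := C.res_algebraMap a

theorem π_eq_zero_iff (a : C.A) : C.π a = 0 ↔ ¬ IsUnit a := by
  constructor
  · intro h hu
    exact (hu.map C.π).ne_zero h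
  · intro h
    have hker : RingHom.ker C.π = IsLocalRing.maximalIdeal C.A :=
      IsLocalRing.eq_maximalIdeal (RingHom.ker_isMaximal_of_surjective C.π C.π_surj)
    exact RingHom.mem_ker.mp (hker ▸ (IsLocalRing.mem_maximalIdeal a).mpr h)

theorem isUnit_of_π_ne_zero {a : C.A} (h : C.π a ≠ 0) : IsUnit a :=
  not_not.mp fun hn => h ((C.π_eq_zero_iff a).mpr hn)

/-- The inverse of a constant outside the valuation ring reduces to `0`. -/
theorem inv_mem_of_not_mem {c : L} (hc : c ∉ C.A) :
    ∃ h : c⁻¹ ∈ C.A, C.π ⟨c⁻¹, h⟩ = 0 := by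
  have h := (C.A.mem_or_inv_mem c).resolve_left hc
  refine ⟨h, (C.π_eq_zero_iff _).mpr fun hu => hc ?_⟩
  obtain ⟨d, hd⟩ := hu.exists_right_inv
  have hd' : c⁻¹ * (d : L) = 1 := by simpa using congrArg Subtype.val hd
  have : (d : L) = c := by
    have := eq_inv_of_mul_eq_one_right hd'
    simpa using this
  exact this ▸ d.2

theorem mem_A_of_algebraMap_mem {c : L} (h : algebraMap L F c ∈ C.O) : c ∈ C.A := by
  by_contra hc
  obtain ⟨h', hπ⟩ := C.inv_mem_of_not_mem hc
  have hc0 : c ≠ 0 := fun h0 => hc (h0 ▸ C.A.zero_mem)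
  have h1 : C.ι ⟨c⁻¹, h'⟩ * ⟨algebraMap L F c, h⟩ = 1 :=
    Subtype.ext (by simp [hc0])
  have := congrArg C.res h1
  rw [map_mul, res_ι, hπ, map_zero, zero_mul, map_one] at this
  exact zero_ne_one this

theorem isUnit_of_res_ne_zero {u : C.O} (h : C.res u ≠ 0) : IsUnit u := by
  have hu0 : (u : F) ≠ 0 := fun h0 => h (by rw [show u = 0 from Subtype.ext h0, map_zero])
  obtain ⟨c, hc, hres⟩ := C.scale (u : F)⁻¹ (inv_ne_zero hu0)
  have hmem : algebraMap L F c ∈ C.O := by
    have hm := C.O.mul_mem _ _ hc u.2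
    rwa [Algebra.smul_def, mul_assoc, inv_mul_cancel₀ hu0, mul_one] at hm
  have e : C.ι ⟨c, C.mem_A_of_algebraMap_mem hmem⟩ = ⟨_, hc⟩ * u :=
    Subtype.ext (by simp [Algebra.smul_def, hu0])
  have he := congrArg C.res e
  rw [res_ι, map_mul] at he
  have hne : C.π ⟨c, C.mem_A_of_algebraMap_mem hmem⟩ ≠ 0 := by
    intro h0
    rw [h0, map_zero] at he
    exact (mul_ne_zero hres h) he.symm
  have hu' : IsUnit (C.ι ⟨c, C.mem_A_of_algebraMap_mem hmem⟩) :=
    (C.isUnit_of_π_ne_zero hne).map C.ι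
  rw [e] at hu'
  exact isUnit_of_mul_isUnit_right hu'

theorem res_ne_zero_iff {u : C.O} : C.res u ≠ 0 ↔ IsUnit u :=
  ⟨C.isUnit_of_res_ne_zero, fun h => (h.map C.res).ne_zero⟩

/-- Every element of `O` is a constant of `A` times a unit. -/
theorem exists_eq_ι_mul_unit {u : C.O} (hu : u ≠ 0) :
    ∃ (a : C.A) (w : C.O), IsUnit w ∧ u = C.ι a * w ∧ a ≠ 0 := by
  have hu0 : (u : F) ≠ 0 := fun h => hu (Subtype.ext h)
  obtain ⟨c, hc, hres⟩ := C.scale (u : F) hu0
  have hw := C.isUnit_of_res_ne_zero hres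
  have hc0 : c ≠ 0 := by
    rintro rfl
    apply hres
    rw [show (⟨(0 : L) • (u : F), hc⟩ : C.O) = 0 from Subtype.ext (zero_smul L _), map_zero]
  obtain ⟨d, hd⟩ := hw.exists_right_inv
  have hd' : (c • (u : F)) * (d : F) = 1 := by simpa using congrArg Subtype.val hd
  have hinv : algebraMap L F c⁻¹ ∈ C.O := by
    have : algebraMap L F c⁻¹ = (u : F) * (d : F) := by
      rw [map_inv₀]
      apply inv_eq_of_mul_eq_one_right
      rw [← hd', Algebra.smul_def, mul_assoc]
    rw [this]
    exact C.O.mul_mem _ _ u.2 d.2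
  refine ⟨⟨c⁻¹, C.mem_A_of_algebraMap_mem hinv⟩, ⟨_, hc⟩, hw, Subtype.ext ?_, ?_⟩
  · simp [Algebra.smul_def, hc0]
  · intro h
    exact inv_ne_zero hc0 (congrArg Subtype.val h)

/-- Coordinates with respect to a family with independent reductions are integral. -/
theorem coord_mem {n : ℕ} (b : Fin n → C.O)
    (hb : LinearIndependent k (fun i => C.res (b i))) (c : Fin n → L) (u : C.O)
    (hu : (u : F) = ∑ i, c i • (b i : F)) : ∀ i, c i ∈ C.A := by
  by_contra! hcon
  obtain ⟨j, hj⟩ := hcon
  have hc : c ≠ 0 := fun h => hj (by rw [h]; exact C.A.zero_mem)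
  obtain ⟨p, hp, hmem⟩ := exists_scaled_mem (A := C.A) c hc
  have hpA : c p ∉ C.A := fun h =>
    hj (by simpa [div_mul_cancel₀ _ hp] using C.A.mul_mem _ _ (hmem j) h)
  obtain ⟨hinv, hπ⟩ := C.inv_mem_of_not_mem hpA
  have e : C.ι ⟨(c p)⁻¹, hinv⟩ * u = ∑ i, C.ι ⟨c i / c p, hmem i⟩ * b i := by
    apply Subtype.ext
    push_cast
    rw [hu, Finset.mul_sum]
    refine Finset.sum_congr rfl fun i _ => ?_
    simp [Algebra.smul_def, div_eq_mul_inv]
    ring
  have he := congrArg C.res e
  simp only [map_mul, map_sum, res_ι, hπ, map_zero, zero_mul] at he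
  have h0 : ∑ i, C.π ⟨c i / c p, hmem i⟩ • C.res (b i) = 0 := by
    simpa [Algebra.smul_def] using he.symm
  have := Fintype.linearIndependent_iff.mp hb _ h0 p
  rw [show (⟨c p / c p, hmem p⟩ : C.A) = 1 from Subtype.ext (div_self hp), map_one] at this
  exact one_ne_zero this

theorem linearIndependent_of_res {n : ℕ} (b : Fin n → C.O)
    (hb : LinearIndependent k (fun i => C.res (b i))) :
    LinearIndependent L (fun i => (b i : F)) := by
  rw [Fintype.linearIndependent_iff]
  intro c hc
  by_contra! hcon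
  obtain ⟨j, hj⟩ := hcon
  obtain ⟨p, hp, hmem⟩ := exists_scaled_mem (A := C.A) c (fun h => hj (by rw [h]; rfl))
  have e : ∑ i, C.ι ⟨c i / c p, hmem i⟩ * b i = 0 := by
    apply Subtype.ext
    push_cast
    calc ∑ i, algebraMap L F (c i / c p) * (b i : F)
        = algebraMap L F (c p)⁻¹ * ∑ i, c i • (b i : F) := by
          rw [Finset.mul_sum]
          exact Finset.sum_congr rfl fun i _ => by simp [Algebra.smul_def, div_eq_mul_inv]; ring
      _ = 0 := by rw [hc, mul_zero]
  have he := congrArg C.res e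
  simp only [map_mul, map_sum, res_ι, map_zero] at he
  have := Fintype.linearIndependent_iff.mp hb (fun i => C.π ⟨c i / c p, hmem i⟩)
    (by simpa [Algebra.smul_def] using he) p
  rw [show (⟨c p / c p, hmem p⟩ : C.A) = 1 from Subtype.ext (div_self hp), map_one] at this
  exact one_ne_zero this

theorem exists_coords {V : Submodule L F} [FiniteDimensional L V]
    (b : Fin (Module.finrank L V) → C.O) (hV : ∀ i, (b i : F) ∈ V)
    (hb : LinearIndependent k (fun i => C.res (b i))) (u : C.O) (hu : (u : F) ∈ V) :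
    ∃ a : Fin (Module.finrank L V) → C.A, u = ∑ i, C.ι (a i) * b i := by
  have hli := C.linearIndependent_of_res b hb
  have hspan : Submodule.span L (Set.range fun i => (b i : F)) = V := by
    refine Submodule.eq_of_le_of_finrank_eq
      (Submodule.span_le.mpr (by rintro _ ⟨i, rfl⟩; exact hV i)) ?_
    rw [finrank_span_eq_card hli, Fintype.card_fin]
  rw [← hspan] at hu
  obtain ⟨c, hc⟩ := (Submodule.mem_span_range_iff_exists_fun L).mp hu
  refine ⟨fun i => ⟨c i, C.coord_mem b hb c u hc.symm i⟩, Subtype.ext ?_⟩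
  push_cast
  simpa [Algebra.smul_def] using hc.symm

/-- Reduction of the integral part of a subspace. -/
def resSub (V : Submodule L F) : Submodule k Fb where
  carrier := {w | ∃ u : C.O, (u : F) ∈ V ∧ C.res u = w}
  zero_mem' := ⟨0, by simp, map_zero _⟩
  add_mem' := by
    rintro _ _ ⟨u, hu, rfl⟩ ⟨v, hv, rfl⟩
    exact ⟨u + v, V.add_mem hu hv, map_add _ _ _⟩
  smul_mem' := by
    rintro c _ ⟨u, hu, rfl⟩
    obtain ⟨a, rfl⟩ := C.π_surj c
    refine ⟨C.ι a * u, ?_, by rw [map_mul, res_ι, Algebra.smul_def]⟩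
    have : ((C.ι a * u : C.O) : F) = (a : L) • (u : F) := by simp [Algebra.smul_def]
    rw [this]
    exact V.smul_mem _ hu

theorem resSub_eq_span {V : Submodule L F} [FiniteDimensional L V]
    (b : Fin (Module.finrank L V) → C.O) (hV : ∀ i, (b i : F) ∈ V)
    (hb : LinearIndependent k (fun i => C.res (b i))) :
    C.resSub V = Submodule.span k (Set.range fun i => C.res (b i)) := by
  refine le_antisymm ?_ (Submodule.span_le.mpr (by rintro _ ⟨i, rfl⟩; exact ⟨b i, hV i, rfl⟩))
  rintro _ ⟨u, hu, rfl⟩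
  obtain ⟨a, rfl⟩ := C.exists_coords b hV hb u hu
  rw [map_sum]
  refine Submodule.sum_mem _ fun i _ => ?_
  rw [map_mul, res_ι, ← Algebra.smul_def]
  exact Submodule.smul_mem _ _ (Submodule.subset_span ⟨i, rfl⟩)

theorem finiteDimensional_resSub (V : Submodule L F) [FiniteDimensional L V] :
    FiniteDimensional k (C.resSub V) := by
  obtain ⟨b, hV, hb⟩ := C.ortho V
  rw [C.resSub_eq_span b hV hb]
  exact FiniteDimensional.span_of_finite k (Set.finite_range _)

theorem finrank_resSub (V : Submodule L F) [FiniteDimensional L V] :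
    Module.finrank k (C.resSub V) = Module.finrank L V := by
  obtain ⟨b, hV, hb⟩ := C.ortho V
  rw [C.resSub_eq_span b hV hb, finrank_span_eq_card hb, Fintype.card_fin]

/-- The reduction of `V ∩ O` exhausts any subspace of no larger dimension containing it. -/
theorem resSub_eq {V : Submodule L F} [FiniteDimensional L V] {W : Submodule k Fb}
    [FiniteDimensional k W] (hle : C.resSub V ≤ W)
    (hdim : Module.finrank k W ≤ Module.finrank L V) : C.resSub V = W :=
  Submodule.eq_of_le_of_finrank_le hle (by rwa [C.finrank_resSub])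

/-- A decomposition of the reductions lifts to a decomposition of lattices. -/
theorem exists_add_of_resSub_le {V W₁ W₂ : Submodule L F} [FiniteDimensional L V]
    (h₁ : W₁ ≤ V) (h₂ : W₂ ≤ V) (h : C.resSub V ≤ C.resSub W₁ ⊔ C.resSub W₂)
    (u : C.O) (hu : (u : F) ∈ V) :
    ∃ w₁ w₂ : C.O, (w₁ : F) ∈ W₁ ∧ (w₂ : F) ∈ W₂ ∧ u = w₁ + w₂ := by
  obtain ⟨b, hV, hb⟩ := C.ortho V
  have hdec : ∀ i, ∃ s₁ s₂ : C.O, (s₁ : F) ∈ W₁ ∧ (s₂ : F) ∈ W₂ ∧
      C.res (s₁ + s₂) = C.res (b i) := by
    intro i
    obtain ⟨_, ⟨s₁, hs₁, rfl⟩, _, ⟨s₂, hs₂, rfl⟩, he⟩ :=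
      Submodule.mem_sup.mp (h ⟨b i, hV i, rfl⟩)
    exact ⟨s₁, s₂, hs₁, hs₂, by rw [map_add, he]⟩
  choose s₁ s₂ hs₁ hs₂ he using hdec
  obtain ⟨a, rfl⟩ := C.exists_coords (fun i => s₁ i + s₂ i)
    (fun i => V.add_mem (h₁ (hs₁ i)) (h₂ (hs₂ i))) (by simpa only [he] using hb) u hu
  refine ⟨∑ i, C.ι (a i) * s₁ i, ∑ i, C.ι (a i) * s₂ i, ?_, ?_, ?_⟩
  · push_cast
    exact W₁.sum_mem fun i _ => by simpa [Algebra.smul_def] using W₁.smul_mem (a i : L) (hs₁ i)
  · push_cast
    exact W₂.sum_mem fun i _ => by simpa [Algebra.smul_def] using W₂.smul_mem (a i : L) (hs₂ i)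
  · simp [mul_add, Finset.sum_add_distrib]

end Reduction

end FLTAgent.Deuring
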