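import Fermat.Agent.Deuring.RRTools

/-!
# Pole divisors and functions regular where a given function is regular

`pol x` is the pole divisor and `InB K x f` says `f` is regular wherever `x` is; such `f` lie in
the Riemann–Roch space of a multiple of `pol x` (`InB.exists_mem`). Used by `Chart`.
-/

set_option autoImplicit false

noncomputable section

open AlgebraicCurve IntermediateField FLTAgent.FFBasic

namespace FLTAgent.Deuring

variable {K F : Type*} [Field K] [Field F] [Algebra K F]

/-- `f` is regular at all places where `x` is regular. -/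
def InB (K : Type*) {F : Type*} [Field K] [Field F] [Algebra K F] (x f : F) : Prop :=
  ∀ v : Place K F, 0 ≤ v.ord x → 0 ≤ v.ord f

theorem InB.mul {x f g : F} (hf : InB K x f) (hg : InB K x g) : InB K x (f * g) := fun v hv =>
  ord_nonneg_of_mem v (mul_mem (mem_of_ord_nonneg v (hf v hv)) (mem_of_ord_nonneg v (hg v hv)))

theorem InB.add {x f g : F} (hf : InB K x f) (hg : InB K x g) : InB K x (f + g) := fun v hv =>
  ord_nonneg_of_mem v (add_mem (mem_of_ord_nonneg v (hf v hv)) (mem_of_ord_nonneg v (hg v hv)))

theorem inB_self (x : F) : InB K x x := fun _ hv => hv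

theorem inB_const (x : F) (c : K) : InB K x (algebraMap K F c) := fun v _ => by
  rw [ord_algebraMap]

theorem InB.pow {x f : F} (hf : InB K x f) : ∀ n : ℕ, InB K x (f ^ n)
  | 0 => fun v _ => by simp
  | n + 1 => by rw [pow_succ]; exact (InB.pow hf n).mul hf

variable [IsFunctionField K F]

/-- The divisor of poles. -/
def pol (x : F) : Divisor K F := divPos (-divFun x)

/-- The pole divisor of `x` at a place. -/
@[simp] theorem pol_apply (x : F) (v : Place K F) : pol (K := K) x v = max (-v.ord x) 0 := rfl

theorem pol_nonneg (x : F) : 0 ≤ pol (K := K) x := divPos_nonneg _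

theorem pol_apply_inv (x : F) (v : Place K F) : pol (K := K) x⁻¹ v = max (v.ord x) 0 := by
  simp [Place.ord_inv]

/-- The pole divisor of a transcendental element has positive degree. -/
theorem degree_pol_pos {x : F} (hx : Transcendental K x) :
    0 < Divisor.degree (pol (K := K) x) := by
  have := IsFunctionField.finiteDimensional_adjoin hx
  rw [pol, degree_poles hx]
  exact_mod_cast Module.finrank_pos

omit [IsFunctionField K F] in
theorem mem_rr_iff_of_ne {D : Divisor K F} {f : F} (hf : f ≠ 0) :
    f ∈ riemannRochSpace D ↔ ∀ v : Place K F, -D v ≤ v.ord f := by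
  rw [mem_riemannRochSpace_iff]
  exact forall_congr' fun v => or_iff_right hf

omit [IsFunctionField K F] in
/-- Membership in a Riemann–Roch space from the orders. -/
theorem mem_rr_of_ord {D : Divisor K F} {f : F} (h : ∀ v : Place K F, -D v ≤ v.ord f) :
    f ∈ riemannRochSpace D :=
  mem_riemannRochSpace_iff.mpr fun v => Or.inr (h v)

/-- An element with poles bounded by a multiple of the poles of `x` is regular where `x` is. -/
theorem inB_of_mem {x f : F} {n : ℕ} (hf : f ∈ riemannRochSpace (n • pol (K := K) x)) :
    InB K x f := fun v hv => by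
  rcases mem_riemannRochSpace_iff.mp hf v with rfl | h
  · simp
  · simp [max_eq_right (show -v.ord x ≤ 0 by omega)] at h
    omega

theorem InB.exists_mem [IsAlgClosed K] {x f : F} (hf : InB K x f) :
    ∃ n : ℕ, f ∈ riemannRochSpace (n • pol (K := K) x) := by
  refine ⟨(Divisor.degree (pol (K := K) f)).toNat, mem_rr_of_ord fun v => ?_⟩
  simp only [Finsupp.smul_apply, nsmul_eq_mul, pol_apply]
  rcases lt_or_ge (v.ord x) 0 with h | h
  · have h1 : Finsupp.single v (max (-v.ord f) 0) ≤ pol (K := K) f := by
      classical
      intro w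
      rw [Finsupp.single_apply]
      split_ifs with he
      · subst he; simp
      · exact pol_nonneg f w
    have h2 := FFRiemannRoch.degree_le_degree h1
    rw [degree_single_one] at h2
    rw [max_eq_left (by omega)]
    have hn : (0 : ℤ) ≤ (Divisor.degree (pol (K := K) f)).toNat := Int.natCast_nonneg _
    have : (Divisor.degree (pol (K := K) f)).toNat * 1 ≤
        ((Divisor.degree (pol (K := K) f)).toNat : ℤ) * (-v.ord x) :=
      mul_le_mul_of_nonneg_left (by omega) hn
    omega
  · have := hf v h
    rw [max_eq_right (by omega), mul_zero]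
    omega

theorem pow_mem_rr_nsmul_pol (x : F) (n : ℕ) :
    x ^ n ∈ riemannRochSpace (n • pol (K := K) x) :=
  pow_mem_riemannRochSpace (mem_rr_of_ord fun v => by simp; omega) n

theorem rr_nsmul_pol_mono (x : F) {m n : ℕ} (h : m ≤ n) :
    riemannRochSpace (m • pol (K := K) x) ≤ riemannRochSpace (n • pol (K := K) x) :=
  riemannRochSpace_mono (nsmul_le_nsmul_left (pol_nonneg x) h)

/-- Functions without pole where `x⁻¹` is regular, moved to the other chart. -/
theorem mul_pow_mem_of_inv {x f : F} (hx : x ≠ 0) {n : ℕ}
    (hf : f ∈ riemannRochSpace (n • pol (K := K) x⁻¹)) :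
    f * x ^ n ∈ riemannRochSpace (n • pol (K := K) x) := by
  rcases eq_or_ne f 0 with rfl | hf0
  · simp
  refine mem_rr_of_ord fun v => ?_
  have h := (mem_rr_iff_of_ne hf0).mp hf v
  rw [Finsupp.smul_apply, pol_apply_inv, nsmul_eq_mul] at h
  rw [v.ord_mul hf0 (pow_ne_zero _ hx), ord_pow, Finsupp.smul_apply, pol_apply, nsmul_eq_mul]
  rcases le_total 0 (v.ord x) with h' | h'
  · rw [max_eq_left h'] at h; rw [max_eq_right (by omega)]; linarith
  · rw [max_eq_right h'] at h; rw [max_eq_left (by omega)]; linarith

end FLTAgent.Deuring
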