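import Fermat.Agent.Deuring.Basic
import Fermat.Agent.Deuring.Poles

/-!
# Charts of a constant reduction

A chart is `x` in `O` with transcendental reduction such that functions regular where `x` is
regular reduce onto those regular where its reduction is. Two inverse charts force equal degrees
of the pole divisors and equal genera (`degree_genus_eq`). Used by `Specialize`.
-/

set_option autoImplicit false

noncomputable section

open AlgebraicCurve IntermediateField FLTAgent.FFBasic

namespace FLTAgent.Deuring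

variable {L k F Fb : Type*} [Field L] [Field k] [Field F] [Field Fb]
  [Algebra L F] [Algebra k Fb]

namespace Reduction

structure Chart (C : Reduction L k F Fb) where
  x : C.O
  transF : Transcendental L (x : F)
  transFb : Transcendental k (C.res x)
  fwd : ∀ u : C.O, InB L (x : F) (u : F) → InB k (C.res x) (C.res u)
  surj : ∀ w : Fb, InB k (C.res x) w → ∃ u : C.O, InB L (x : F) (u : F) ∧ C.res u = w

namespace Chart

variable {C : Reduction L k F Fb}

theorem x_ne_zero (X : C.Chart) : (X.x : F) ≠ 0 := fun h =>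
  X.transF (h ▸ isAlgebraic_zero)

theorem res_x_ne_zero (X : C.Chart) : C.res X.x ≠ 0 := fun h =>
  X.transFb (h ▸ isAlgebraic_zero)

theorem mul_eq_one (X X' : C.Chart) (hinv : (X'.x : F) = (X.x : F)⁻¹) : X.x * X'.x = 1 :=
  Subtype.ext (by push_cast; rw [hinv, mul_inv_cancel₀ X.x_ne_zero])

theorem res_inv (X X' : C.Chart) (hinv : (X'.x : F) = (X.x : F)⁻¹) :
    C.res X'.x = (C.res X.x)⁻¹ :=
  eq_inv_of_mul_eq_one_right (by rw [← map_mul, X.mul_eq_one X' hinv, map_one])

variable [IsAlgClosed L] [IsAlgClosed k] [IsFunctionField L F] [IsFunctionField k Fb]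

/-- A common bound for Riemann's theorem on both fibres. -/
def bound (L k F Fb : Type*) [Field L] [Field k] [Field F] [Field Fb]
    [Algebra L F] [Algebra k Fb] : ℤ :=
  max (rrBound L F) (rrBound k Fb)

omit [IsAlgClosed L] [IsAlgClosed k] [IsFunctionField L F] [IsFunctionField k Fb] in
theorem bound_nonneg : 0 ≤ bound L k F Fb := le_trans rrBound_nonneg (le_max_left _ _)

omit [IsAlgClosed k] [IsFunctionField k Fb] in
theorem finrank_rrF {D : Divisor L F} (hD : bound L k F Fb < Divisor.degree D) :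
    (Module.finrank L (riemannRochSpace D) : ℤ) = Divisor.degree D + 1 - genusFF L F :=
  finrank_rr (lt_of_le_of_lt (le_max_left _ _) hD)

omit [IsAlgClosed L] [IsFunctionField L F] in
theorem finrank_rrFb {D : Divisor k Fb} (hD : bound L k F Fb < Divisor.degree D) :
    (Module.finrank k (riemannRochSpace D) : ℤ) = Divisor.degree D + 1 - genusFF k Fb :=
  finrank_rr (lt_of_le_of_lt (le_max_right _ _) hD)

omit [IsAlgClosed L] [IsAlgClosed k] in
/-- Reductions of bounded functions are bounded. -/
theorem resSub_le (X X' : C.Chart) (hinv : (X'.x : F) = (X.x : F)⁻¹) (n : ℕ) :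
    C.resSub (riemannRochSpace (n • pol (K := L) (X.x : F))) ≤
      riemannRochSpace (n • pol (K := k) (C.res X.x)) := by
  rintro _ ⟨u, hu, rfl⟩
  rcases eq_or_ne (C.res u) 0 with h0 | h0
  · rw [h0]; exact Submodule.zero_mem _
  have h1 := X.fwd u (inB_of_mem hu)
  have hu' : InB L (X'.x : F) ((u * X'.x ^ n : C.O) : F) := by
    push_cast
    refine inB_of_mem (n := n) (mul_pow_mem_of_inv (X'.x_ne_zero) ?_)
    rwa [hinv, inv_inv]
  have h2 := X'.fwd _ hu'
  rw [map_mul, map_pow, X.res_inv X' hinv] at h2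
  refine mem_rr_of_ord fun Q => ?_
  rw [Finsupp.smul_apply, pol_apply, nsmul_eq_mul]
  rcases le_total 0 (Q.ord (C.res X.x)) with h | h
  · rw [max_eq_right (by omega), mul_zero, neg_zero]; exact h1 Q h
  · have h3 := h2 Q (by rw [Q.ord_inv]; omega)
    rw [Q.ord_mul h0 (pow_ne_zero _ (inv_ne_zero X.res_x_ne_zero)), ord_pow, Q.ord_inv] at h3
    rw [max_eq_left (by omega)]
    linarith

theorem degree_pol_le (X X' : C.Chart) (hinv : (X'.x : F) = (X.x : F)⁻¹) :
    Divisor.degree (pol (K := L) (X.x : F)) ≤ Divisor.degree (pol (K := k) (C.res X.x)) := by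
  set d := Divisor.degree (pol (K := L) (X.x : F)) with hd'
  set db := Divisor.degree (pol (K := k) (C.res X.x)) with hdb'
  have hd : 0 < d := degree_pol_pos X.transF
  have hdb : 0 < db := degree_pol_pos X.transFb
  by_contra! hlt
  set n : ℕ := (bound L k F Fb).toNat + genusFF L F + 1 with hn
  have hn0 : bound L k F Fb < (n : ℤ) := by rw [hn]; push_cast; omega
  have h1 : bound L k F Fb < Divisor.degree (n • pol (K := L) (X.x : F)) := by
    rw [map_nsmul, nsmul_eq_mul]
    calc bound L k F Fb < (n : ℤ) * 1 := by omega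
      _ ≤ (n : ℤ) * d := by gcongr; omega
  have h2 : bound L k F Fb < Divisor.degree (n • pol (K := k) (C.res X.x)) := by
    rw [map_nsmul, nsmul_eq_mul]
    calc bound L k F Fb < (n : ℤ) * 1 := by omega
      _ ≤ (n : ℤ) * db := by gcongr; omega
  have e1 := finrank_rrF h1
  have e2 := finrank_rrFb h2
  have e3 := Submodule.finrank_mono (resSub_le X X' hinv n)
  rw [C.finrank_resSub] at e3
  rw [map_nsmul, nsmul_eq_mul, ← hd'] at e1
  rw [map_nsmul, nsmul_eq_mul, ← hdb'] at e2
  have : (n : ℤ) * (db + 1) ≤ (n : ℤ) * d := by gcongr; omega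
  have hg : (0 : ℤ) ≤ genusFF k Fb := Int.natCast_nonneg _
  rw [mul_add, mul_one] at this
  omega

omit [IsAlgClosed L] [IsAlgClosed k] [IsFunctionField k Fb] in
theorem mul_x_mem_resSub (X : C.Chart) {m : ℕ} {w : Fb}
    (hw : w ∈ C.resSub (riemannRochSpace (m • pol (K := L) (X.x : F)))) (j : ℕ) :
    w * C.res X.x ^ j ∈ C.resSub (riemannRochSpace ((m + j) • pol (K := L) (X.x : F))) := by
  obtain ⟨u, hu, rfl⟩ := hw
  refine ⟨u * X.x ^ j, ?_, by rw [map_mul, map_pow]⟩
  push_cast
  rw [add_nsmul]
  exact mul_mem_riemannRochSpace hu (pow_mem_rr_nsmul_pol _ j)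

omit [IsAlgClosed k] in
theorem exists_mul_pow_mem (X X' : C.Chart) (hinv : (X'.x : F) = (X.x : F)⁻¹) {a : ℕ} {w : Fb}
    (hw : w ∈ riemannRochSpace (a • pol (K := k) (C.res X.x))) :
    ∃ c : ℕ, w * C.res X.x ^ c ∈
      C.resSub (riemannRochSpace ((a + c) • pol (K := L) (X.x : F))) := by
  have hres := X.res_inv X' hinv
  have h1 : InB k (C.res X'.x) (w * C.res X'.x ^ a) := by
    rw [hres]
    have := mul_pow_mem_of_inv (K := k) (x := (C.res X.x)⁻¹) (inv_ne_zero X.res_x_ne_zero)
      (n := a) (f := w) (by rwa [inv_inv])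
    exact inB_of_mem this
  obtain ⟨u, hu, hres_u⟩ := X'.surj _ h1
  obtain ⟨n, hn⟩ := hu.exists_mem
  have h2 : ((u * X.x ^ (a + n) : C.O) : F) ∈
      riemannRochSpace ((a + n) • pol (K := L) (X.x : F)) := by
    push_cast
    refine mul_pow_mem_of_inv X.x_ne_zero ?_
    rw [hinv] at hn
    exact rr_nsmul_pol_mono _ (by omega) hn
  refine ⟨n, u * X.x ^ (a + n), h2, ?_⟩
  rw [map_mul, map_pow, hres_u, hres, inv_pow, pow_add, mul_assoc, ← mul_assoc (C.res X.x ^ a)⁻¹,
    inv_mul_cancel₀ (pow_ne_zero _ X.res_x_ne_zero), one_mul]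

theorem exists_rr_le_sup (X X' : C.Chart) (hinv : (X'.x : F) = (X.x : F)⁻¹) :
    ∃ m₀ : ℕ, 0 < m₀ ∧ ∀ m, m₀ ≤ m →
      riemannRochSpace (m • pol (K := k) (C.res X.x)) ≤
        C.resSub (riemannRochSpace (m • pol (K := L) (X.x : F))) ⊔
          riemannRochSpace ((m - 1) • pol (K := k) (C.res X.x)) := by
  classical
  set xb := C.res X.x
  set a : ℕ := (bound L k F Fb).toNat + 2 with ha
  set T := riemannRochSpace (a • pol (K := k) xb)
  let b := Module.finBasis k T
  choose c hc using fun i => exists_mul_pow_mem X X' hinv (a := a) (b i).2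
  set c₀ := Finset.univ.sup c with hc₀
  have key : ∀ j, c₀ ≤ j → ∀ w ∈ T,
      w * xb ^ j ∈ C.resSub (riemannRochSpace ((a + j) • pol (K := L) (X.x : F))) := by
    intro j hj
    have hle : T ≤ (C.resSub (riemannRochSpace ((a + j) • pol (K := L) (X.x : F)))).comap
        (LinearMap.mulRight k (xb ^ j)) := by
      have hspan : T = Submodule.span k (Set.range fun i => ((b i : T) : Fb)) := by
        conv_lhs => rw [← Submodule.range_subtype T, LinearMap.range_eq_map, ← b.span_eq,
          Submodule.map_span, ← Set.range_comp]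
        rfl
      rw [hspan, Submodule.span_le]
      rintro _ ⟨i, rfl⟩
      simp only [SetLike.mem_coe, Submodule.mem_comap, LinearMap.mulRight_apply]
      have hci : c i ≤ j := le_trans (Finset.le_sup (Finset.mem_univ i)) hj
      have := mul_x_mem_resSub X (hc i) (j - c i)
      rwa [mul_assoc, ← pow_add, add_assoc, Nat.add_sub_cancel' hci] at this
    exact fun w hw => hle hw
  refine ⟨a + c₀ + 1, by omega, fun m hm => ?_⟩
  obtain ⟨j, rfl⟩ : ∃ j, m = a + j := ⟨m - a, by omega⟩
  have hj : 1 ≤ j := by omega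
  set D₁ : Divisor k Fb := (a + j) • pol xb - j • pol xb⁻¹ with hD₁
  have hD₁mem : ∀ g ∈ riemannRochSpace D₁,
      g ∈ C.resSub (riemannRochSpace ((a + j) • pol (K := L) (X.x : F))) := by
    intro g hg
    rcases eq_or_ne g 0 with rfl | hg0
    · exact Submodule.zero_mem _
    have hx0 : xb ^ j ≠ 0 := pow_ne_zero _ X.res_x_ne_zero
    have := key j (by omega) (g * (xb ^ j)⁻¹) (mem_rr_of_ord fun Q => by
      have h := (mem_rr_iff_of_ne hg0).mp hg Q
      rw [hD₁, Finsupp.sub_apply, Finsupp.smul_apply, Finsupp.smul_apply, pol_apply,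
        pol_apply_inv, nsmul_eq_mul, nsmul_eq_mul] at h
      push_cast at h
      rw [Q.ord_mul hg0 (inv_ne_zero hx0), Q.ord_inv, ord_pow, Finsupp.smul_apply, pol_apply,
        nsmul_eq_mul]
      rcases le_total 0 (Q.ord xb) with h' | h'
      · rw [max_eq_left h', max_eq_right (by omega)] at h
        rw [max_eq_right (by omega)]; linarith
      · rw [max_eq_right h', max_eq_left (by omega)] at h
        rw [max_eq_left (by omega)]; linarith)
    rwa [mul_assoc, inv_mul_cancel₀ hx0, mul_one] at this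
  have hsup : D₁ ⊔ (a + j - 1) • pol xb = (a + j) • pol xb := by
    ext Q
    rw [hD₁]
    simp only [Finsupp.sup_apply, Finsupp.sub_apply, Finsupp.smul_apply, pol_apply, Place.ord_inv,
      neg_neg, nsmul_eq_mul]
    rw [Nat.cast_sub (by omega)]
    push_cast
    rcases le_total 0 (Q.ord xb) with h | h
    · rw [max_eq_left h, max_eq_right (show -Q.ord xb ≤ 0 by omega), mul_zero, mul_zero]
      exact max_eq_right (by have := mul_nonneg (Int.natCast_nonneg j) h; linarith)
    · rw [max_eq_right h, max_eq_left (show (0 : ℤ) ≤ -Q.ord xb by omega), mul_zero, sub_zero]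
      exact max_eq_left (by linarith)
  have hinf : rrBound k Fb < Divisor.degree (D₁ ⊓ (a + j - 1) • pol xb) := by
    have h := degree_inf_add_degree_sup D₁ ((a + j - 1) • pol xb)
    rw [hsup, hD₁, map_sub, map_nsmul, map_nsmul, map_nsmul] at h
    have hpp : Divisor.degree (pol (K := k) xb⁻¹) = Divisor.degree (pol (K := k) xb) := by
      rw [pol, pol, degree_poles X.transFb, degree_poles (transcendental_inv X.transFb),
        adjoin_simple_inv]
    rw [hpp] at h
    simp only [nsmul_eq_mul] at h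
    rw [Nat.cast_sub (by omega)] at h
    push_cast at h
    have hdb : 0 < Divisor.degree (pol (K := k) xb) := degree_pol_pos X.transFb
    have hb : rrBound k Fb ≤ bound L k F Fb := le_max_right _ _
    have hb0 : 0 ≤ bound L k F Fb := bound_nonneg
    have : ((a : ℤ) - 1) * 1 ≤ ((a : ℤ) - 1) * Divisor.degree (pol (K := k) xb) := by
      gcongr <;> omega
    rw [hD₁]
    have haeq : ((a : ℤ)) = (bound L k F Fb).toNat + 2 := by rw [ha]; push_cast; rfl
    linarith [Int.self_le_toNat (bound L k F Fb)]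
  rw [← hsup, ← rr_sup_eq hinf]
  exact sup_le_sup hD₁mem le_rfl

/-- Compatibility and surjectivity of reduction on multiples of the pole divisor. -/
theorem exists_resSub_eq (X X' : C.Chart) (hinv : (X'.x : F) = (X.x : F)⁻¹) :
    ∃ n₀ : ℕ, ∀ n, n₀ ≤ n → C.resSub (riemannRochSpace (n • pol (K := L) (X.x : F))) =
      riemannRochSpace (n • pol (K := k) (C.res X.x)) := by
  obtain ⟨m₀, hm₀, hsup⟩ := exists_rr_le_sup X X' hinv
  set d := Divisor.degree (pol (K := L) (X.x : F)) with hd
  set db := Divisor.degree (pol (K := k) (C.res X.x)) with hdb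
  have hdd : d ≤ db := degree_pol_le X X' hinv
  have hd0 : 0 < d := degree_pol_pos X.transF
  set n₀ := m₀ + (bound L k F Fb).toNat + 1 with hn₀
  have hbig : ∀ n, n₀ ≤ n → bound L k F Fb < (n : ℤ) * d ∧ bound L k F Fb < (n : ℤ) * db := by
    intro n hn
    have h1 : bound L k F Fb < (n : ℤ) * 1 := by omega
    exact ⟨h1.trans_le (by gcongr; omega), h1.trans_le (by gcongr; omega)⟩
  have compat : ∀ n, n₀ ≤ n →
      C.resSub (riemannRochSpace ((n + 1) • pol (K := L) (X.x : F))) ⊓
        riemannRochSpace (n • pol (K := k) (C.res X.x)) ≤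
      C.resSub (riemannRochSpace (n • pol (K := L) (X.x : F))) := by
    intro n hn
    set V := C.resSub (riemannRochSpace ((n + 1) • pol (K := L) (X.x : F))) with hV
    set W := riemannRochSpace (n • pol (K := k) (C.res X.x)) with hW
    set V₀ := C.resSub (riemannRochSpace (n • pol (K := L) (X.x : F))) with hV₀
    have := C.finiteDimensional_resSub (riemannRochSpace ((n + 1) • pol (K := L) (X.x : F)))
    have hle : V₀ ≤ V ⊓ W := by
      refine le_inf ?_ (resSub_le X X' hinv n)
      rintro _ ⟨u, hu, rfl⟩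
      exact ⟨u, rr_nsmul_pol_mono _ (by omega) hu, rfl⟩
    have hsup' : riemannRochSpace ((n + 1) • pol (K := k) (C.res X.x)) ≤ V ⊔ W :=
      hsup (n + 1) (by omega)
    have hVW : V ⊔ W ≤ riemannRochSpace ((n + 1) • pol (K := k) (C.res X.x)) :=
      sup_le (resSub_le X X' hinv (n + 1)) (rr_nsmul_pol_mono _ (by omega))
    refine (Submodule.eq_of_le_of_finrank_le hle ?_).ge
    have h5 := Submodule.finrank_sup_add_finrank_inf_eq V W
    have h6 : Module.finrank k (V ⊔ W : Submodule k Fb) =
        Module.finrank k (riemannRochSpace ((n + 1) • pol (K := k) (C.res X.x))) := by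
      rw [le_antisymm hVW hsup']
    obtain ⟨b1, b2⟩ := hbig n hn
    obtain ⟨b3, b4⟩ := hbig (n + 1) (by omega)
    have e1 := finrank_rrF (k := k) (Fb := Fb) (D := n • pol (K := L) (X.x : F))
      (by rw [map_nsmul, nsmul_eq_mul]; exact b1)
    have e2 := finrank_rrF (k := k) (Fb := Fb) (D := (n + 1) • pol (K := L) (X.x : F))
      (by rw [map_nsmul, nsmul_eq_mul]; exact b3)
    have e3 := finrank_rrFb (L := L) (F := F) (D := n • pol (K := k) (C.res X.x))
      (by rw [map_nsmul, nsmul_eq_mul]; exact b2)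
    have e4 := finrank_rrFb (L := L) (F := F) (D := (n + 1) • pol (K := k) (C.res X.x))
      (by rw [map_nsmul, nsmul_eq_mul]; exact b4)
    rw [← C.finrank_resSub] at e1 e2
    rw [map_nsmul, nsmul_eq_mul, ← hd] at e1 e2
    rw [map_nsmul, nsmul_eq_mul, ← hdb] at e3 e4
    rw [← hV₀] at e1
    rw [← hV] at e2
    rw [← hW] at e3
    push_cast at e2 e4
    rw [add_mul, one_mul] at e2 e4
    omega
  refine ⟨n₀, fun n hn => le_antisymm (resSub_le X X' hinv n) fun w hw => ?_⟩
  obtain ⟨u, hu, rfl⟩ := X.surj w (inB_of_mem hw)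
  obtain ⟨N, hN⟩ := hu.exists_mem
  have down : ∀ i, C.res u ∈ C.resSub (riemannRochSpace ((n + i) • pol (K := L) (X.x : F))) →
      C.res u ∈ C.resSub (riemannRochSpace (n • pol (K := L) (X.x : F))) := by
    intro i
    induction i with
    | zero => exact id
    | succ i ih =>
      intro hi
      refine ih (compat (n + i) (by omega) ⟨hi, ?_⟩)
      exact rr_nsmul_pol_mono _ (by omega) hw
  exact down N ⟨u, rr_nsmul_pol_mono _ (by omega) hN, rfl⟩

/-- Degrees and genera agree. -/
theorem degree_genus_eq (X X' : C.Chart) (hinv : (X'.x : F) = (X.x : F)⁻¹) :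
    Divisor.degree (pol (K := L) (X.x : F)) = Divisor.degree (pol (K := k) (C.res X.x)) ∧
      genusFF L F = genusFF k Fb := by
  obtain ⟨n₀, h⟩ := exists_resSub_eq X X' hinv
  set d := Divisor.degree (pol (K := L) (X.x : F)) with hd
  set db := Divisor.degree (pol (K := k) (C.res X.x)) with hdb
  have hd0 : 0 < d := degree_pol_pos X.transF
  have hdb0 : 0 < db := degree_pol_pos X.transFb
  set n := n₀ + (bound L k F Fb).toNat + 1 with hn
  have key : ∀ m, n ≤ m → (m : ℤ) * d - genusFF L F = (m : ℤ) * db - genusFF k Fb := by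
    intro m hm
    have h1 : bound L k F Fb < (m : ℤ) * 1 := by omega
    have e1 := finrank_rrF (k := k) (Fb := Fb) (D := m • pol (K := L) (X.x : F))
      (by rw [map_nsmul, nsmul_eq_mul]; exact h1.trans_le (by gcongr; omega))
    have e3 := finrank_rrFb (L := L) (F := F) (D := m • pol (K := k) (C.res X.x))
      (by rw [map_nsmul, nsmul_eq_mul]; exact h1.trans_le (by gcongr; omega))
    rw [← C.finrank_resSub, h m (by omega)] at e1
    rw [map_nsmul, nsmul_eq_mul, ← hd] at e1
    rw [map_nsmul, nsmul_eq_mul, ← hdb] at e3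
    omega
  have k1 := key n le_rfl
  have k2 := key (n + 1) (by omega)
  push_cast at k2
  rw [add_mul, add_mul, one_mul, one_mul] at k2
  have hdd : d = db := by omega
  refine ⟨hdd, ?_⟩
  rw [hdd] at k1
  omega

end Chart

end Reduction

end FLTAgent.Deuring
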