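import Fermat.Agent.FFBasic.Basic
import Fermat.Prelude.Def_AlgebraicCurve_Repartitions
import Mathlib.FieldTheory.IsAlgClosed.Basic
import Mathlib.LinearAlgebra.FiniteDimensional.Lemmas

/-!
# Small facts about places, divisors and Riemann–Roch spaces

Sections of effective divisors and of infima, and functions without poles are constant
(`exists_const_of_forall_ord_nonneg`). Used by `RRTools` and
`PlaceMap`.
-/

set_option autoImplicit false

noncomputable section

open AlgebraicCurve

namespace FLTAgent.Deuring

variable {K F : Type*} [Field K] [Field F] [Algebra K F]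

theorem one_mem_rr {D : Divisor K F} (h : 0 ≤ D) : (1 : F) ∈ riemannRochSpace D := by
  intro v
  rw [map_one, ← WithZero.exp_zero]
  exact WithZero.exp_le_exp.mpr (Finsupp.le_def.mp h v)

theorem mem_rr_inf {D E G : Divisor K F} (h : ∀ v, min (D v) (E v) ≤ G v) {f : F}
    (hD : f ∈ riemannRochSpace D) (hE : f ∈ riemannRochSpace E) : f ∈ riemannRochSpace G := by
  intro v
  rcases min_le_iff.mp (h v) with h' | h'
  · exact (hD v).trans (WithZero.exp_le_exp.mpr h')
  · exact (hE v).trans (WithZero.exp_le_exp.mpr h')

/-- Elements without poles are constants. -/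
theorem exists_const_of_forall_ord_nonneg [IsAlgClosed K]
    [FiniteDimensional K (riemannRochSpace (0 : Divisor K F))] {f : F}
    (hf : ∀ v : Place K F, 0 ≤ v.ord f) : ∃ c : K, algebraMap K F c = f := by
  have hf0 : f ∈ riemannRochSpace (0 : Divisor K F) :=
    mem_riemannRochSpace_iff.mpr fun v => Or.inr (by simpa using hf v)
  let S : Subalgebra K F :=
    (riemannRochSpace (0 : Divisor K F)).toSubalgebra (one_mem_rr le_rfl)
      fun a b ha hb => by simpa using FFBasic.mul_mem_riemannRochSpace ha hb
  have : Module.Finite K S :=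
    inferInstanceAs (FiniteDimensional K (riemannRochSpace (0 : Divisor K F)))
  have hint : IsIntegral K f := (IsIntegral.of_finite K (⟨f, hf0⟩ : S)).map S.val
  have hdeg := IsAlgClosed.degree_eq_one_of_irreducible K (minpoly.irreducible hint)
  obtain ⟨c, hc⟩ := minpoly.natDegree_eq_one_iff.mp (Polynomial.natDegree_eq_of_degree_eq_some hdeg)
  exact ⟨c, hc⟩

end FLTAgent.Deuring
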