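import Fermat.Agent.Deuring.Places
import Fermat.Agent.FFBasic.Degree
import Fermat.Agent.FFRiemannRoch.Duality
import Fermat.Agent.FFRiemannRoch.FunctionField

/-!
# Riemann–Roch tools over an algebraically closed constant field

The Riemann formula in degree above `rrBound = max 0 (2g - 2)` (`finrank_rr`), sums of
Riemann–Roch spaces (`rr_sup_eq`) and functions with prescribed exact orders (`exists_exact_rr`).
Used by `Poles` and `PlaceMap`.
-/

set_option autoImplicit false

noncomputable section

open AlgebraicCurve IntermediateField FLTAgent.FFBasic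

namespace FLTAgent.Deuring

variable {K F : Type*} [Field K] [Field F] [Algebra K F]

variable [IsFunctionField K F]

/-- The bound `max 0 (2g - 2)` above which the Riemann formula holds. -/
def rrBound (K F : Type*) [Field K] [Field F] [Algebra K F] : ℤ :=
  max 0 (2 * (genusFF K F : ℤ) - 2)

section Closed

variable [IsAlgClosed K]

omit [IsFunctionField K F] [IsAlgClosed K] in
theorem rrBound_nonneg : 0 ≤ rrBound K F := le_max_left _ _

theorem finrank_rr {D : Divisor K F} (hD : rrBound K F < Divisor.degree D) :
    (Module.finrank K (riemannRochSpace D) : ℤ) = Divisor.degree D + 1 - genusFF K F :=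
  FFRiemannRoch.ell_eq_of_lt (lt_of_le_of_lt (le_max_right _ _) hD)

theorem degree_single_one (v : Place K F) (n : ℤ) :
    Divisor.degree (Finsupp.single v n) = n := by
  rw [Divisor.degree_single, place_deg_eq_one, Nat.cast_one, mul_one]

omit [IsFunctionField K F] [IsAlgClosed K] in
theorem degree_inf_add_degree_sup (D E : Divisor K F) :
    Divisor.degree (D ⊓ E) + Divisor.degree (D ⊔ E) = Divisor.degree D + Divisor.degree E := by
  rw [← map_add, ← map_add]
  congr 1
  ext v
  simp only [Finsupp.add_apply, Finsupp.inf_apply, Finsupp.sup_apply]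
  exact min_add_max _ _

/-- Sums of Riemann–Roch spaces of large degree. -/
theorem rr_sup_eq {D E : Divisor K F} (h : rrBound K F < Divisor.degree (D ⊓ E)) :
    riemannRochSpace D ⊔ riemannRochSpace E = riemannRochSpace (D ⊔ E) := by
  refine Submodule.eq_of_le_of_finrank_le (sup_le (riemannRochSpace_mono le_sup_left)
    (riemannRochSpace_mono le_sup_right)) ?_
  have hD : Divisor.degree (D ⊓ E) ≤ Divisor.degree D :=
    FFRiemannRoch.degree_le_degree inf_le_left
  have hE : Divisor.degree (D ⊓ E) ≤ Divisor.degree E :=
    FFRiemannRoch.degree_le_degree inf_le_right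
  have hDE : Divisor.degree D ≤ Divisor.degree (D ⊔ E) :=
    FFRiemannRoch.degree_le_degree le_sup_left
  have h1 := finrank_rr h
  have h2 := finrank_rr (h.trans_le hD)
  have h3 := finrank_rr (h.trans_le hE)
  have h4 := finrank_rr (h.trans_le (hD.trans hDE))
  have h5 := Submodule.finrank_sup_add_finrank_inf_eq (riemannRochSpace D) (riemannRochSpace E)
  have h6 : riemannRochSpace D ⊓ riemannRochSpace E ≤ riemannRochSpace (D ⊓ E) := by
    rintro f ⟨hfD, hfE⟩
    exact mem_rr_inf (fun v => by rw [Finsupp.inf_apply]) hfD hfE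
  have h7 := Submodule.finrank_mono h6
  have h8 := degree_inf_add_degree_sup D E
  omega

omit [IsFunctionField K F] in
/-- A function attaining all prescribed pole orders on a finite set of places. -/
theorem exists_exact {D : Divisor K F} (S : Finset (Place K F)) {W : Submodule K F}
    (hW : W ≤ riemannRochSpace D) (hW0 : W ≠ ⊥)
    (hWS : ∀ Q ∈ S, ¬ W ≤ riemannRochSpace (D - Finsupp.single Q 1)) :
    ∃ w ∈ W, w ≠ 0 ∧ ∀ Q ∈ S, Q.ord w = -D Q := by
  classical
  suffices h : ∀ T : Finset (Place K F), T ⊆ S → T.Nonempty →
      ∃ w ∈ W, ∀ Q ∈ T, w ∉ riemannRochSpace (D - Finsupp.single Q 1) by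
    rcases S.eq_empty_or_nonempty with rfl | hS
    · obtain ⟨w, hw, hw0⟩ := Submodule.exists_mem_ne_zero_of_ne_bot hW0
      exact ⟨w, hw, hw0, by simp⟩
    obtain ⟨w, hw, hwS⟩ := h S le_rfl hS
    obtain ⟨Q₀, hQ₀⟩ := hS
    have hw0 : w ≠ 0 := fun h0 => hwS Q₀ hQ₀ (h0 ▸ Submodule.zero_mem _)
    refine ⟨w, hw, hw0, fun Q hQ => le_antisymm ?_ ?_⟩
    · by_contra hlt
      push Not at hlt
      refine hwS Q hQ (mem_riemannRochSpace_iff.mpr fun v => Or.inr ?_)
      have hv := (mem_riemannRochSpace_iff.mp (hW hw) v).resolve_left hw0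
      rw [Finsupp.sub_apply, Finsupp.single_apply]
      split_ifs with he
      · subst he; omega
      · omega
    · exact (mem_riemannRochSpace_iff.mp (hW hw) Q).resolve_left hw0
  intro T
  induction T using Finset.induction_on with
  | empty => intro _ h; simp at h
  | insert Q T hQT ih =>
    intro hsub _
    have hQS := hsub (Finset.mem_insert_self Q T)
    obtain ⟨wQ, hwQW, hwQ⟩ := SetLike.not_le_iff_exists.mp (hWS Q hQS)
    rcases T.eq_empty_or_nonempty with rfl | hT
    · exact ⟨wQ, hwQW, by simpa using hwQ⟩
    obtain ⟨w, hw, hwT⟩ := ih ((Finset.subset_insert Q T).trans hsub) hT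
    have hfin : ∀ R ∈ insert Q T,
        {c : K | w + c • wQ ∈ riemannRochSpace (D - Finsupp.single R 1)}.Subsingleton := by
      intro R hR c hc c' hc'
      replace hc : w + c • wQ ∈ riemannRochSpace (D - Finsupp.single R 1) := hc
      replace hc' : w + c' • wQ ∈ riemannRochSpace (D - Finsupp.single R 1) := hc'
      by_contra hne
      have hsub' := Submodule.sub_mem _ hc hc'
      rw [add_sub_add_left_eq_sub, ← sub_smul] at hsub'
      have hwQR : wQ ∈ riemannRochSpace (D - Finsupp.single R 1) :=
        (Submodule.smul_mem_iff _ (sub_ne_zero.mpr hne)).mp hsub'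
      rcases Finset.mem_insert.mp hR with rfl | hRT
      · exact hwQ hwQR
      · have := Submodule.sub_mem _ hc (Submodule.smul_mem _ c hwQR)
        rw [add_sub_cancel_right] at this
        exact hwT R hRT this
    have hU : (⋃ R ∈ insert Q T,
        {c : K | w + c • wQ ∈ riemannRochSpace (D - Finsupp.single R 1)}).Finite :=
      Set.Finite.biUnion (Finset.finite_toSet _) fun R hR => (hfin R hR).finite
    obtain ⟨c, -, hc⟩ := Set.infinite_univ.exists_notMem_finset hU.toFinset
    refine ⟨w + c • wQ, W.add_mem hw (W.smul_mem _ hwQW), fun R hR hmem => hc ?_⟩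
    rw [Set.Finite.mem_toFinset]
    exact Set.mem_biUnion hR hmem

/-- A divisor of large degree has a function of order exactly `-D Q` at finitely
many given places. -/
theorem exists_exact_rr {D : Divisor K F} (hD : rrBound K F + 1 < Divisor.degree D)
    (S : Finset (Place K F)) :
    ∃ w ∈ riemannRochSpace D, w ≠ 0 ∧ ∀ Q ∈ S, Q.ord w = -D Q := by
  refine exists_exact S le_rfl (fun hb => ?_) fun Q _ hle => ?_
  · have h1 := finrank_rr (D := D) (by linarith)
    have h2 := finrank_rr (D := D - Finsupp.single (nonempty_place (K := K) (F := F)).some 1)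
      (by rw [map_sub, degree_single_one]; omega)
    rw [hb, finrank_bot] at h1
    rw [map_sub, degree_single_one] at h2
    omega
  have h1 := finrank_rr (D := D) (by linarith)
  have h2 := finrank_rr (D := D - Finsupp.single Q 1)
    (by rw [map_sub, degree_single_one]; omega)
  have h3 := Submodule.finrank_mono hle
  rw [map_sub, degree_single_one] at h2
  omega

end Closed

end FLTAgent.Deuring
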