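import Fermat.Agent.Deuring.Basic
import Fermat.Agent.Deuring.Places
import Fermat.Agent.Deuring.RRTools

/-!
# Reduction maps on places and of Riemann–Roch spaces

`IsReductionMap r`: a degree preserving map on places compatible with divisors of `O`-units. If both
sides have the same genus it reduces each large Riemann–Roch space onto the one of the reduced
divisor (`resSub_rr_eq`, `exists_lift`). Used by `Construct` and `Injective`.
-/

set_option autoImplicit false

noncomputable section

open AlgebraicCurve

namespace FLTAgent.Deuring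

variable {L k F Fb : Type*} [Field L] [Field k] [Field F] [Field Fb]
  [Algebra L F] [Algebra k Fb]

namespace Reduction

variable (C : Reduction L k F Fb)

/-- A degree preserving map on places compatible with divisors of `O`-units. -/
def IsReductionMap (r : Place L F → Place k Fb) : Prop :=
  (∀ P, (r P).deg = P.deg) ∧
    ∀ u : C.O, C.res u ≠ 0 → ∀ D : Divisor L F, (∀ P, D P = P.ord (u : F)) →
      ∀ Q, Finsupp.mapDomain r D Q = Q.ord (C.res u)

end Reduction

open FFBasic in
/-- Riemann's formula on the special fibre, stated with the genus of the generic fibre. -/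
theorem finrank_rr_of_genus_eq [IsAlgClosed k] [IsFunctionField k Fb]
    (hg : genusFF L F = genusFF k Fb) {D : Divisor k Fb} (hD : rrBound L F < Divisor.degree D) :
    (Module.finrank k (riemannRochSpace D) : ℤ) = Divisor.degree D + 1 - genusFF L F := by
  rw [hg]
  exact finrank_rr (by rwa [rrBound, ← hg])

theorem degree_mapDomain {r : Place L F → Place k Fb} (h : ∀ P, (r P).deg = P.deg)
    (D : Divisor L F) : Divisor.degree (Finsupp.mapDomain r D) = Divisor.degree D := by
  induction D using Finsupp.induction with
  | zero => simp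
  | single_add P n D _ _ ih =>
    rw [Finsupp.mapDomain_add, map_add, map_add, ih, Finsupp.mapDomain_single,
      Divisor.degree_single, Divisor.degree_single, h]

theorem mapDomain_nonneg {α β : Type*} (r : α → β) {D : α →₀ ℤ} (h : 0 ≤ D) :
    0 ≤ Finsupp.mapDomain r D := by
  intro b
  rw [Finsupp.mapDomain, Finsupp.sum_apply]
  refine Finset.sum_nonneg fun a _ => ?_
  classical
  simp only [Finsupp.single_apply]
  split_ifs
  · exact h a
  · exact le_rfl

namespace Reduction

variable {C : Reduction L k F Fb} {r : Place L F → Place k Fb}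

theorem resSub_rr_le [HasPrincipalDivisors L F] (hr : C.IsReductionMap r) (D : Divisor L F) :
    C.resSub (riemannRochSpace D) ≤ riemannRochSpace (Finsupp.mapDomain r D) := by
  rintro _ ⟨u, hu, rfl⟩
  rcases eq_or_ne (C.res u) 0 with h0 | h0
  · rw [h0]; exact Submodule.zero_mem _
  have hu0 : (u : F) ≠ 0 := fun h =>
    h0 (by rw [show u = 0 from Subtype.ext h, map_zero])
  obtain ⟨E, hE, -⟩ := HasPrincipalDivisors.exists_divisor (K := L) (u : F) hu0
  have hnn : 0 ≤ E + D := by
    intro P
    rw [Finsupp.add_apply, hE P, Finsupp.zero_apply]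
    have := (mem_riemannRochSpace_iff.mp hu P).resolve_left hu0
    linarith
  refine mem_riemannRochSpace_iff.mpr fun Q => Or.inr ?_
  have h1 : (0 : ℤ) ≤ Finsupp.mapDomain r (E + D) Q := mapDomain_nonneg r hnn Q
  rw [Finsupp.mapDomain_add, Finsupp.add_apply, hr.2 u h0 E hE Q] at h1
  linarith

/-- Scale a nonzero element to a unit of `O` without changing its divisor. -/
theorem exists_unit_same_ord (C : Reduction L k F Fb) {f : F} (hf : f ≠ 0) :
    ∃ u : C.O, C.res u ≠ 0 ∧ ∀ P : Place L F, P.ord (u : F) = P.ord f := by
  obtain ⟨c, hc, hres⟩ := C.scale f hf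
  refine ⟨⟨_, hc⟩, hres, fun P => FFBasic.ord_smul_const P ?_ f⟩
  rintro rfl
  exact hres (by rw [show (⟨(0 : L) • f, hc⟩ : C.O) = 0 from Subtype.ext (zero_smul L f), map_zero])

variable [IsAlgClosed L] [IsAlgClosed k] [FFBasic.IsFunctionField L F]
  [FFBasic.IsFunctionField k Fb]

/-- Reduction is surjective on Riemann–Roch spaces of large degree. -/
theorem resSub_rr_eq (hr : C.IsReductionMap r)
    (hg : genusFF L F = genusFF k Fb) (D : Divisor L F) (hD : rrBound L F < Divisor.degree D) :
    C.resSub (riemannRochSpace D) = riemannRochSpace (Finsupp.mapDomain r D) := by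
  refine C.resSub_eq (resSub_rr_le hr D) ?_
  have h1 := finrank_rr hD
  have hd : Divisor.degree (Finsupp.mapDomain r D) = Divisor.degree D := degree_mapDomain hr.1 D
  have h2 := finrank_rr_of_genus_eq hg (D := Finsupp.mapDomain r D) (by rwa [hd])
  omega

theorem exists_lift (hr : C.IsReductionMap r)
    (hg : genusFF L F = genusFF k Fb) (D : Divisor L F)
    (hD : rrBound L F < Divisor.degree D) {w : Fb}
    (hw : w ∈ riemannRochSpace (Finsupp.mapDomain r D)) :
    ∃ u : C.O, (u : F) ∈ riemannRochSpace D ∧ C.res u = w := by
  rw [← resSub_rr_eq hr hg D hD] at hw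
  exact hw

end Reduction

end FLTAgent.Deuring
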