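import Fermat.Agent.Deuring.Specialize
import Fermat.Agent.Deuring.PlaceMap

/-!
# The reduction map on places from two inverse charts

An `Atlas` is a pair of inverse charts with the fraction property; its `placeMap` is a reduction
map (`isReductionMap`), and the atlas supplies `genus_eq`. Used by `ModelAtlas`.
-/

set_option autoImplicit false

noncomputable section

open AlgebraicCurve IntermediateField FLTAgent.FFBasic

namespace FLTAgent.Deuring

theorem divFun_pow {K F : Type*} [Field K] [Field F] [Algebra K F] [IsFunctionField K F]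
    (f : F) (n : ℕ) : divFun (K := K) (f ^ n) = n • divFun (K := K) f := by
  ext v
  simp [FFBasic.ord_pow]

variable {L k F Fb : Type*} [Field L] [Field k] [Field F] [Field Fb]
  [Algebra L F] [Algebra k Fb]

namespace Reduction

/-- Two inverse charts together with the fraction property of `O`-units. -/
structure Atlas (C : Reduction L k F Fb) where
  X : C.Chart
  X' : C.Chart
  inv : (X'.x : F) = (X.x : F)⁻¹
  frac : ∀ u : C.O, C.res u ≠ 0 → ∃ t s : C.O, InB L (X.x : F) (t : F) ∧
    InB L (X.x : F) (s : F) ∧ C.res t ≠ 0 ∧ C.res s ≠ 0 ∧ u * t = s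

namespace Atlas

variable {C : Reduction L k F Fb} (T : C.Atlas)
variable [IsAlgClosed L] [IsAlgClosed k] [IsFunctionField L F] [IsFunctionField k Fb]

omit [IsAlgClosed L] [IsAlgClosed k] [IsFunctionField L F] [IsFunctionField k Fb] in
theorem inv' : (T.X.x : F) = (T.X'.x : F)⁻¹ := by rw [T.inv, inv_inv]

/-- The first chart of an atlas is good. -/
theorem good : T.X.Good := T.X.good_of_inv T.X' T.inv

theorem good' : T.X'.Good := T.X'.good_of_inv T.X T.inv'

omit [IsAlgClosed k] [IsFunctionField k Fb] in
theorem exists_value_inv {P : Place L F} (hP : ¬ T.X.InChart P) :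
    ∃ a : C.A, C.π a = 0 ∧ 0 < P.ord ((T.X'.x : F) - algebraMap L F a) := by
  rcases lt_or_ge (P.ord (T.X.x : F)) 0 with h | h
  · refine ⟨0, map_zero _, ?_⟩
    rw [T.inv, ZeroMemClass.coe_zero, map_zero, sub_zero, P.ord_inv]
    omega
  obtain ⟨c, hc⟩ := exists_value P T.X.transF h
  have hcA : c ∉ C.A := fun hc' => hP ⟨⟨c, hc'⟩, hc⟩
  obtain ⟨hinv, hπ⟩ := C.inv_mem_of_not_mem hcA
  refine ⟨⟨c⁻¹, hinv⟩, hπ, ?_⟩
  have hc0 : c ≠ 0 := fun h0 => hcA (h0 ▸ C.A.zero_mem)
  have hx0 := T.X.x_ne_zero
  have hcF : algebraMap L F c ≠ 0 := by simpa using hc0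
  have hxc : (T.X.x : F) - algebraMap L F c ≠ 0 := fun h' => by simp [h'] at hc
  have hordx : P.ord (T.X.x : F) = 0 := by
    have h1 := ord_add_eq_left P hcF (g := (T.X.x : F) - algebraMap L F c)
      (mem_filt_of_le (by rw [ord_algebraMap]; omega))
    rw [add_sub_cancel, ord_algebraMap] at h1
    exact h1.2
  have he : (T.X'.x : F) - algebraMap L F c⁻¹ =
      -((T.X.x : F) - algebraMap L F c) * ((T.X.x : F) * algebraMap L F c)⁻¹ := by
    rw [T.inv, map_inv₀]
    field_simp
    ring
  rw [show ((⟨c⁻¹, hinv⟩ : C.A) : L) = c⁻¹ from rfl, he,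
    P.ord_mul (neg_ne_zero.mpr hxc) (inv_ne_zero (mul_ne_zero hx0 hcF)), FFBasic.ord_neg,
    P.ord_inv, P.ord_mul hx0 hcF, hordx, ord_algebraMap]
  omega

omit [IsAlgClosed k] [IsFunctionField k Fb] in
theorem inChart_inv {P : Place L F} (hP : ¬ T.X.InChart P) : T.X'.InChart P := by
  obtain ⟨a, -, ha⟩ := T.exists_value_inv hP
  exact ⟨a, ha⟩

open Classical in
/-- The reduction map on places. -/
def placeMap (P : Place L F) : Place k Fb :=
  if h : T.X.InChart P then T.X.special T.good P h
  else T.X'.special T.good' P (T.inChart_inv h)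

theorem placeMap_of_inChart {P : Place L F} (hP : T.X.InChart P) :
    T.placeMap P = T.X.special T.good P hP := dif_pos hP

theorem placeMap_of_not {P : Place L F} (hP : ¬ T.X.InChart P) :
    T.placeMap P = T.X'.special T.good' P (T.inChart_inv hP) := dif_neg hP

theorem inChart_iff {P : Place L F} :
    T.X.InChart P ↔ 0 ≤ (T.placeMap P).ord (C.res T.X.x) := by
  refine ⟨fun h => ?_, fun h => ?_⟩
  · rw [T.placeMap_of_inChart h]; exact Chart.special_ord_nonneg T.good h
  · by_contra hP
    obtain ⟨a, hπ, ha⟩ := T.exists_value_inv hP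
    have h1 := Chart.special_ord_pos T.good' (T.inChart_inv hP) ha
    rw [hπ, map_zero, sub_zero, T.X.res_inv T.X' T.inv, Place.ord_inv,
      ← T.placeMap_of_not hP] at h1
    omega

open Classical in
theorem mapDomain_apply_eq (D : Divisor L F) (Q : Place k Fb) :
    Finsupp.mapDomain T.placeMap D Q = Divisor.degree (D.filter fun P => T.placeMap P = Q) :=
  (degree_filter_eq_mapDomain _ _ _).symm

theorem le_ord_finite {u : C.O} (hu : InB L (T.X.x : F) (u : F)) (hres : C.res u ≠ 0)
    {Q : Place k Fb} (hQ : 0 ≤ Q.ord (C.res T.X.x)) :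
    Finsupp.mapDomain T.placeMap (divFun (K := L) (u : F)) Q ≤ Q.ord (C.res u) := by
  classical
  rw [T.mapDomain_apply_eq]
  refine Chart.degree_filter_le_ord T.good hu hres Q hQ _ fun P hP => ?_
  have hc : T.X.InChart P := T.inChart_iff.mpr (by rw [hP]; exact hQ)
  exact ⟨hc, by rw [← T.placeMap_of_inChart hc]; exact hP⟩

theorem le_ord_infinite {u : C.O} (hu : InB L (T.X'.x : F) (u : F)) (hres : C.res u ≠ 0)
    {Q : Place k Fb} (hQ : Q.ord (C.res T.X.x) < 0) :
    Finsupp.mapDomain T.placeMap (divFun (K := L) (u : F)) Q ≤ Q.ord (C.res u) := by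
  classical
  rw [T.mapDomain_apply_eq]
  refine Chart.degree_filter_le_ord T.good' hu hres Q ?_ _ fun P hP => ?_
  · rw [T.X.res_inv T.X' T.inv, Q.ord_inv]; omega
  have hc : ¬ T.X.InChart P := fun h => by
    have := T.inChart_iff.mp h
    rw [hP] at this
    omega
  exact ⟨T.inChart_inv hc, by rw [← T.placeMap_of_not hc]; exact hP⟩

theorem mapDomain_pol :
    Finsupp.mapDomain T.placeMap (pol (K := L) (T.X.x : F)) = pol (K := k) (C.res T.X.x) := by
  classical
  have hle : Finsupp.mapDomain T.placeMap (pol (K := L) (T.X.x : F)) ≤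
      pol (K := k) (C.res T.X.x) := by
    intro Q
    rw [T.mapDomain_apply_eq]
    rcases lt_or_ge (Q.ord (C.res T.X.x)) 0 with h | h
    · have hfilt : ((pol (K := L) (T.X.x : F)).filter fun P => T.placeMap P = Q) =
          (divFun (K := L) (T.X'.x : F)).filter fun P => T.placeMap P = Q := by
        ext P
        rw [Finsupp.filter_apply, Finsupp.filter_apply]
        split_ifs with hP
        · have hc : ¬ T.X.InChart P := fun hc => by
            have := T.inChart_iff.mp hc
            rw [hP] at this
            omega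
          have := (T.inChart_inv hc).ord_nonneg
          rw [T.inv, P.ord_inv] at this
          rw [pol_apply, T.inv, divFun_apply, P.ord_inv]
          omega
        · rfl
      have := T.le_ord_infinite (inB_self (T.X'.x : F)) T.X'.res_x_ne_zero h
      rw [T.mapDomain_apply_eq, ← hfilt, T.X.res_inv T.X' T.inv, Q.ord_inv] at this
      rw [pol_apply]
      omega
    · have hzero : ((pol (K := L) (T.X.x : F)).filter fun P => T.placeMap P = Q) = 0 := by
        ext P
        rw [Finsupp.filter_apply, Finsupp.zero_apply]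
        split_ifs with hP
        · exact (T.inChart_iff.mpr (by rw [hP]; exact h)).pol_eq_zero
        · rfl
      rw [hzero, map_zero]
      exact pol_nonneg _ Q
  refine le_antisymm hle fun Q => ?_
  have hd := degree_mapDomain (r := T.placeMap) (fun P => by
    rw [place_deg_eq_one, place_deg_eq_one]) (pol (K := L) (T.X.x : F))
  have h1 : Finsupp.single Q (pol (K := k) (C.res T.X.x) Q -
      Finsupp.mapDomain T.placeMap (pol (K := L) (T.X.x : F)) Q) ≤
      pol (K := k) (C.res T.X.x) - Finsupp.mapDomain T.placeMap (pol (K := L) (T.X.x : F)) := by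
    intro R
    rw [Finsupp.single_apply]
    split_ifs with h
    · subst h; rw [Finsupp.sub_apply]
    · rw [Finsupp.sub_apply]; linarith [hle R]
  have h2 := FFRiemannRoch.degree_le_degree h1
  rw [degree_single_one, map_sub, hd, T.good.degree_eq] at h2
  linarith

theorem mapDomain_divFun_x {Q : Place k Fb} (hQ : Q.ord (C.res T.X.x) < 0) :
    Finsupp.mapDomain T.placeMap (divFun (K := L) (T.X.x : F)) Q = Q.ord (C.res T.X.x) := by
  classical
  have hfilt : ((divFun (K := L) (T.X.x : F)).filter fun P => T.placeMap P = Q) =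
      -((pol (K := L) (T.X.x : F)).filter fun P => T.placeMap P = Q) := by
    ext P
    rw [Finsupp.neg_apply, Finsupp.filter_apply, Finsupp.filter_apply]
    split_ifs with hP
    · have hc : ¬ T.X.InChart P := fun hc => by
        have := T.inChart_iff.mp hc
        rw [hP] at this
        omega
      have := (T.inChart_inv hc).ord_nonneg
      rw [T.inv, P.ord_inv] at this
      rw [pol_apply, divFun_apply]
      omega
    · simp
  rw [T.mapDomain_apply_eq, hfilt, map_neg, ← T.mapDomain_apply_eq, T.mapDomain_pol, pol_apply]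
  omega

theorem mapDomain_divFun_of_inB {u : C.O} (hu : InB L (T.X.x : F) (u : F))
    (hres : C.res u ≠ 0) :
    Finsupp.mapDomain T.placeMap (divFun (K := L) (u : F)) = divFun (K := k) (C.res u) := by
  classical
  have hu0 : (u : F) ≠ 0 := fun h => hres (by rw [show u = 0 from Subtype.ext h, map_zero])
  obtain ⟨n, hn⟩ := hu.exists_mem
  have hle : ∀ Q, Finsupp.mapDomain T.placeMap (divFun (K := L) (u : F)) Q ≤
      Q.ord (C.res u) := by
    intro Q
    rcases lt_or_ge (Q.ord (C.res T.X.x)) 0 with h | h
    · have hu' : InB L (T.X'.x : F) ((u * T.X'.x ^ n : C.O) : F) := by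
        push_cast
        refine inB_of_mem (n := n) (mul_pow_mem_of_inv T.X'.x_ne_zero ?_)
        rwa [T.inv, inv_inv]
      have hres' : C.res (u * T.X'.x ^ n) ≠ 0 := by
        rw [map_mul, map_pow]
        exact mul_ne_zero hres (pow_ne_zero _ T.X'.res_x_ne_zero)
      have h1 := T.le_ord_infinite hu' hres' h
      push_cast at h1
      rw [divFun_mul hu0 (pow_ne_zero _ T.X'.x_ne_zero), Finsupp.mapDomain_add, Finsupp.add_apply,
        T.inv, inv_pow, divFun_inv, divFun_pow, ← Finsupp.mapDomain.addMonoidHom_apply,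
        ← Finsupp.mapDomain.addMonoidHom_apply, map_neg, map_nsmul] at h1
      simp only [Finsupp.mapDomain.addMonoidHom_apply, Finsupp.neg_apply, Finsupp.smul_apply,
        T.mapDomain_divFun_x h, nsmul_eq_mul] at h1
      rw [map_mul, map_pow, T.X.res_inv T.X' T.inv,
        Q.ord_mul hres (pow_ne_zero _ (inv_ne_zero T.X.res_x_ne_zero)), FFBasic.ord_pow,
        Q.ord_inv] at h1
      linarith
    · exact T.le_ord_finite hu hres h
  ext Q
  rw [divFun_apply]
  refine le_antisymm (hle Q) ?_
  have h1 : Finsupp.single Q (Q.ord (C.res u) -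
      Finsupp.mapDomain T.placeMap (divFun (K := L) (u : F)) Q) ≤
      divFun (K := k) (C.res u) - Finsupp.mapDomain T.placeMap (divFun (K := L) (u : F)) := by
    intro R
    rw [Finsupp.single_apply, Finsupp.sub_apply, divFun_apply]
    split_ifs with h
    · subst h; rfl
    · linarith [hle R]
  have h2 := FFRiemannRoch.degree_le_degree h1
  rw [degree_single_one, map_sub, degree_divFun,
    degree_mapDomain (fun P => by rw [place_deg_eq_one, place_deg_eq_one]), degree_divFun] at h2
  linarith

theorem isReductionMap : C.IsReductionMap T.placeMap := by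
  refine ⟨fun P => by rw [place_deg_eq_one, place_deg_eq_one], fun u hu D hD Q => ?_⟩
  obtain ⟨t, s, ht, hs, ht0, hs0, e⟩ := T.frac u hu
  have hu0 : (u : F) ≠ 0 := fun h => hu (by rw [show u = 0 from Subtype.ext h, map_zero])
  have htF : (t : F) ≠ 0 := fun h => ht0 (by rw [show t = 0 from Subtype.ext h, map_zero])
  have he : (s : F) = (u : F) * (t : F) := by rw [← e]; push_cast; rfl
  have h1 := congrArg (fun E => E Q) (T.mapDomain_divFun_of_inB hs hs0)
  rw [← e, map_mul] at h1
  push_cast at h1
  simp only [divFun_mul hu0 htF, divFun_mul hu ht0, Finsupp.mapDomain_add,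
    T.mapDomain_divFun_of_inB ht ht0, Finsupp.add_apply, divFun_apply] at h1
  rw [eq_divFun_of_forall hD]
  linarith

include T in
/-- The two fibres have the same genus. -/
theorem genus_eq : genusFF L F = genusFF k Fb := T.good.genus_eq

end Atlas

end Reduction

end FLTAgent.Deuring
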