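import Mathlib.RingTheory.Valuation.ValuationSubring
import Mathlib.LinearAlgebra.FiniteDimensional.Lemmas
import Mathlib.LinearAlgebra.Pi

/-!
# Echelon bases over a valuation ring

Every subspace of `ι → L` (`ι` finite) has a basis with coordinates in the valuation ring whose
reductions are linearly independent over the residue field (`exists_reduced_basis`). Used by
`Deuring.Basic` and the semistable lattices.
-/

set_option autoImplicit false

noncomputable section

namespace FLTAgent.Deuring

variable {L k : Type*} [Field L] [Field k] {A : ValuationSubring L}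

theorem exists_scaled_mem {ι : Type*} [Fintype ι] (v : ι → L) (hv : v ≠ 0) :
    ∃ (p : ι), v p ≠ 0 ∧ ∀ i, v i / v p ∈ A := by
  classical
  obtain ⟨j, hj⟩ := Function.ne_iff.mp hv
  have hne : (Finset.univ : Finset ι).Nonempty := ⟨j, Finset.mem_univ j⟩
  obtain ⟨p, -, hp⟩ := Finset.exists_max_image _ (fun i => A.valuation (v i)) hne
  have hpne : v p ≠ 0 := by
    intro h0
    have hle := hp j (Finset.mem_univ j)
    rw [h0, map_zero] at hle
    exact hj ((map_eq_zero A.valuation).mp (le_antisymm hle zero_le))
  refine ⟨p, hpne, fun i => ?_⟩
  obtain ⟨a, ha⟩ := (A.valuation_le_iff _ _).mp (hp i (Finset.mem_univ i))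
  rw [← ha, mul_div_assoc, div_self hpne, mul_one]
  exact a.2

theorem exists_reduced_basis (π : A →+* k) {ι : Type*} [Fintype ι] :
    ∀ (d : ℕ) (V : Submodule L (ι → L)), Module.finrank L V = d →
      ∃ b : Fin d → ι → A, (∀ i, (fun p => ((b i p : A) : L)) ∈ V) ∧
        LinearIndependent k (fun i p => π (b i p)) := by
  classical
  intro d
  induction d with
  | zero => exact fun V _ => ⟨fun i => i.elim0, fun i => i.elim0, linearIndependent_empty_type⟩
  | succ d ih =>
    intro V hV
    have hVne : V ≠ ⊥ := by
      rintro rfl
      rw [finrank_bot] at hV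
      exact Nat.succ_ne_zero d hV.symm
    obtain ⟨v, hvV, hv0⟩ := Submodule.exists_mem_ne_zero_of_ne_bot hVne
    obtain ⟨p, hp, hmem⟩ := exists_scaled_mem (A := A) v hv0
    let w : ι → A := fun i => ⟨v i / v p, hmem i⟩
    have hwV : (fun i => ((w i : A) : L)) ∈ V := by
      have hsm : (fun i => ((w i : A) : L)) = (v p)⁻¹ • v := by
        ext i
        simp [w, div_eq_inv_mul]
      rw [hsm]
      exact V.smul_mem _ hvV
    have hwp : w p = 1 := Subtype.ext (by simp [w, hp])
    let φ : V →ₗ[L] L := (LinearMap.proj p).comp V.subtype
    have hsurj : Function.Surjective φ := by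
      intro c
      refine ⟨c • ⟨_, hwV⟩, ?_⟩
      simp [φ, hwp]
    let V' : Submodule L (ι → L) := (LinearMap.ker φ).map V.subtype
    have hV' : Module.finrank L V' = d := by
      have h := LinearMap.finrank_range_add_finrank_ker φ
      rw [LinearMap.range_eq_top.mpr hsurj, finrank_top, Module.finrank_self, hV] at h
      rw [Submodule.finrank_map_subtype_eq]
      omega
    obtain ⟨b, hbV, hb⟩ := ih V' hV'
    have hbp : ∀ i, π (b i p) = 0 := by
      intro i
      obtain ⟨x, hx, hxe⟩ := hbV i
      have h0 : ((b i p : A) : L) = 0 := by
        have := congrFun hxe p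
        rw [← this]
        simpa [φ] using hx
      rw [show b i p = 0 from Subtype.ext h0, map_zero]
    refine ⟨Fin.cons w b, fun i => ?_, ?_⟩
    · induction i using Fin.cases with
      | zero => simpa using hwV
      | succ i =>
        obtain ⟨x, -, hxe⟩ := hbV i
        have : (fun q => ((b i q : A) : L)) ∈ V := hxe ▸ x.2
        simpa using this
    · rw [linearIndependent_finSucc]
      refine ⟨?_, ?_⟩
      · have : (Fin.tail fun i q => π ((Fin.cons w b : Fin (d + 1) → ι → A) i q)) =
            fun i q => π (b i q) := by
          funext i q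
          simp [Fin.tail]
        rw [this]
        exact hb
      · intro hmem'
        have hle : Submodule.span k (Set.range (Fin.tail fun i q =>
            π ((Fin.cons w b : Fin (d + 1) → ι → A) i q))) ≤
            LinearMap.ker (LinearMap.proj p : (ι → k) →ₗ[k] k) := by
          rw [Submodule.span_le]
          rintro _ ⟨i, rfl⟩
          simp [Fin.tail, hbp i]
        have := hle hmem'
        simp [hwp] at this

end FLTAgent.Deuring
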