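import Fermat.Agent.Deuring.Basic
import Fermat.Agent.FFBasic.FunctionField
import Mathlib.Algebra.Polynomial.AlgebraMap
import Mathlib.RingTheory.Polynomial.Basic

/-!
# Constant reductions from a basis with independent reductions

A `Model` is a ring `S` of integral elements with a reduction `ρ`, an element `x` and a family `b`
with the reductions of `xⁿ bᵢ` independent and `b` spanning `F` over `L(x)`. The fractions `s / t`,
`ρ t ≠ 0`, form a valuation ring; `toReduction` is the constant reduction.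
-/

set_option autoImplicit false

noncomputable section

open Polynomial

namespace FLTAgent.Deuring

/-- Normalisation of finitely many polynomials over a valued field. -/
theorem exists_normalized {L k : Type*} [Field L] [Field k] {A : ValuationSubring L}
    (π : A →+* k) {ι : Type*} [Fintype ι] (P : ι → L[X]) (hP : ∃ i, P i ≠ 0) :
    ∃ (c : L) (P' : ι → A[X]), c ≠ 0 ∧ (∀ i, (P' i).map A.subtype = C c * P i) ∧
      (∀ i, (P' i).natDegree ≤ (P i).natDegree) ∧ ∃ i, (P' i).map π ≠ 0 := by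
  classical
  set N := Finset.univ.sup fun i => (P i).natDegree
  obtain ⟨i₀, hi₀⟩ := hP
  let v : ι × Fin (N + 1) → L := fun p => (P p.1).coeff p.2
  have hv : v ≠ 0 := by
    intro h
    apply hi₀
    have hlt : (P i₀).natDegree < N + 1 :=
      Nat.lt_succ_of_le (Finset.le_sup (f := fun i => (P i).natDegree) (Finset.mem_univ i₀))
    exact leadingCoeff_eq_zero.mp (congrFun h (i₀, ⟨_, hlt⟩))
  obtain ⟨p, hp, hmem⟩ := exists_scaled_mem (A := A) v hv
  have hmem' : ∀ i n, (C (v p)⁻¹ * P i).coeff n ∈ A := by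
    intro i n
    rw [coeff_C_mul]
    rcases lt_or_ge n (N + 1) with hn | hn
    · simpa [v, div_eq_inv_mul] using hmem (i, ⟨n, hn⟩)
    · rw [coeff_eq_zero_of_natDegree_lt, mul_zero]
      · exact A.zero_mem
      · have := Finset.le_sup (f := fun i => (P i).natDegree) (Finset.mem_univ i)
        omega
  have hlift : ∀ i, ∃ Q : A[X], Q.map A.subtype = C (v p)⁻¹ * P i ∧
      Q.natDegree ≤ (P i).natDegree := by
    intro i
    have : C (v p)⁻¹ * P i ∈ Polynomial.lifts A.subtype := by
      rw [lifts_iff_coeff_lifts]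
      exact fun n => ⟨⟨_, hmem' i n⟩, rfl⟩
    obtain ⟨Q, hQ⟩ := this
    refine ⟨Q, hQ, ?_⟩
    have hQ' : Q.map A.subtype = C (v p)⁻¹ * P i := hQ
    rw [← natDegree_map_eq_of_injective (f := A.subtype) Subtype.val_injective, hQ']
    exact natDegree_C_mul_le _ _
  choose Q hQ hdeg using hlift
  refine ⟨(v p)⁻¹, Q, inv_ne_zero hp, hQ, hdeg, p.1, fun h0 => ?_⟩
  have hc : (Q p.1).coeff p.2 = 1 := by
    apply Subtype.ext
    have := congrArg (fun q => q.coeff (p.2 : ℕ)) (hQ p.1)
    simp only [coeff_map, coeff_C_mul] at this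
    exact this.trans (inv_mul_cancel₀ hp)
  have := congrArg (fun q => q.coeff (p.2 : ℕ)) h0
  simp [coeff_map, hc] at this

/-- Input data of a constant reduction. -/
structure Model (L k F Fb : Type*) [Field L] [Field k] [Field F] [Field Fb]
    [Algebra L F] [Algebra k Fb] where
  A : ValuationSubring L
  π : A →+* k
  π_surj : Function.Surjective π
  S : Subring F
  ρ : S →+* Fb
  const_mem : ∀ a : A, algebraMap L F a ∈ S
  ρ_const : ∀ a : A, ρ ⟨algebraMap L F a, const_mem a⟩ = algebraMap k Fb (π a)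
  x : S
  d : ℕ
  b : Fin d → S
  transFb : Transcendental k (ρ x)
  li : ∀ P : Fin d → k[X], ∑ i, aeval (ρ x) (P i) * ρ (b i) = 0 → ∀ i, P i = 0
  span : ∀ f : F, ∃ (D : L[X]) (P : Fin d → L[X]), D ≠ 0 ∧
    aeval (x : F) D * f = ∑ i, aeval (x : F) (P i) * (b i : F)

namespace Model

variable {L k F Fb : Type*} [Field L] [Field k] [Field F] [Field Fb]
  [Algebra L F] [Algebra k Fb] (M : Model L k F Fb)

/-- Constants in `S`. -/
def const : M.A →+* M.S where
  toFun a := ⟨algebraMap L F a, M.const_mem a⟩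
  map_one' := Subtype.ext (by simp)
  map_mul' a b := Subtype.ext (by simp)
  map_zero' := Subtype.ext (by simp)
  map_add' a b := Subtype.ext (by simp)

@[simp] theorem coe_const (a : M.A) : (M.const a : F) = algebraMap L F a := rfl

/-- Evaluation of integral polynomials at `x`. -/
def ev : M.A[X] →+* M.S := eval₂RingHom M.const M.x

theorem coe_ev (P : M.A[X]) : (M.ev P : F) = aeval (M.x : F) (P.map M.A.subtype) := by
  show M.S.subtype (eval₂ M.const M.x P) = _
  rw [hom_eval₂, aeval_def, eval₂_map]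
  rfl

theorem ρ_ev (P : M.A[X]) : M.ρ (M.ev P) = aeval (M.ρ M.x) (P.map M.π) := by
  show M.ρ (eval₂ M.const M.x P) = _
  rw [hom_eval₂, aeval_def, eval₂_map]
  congr 1
  exact RingHom.ext fun a => M.ρ_const a

/-- Integral combinations of the basis. -/
def comb (P : Fin M.d → M.A[X]) : M.S := ∑ i, M.ev (P i) * M.b i

theorem coe_comb (P : Fin M.d → M.A[X]) :
    (M.comb P : F) = ∑ i, aeval (M.x : F) ((P i).map M.A.subtype) * (M.b i : F) := by
  simp [comb, coe_ev]

theorem ρ_comb (P : Fin M.d → M.A[X]) :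
    M.ρ (M.comb P) = ∑ i, aeval (M.ρ M.x) ((P i).map M.π) * M.ρ (M.b i) := by
  simp [comb, ρ_ev]

theorem ρ_comb_ne_zero {P : Fin M.d → M.A[X]} (h : ∃ i, (P i).map M.π ≠ 0) :
    M.ρ (M.comb P) ≠ 0 := by
  rw [ρ_comb]
  obtain ⟨i, hi⟩ := h
  exact fun h0 => hi (M.li _ h0 i)

theorem ρ_ev_ne_zero {P : M.A[X]} (h : P.map M.π ≠ 0) : M.ρ (M.ev P) ≠ 0 := by
  rw [ρ_ev]
  exact fun h0 => h (transcendental_iff.mp M.transFb _ h0)

theorem transF : Transcendental L (M.x : F) := by
  rw [transcendental_iff]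
  intro p hp
  by_contra hp0
  obtain ⟨c, P', -, hP', -, u, hu⟩ := exists_normalized M.π (fun _ : Unit => p) ⟨(), hp0⟩
  apply M.ρ_ev_ne_zero hu
  rw [show M.ev (P' u) = 0 from Subtype.ext (by
    rw [coe_ev, hP', map_mul, hp, mul_zero]; rfl), map_zero]

theorem liL (P : Fin M.d → L[X])
    (h : ∑ i, aeval (M.x : F) (P i) * (M.b i : F) = 0) : ∀ i, P i = 0 := by
  by_contra! hne
  obtain ⟨c, P', -, hP', -, hu⟩ := exists_normalized M.π P hne
  apply M.ρ_comb_ne_zero hu
  rw [show M.comb P' = 0 from Subtype.ext (by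
    rw [coe_comb]
    simp only [hP', map_mul, aeval_C, mul_assoc, ← Finset.mul_sum, h, mul_zero]
    rfl), map_zero]

/-- Every nonzero element is a constant times a quotient of `ρ`-units. -/
theorem exists_frac {f : F} (hf : f ≠ 0) :
    ∃ (e : L) (D : M.A[X]) (P : Fin M.d → M.A[X]), e ≠ 0 ∧ D.map M.π ≠ 0 ∧
      (∃ i, (P i).map M.π ≠ 0) ∧ f * (M.ev D : F) = algebraMap L F e * (M.comb P : F) := by
  obtain ⟨D, P, hD, hDP⟩ := M.span f
  have hP : ∃ i, P i ≠ 0 := by
    by_contra! h0
    simp only [h0, map_zero, zero_mul, Finset.sum_const_zero] at hDP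
    exact (mul_ne_zero (fun h => hD (transcendental_iff.mp M.transF _ h)) hf) hDP
  obtain ⟨cD, D', hcD, hD', -, u, hu⟩ := exists_normalized M.π (fun _ : Unit => D) ⟨(), hD⟩
  obtain ⟨cP, P', hcP, hP', -, hu'⟩ := exists_normalized M.π P hP
  refine ⟨cD / cP, D' u, P', div_ne_zero hcD hcP, hu, hu', ?_⟩
  rw [coe_ev, coe_comb, hD', map_mul, aeval_C, mul_left_comm, mul_comm f, hDP]
  simp only [hP', map_mul, aeval_C, mul_assoc, ← Finset.mul_sum]
  rw [← mul_assoc, ← map_mul, div_mul_cancel₀ cD hcP]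

/-- The valuation ring of the model. -/
def O : ValuationSubring F where
  carrier := {f | ∃ t s : M.S, M.ρ t ≠ 0 ∧ f * (t : F) = s}
  zero_mem' := ⟨1, 0, by simp, by simp⟩
  one_mem' := ⟨1, 1, by simp, by simp⟩
  add_mem' := by
    rintro f g ⟨t, s, ht, hf⟩ ⟨t', s', ht', hg⟩
    refine ⟨t * t', s * t' + s' * t, by simp [ht, ht'], ?_⟩
    push_cast
    rw [← hf, ← hg]; ring
  neg_mem' := by
    rintro f ⟨t, s, ht, hf⟩
    exact ⟨t, -s, ht, by push_cast; rw [← hf]; ring⟩
  mul_mem' := by
    rintro f g ⟨t, s, ht, hf⟩ ⟨t', s', ht', hg⟩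
    refine ⟨t * t', s * s', by simp [ht, ht'], ?_⟩
    push_cast
    rw [← hf, ← hg]; ring
  mem_or_inv_mem' := by
    intro f
    rcases eq_or_ne f 0 with rfl | hf
    · exact Or.inl ⟨1, 0, by simp, by simp⟩
    obtain ⟨e, D, P, he, hD, hP, heq⟩ := M.exists_frac hf
    rcases M.A.mem_or_inv_mem e with h | h
    · exact Or.inl ⟨M.ev D, M.const ⟨e, h⟩ * M.comb P, M.ρ_ev_ne_zero hD, by simpa using heq⟩
    · refine Or.inr ⟨M.comb P, M.const ⟨e⁻¹, h⟩ * M.ev D, M.ρ_comb_ne_zero hP, ?_⟩
      have hC : (M.comb P : F) = algebraMap L F e⁻¹ * (f * (M.ev D : F)) := by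
        rw [heq, ← mul_assoc, ← map_mul, inv_mul_cancel₀ he, map_one, one_mul]
      push_cast
      rw [coe_const, hC]
      field_simp

theorem mem_O {f : F} : f ∈ M.O ↔ ∃ t s : M.S, M.ρ t ≠ 0 ∧ f * (t : F) = s := Iff.rfl

theorem S_le_O {f : F} (h : f ∈ M.S) : f ∈ M.O := ⟨1, ⟨f, h⟩, by simp, by simp⟩

/-- The inclusion `S → O`. -/
def toO : M.S →+* M.O where
  toFun s := ⟨s, M.S_le_O s.2⟩
  map_one' := rfl
  map_mul' _ _ := rfl
  map_zero' := rfl
  map_add' _ _ := rfl

@[simp] theorem coe_toO (s : M.S) : (M.toO s : F) = s := rfl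

theorem ρ_div_eq {f : F} {t s t' s' : M.S} (ht : M.ρ t ≠ 0) (ht' : M.ρ t' ≠ 0)
    (h : f * (t : F) = s) (h' : f * (t' : F) = s') : M.ρ s / M.ρ t = M.ρ s' / M.ρ t' := by
  rw [div_eq_div_iff ht ht', ← map_mul, ← map_mul]
  congr 1
  apply Subtype.ext
  push_cast
  rw [← h, ← h']; ring

/-- The residue of an element of `O`. -/
def resFun (u : M.O) : Fb := M.ρ (M.mem_O.mp u.2).choose_spec.choose / M.ρ (M.mem_O.mp u.2).choose

theorem resFun_eq (u : M.O) {t s : M.S} (ht : M.ρ t ≠ 0) (h : (u : F) * (t : F) = s) :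
    M.resFun u = M.ρ s / M.ρ t :=
  M.ρ_div_eq (M.mem_O.mp u.2).choose_spec.choose_spec.1 ht
    (M.mem_O.mp u.2).choose_spec.choose_spec.2 h

/-- The residue map. -/
def res : M.O →+* Fb where
  toFun := M.resFun
  map_one' := by rw [M.resFun_eq 1 (t := 1) (s := 1) (by simp) (by simp)]; simp
  map_zero' := by rw [M.resFun_eq 0 (t := 1) (s := 0) (by simp) (by simp)]; simp
  map_mul' u v := by
    obtain ⟨t, s, ht, h⟩ := u.2
    obtain ⟨t', s', ht', h'⟩ := v.2
    rw [M.resFun_eq u ht h, M.resFun_eq v ht' h',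
      M.resFun_eq (u * v) (t := t * t') (s := s * s') (by simp [ht, ht'])
        (by push_cast; rw [← h, ← h']; ring)]
    rw [map_mul, map_mul, div_mul_div_comm]
  map_add' u v := by
    obtain ⟨t, s, ht, h⟩ := u.2
    obtain ⟨t', s', ht', h'⟩ := v.2
    rw [M.resFun_eq u ht h, M.resFun_eq v ht' h',
      M.resFun_eq (u + v) (t := t * t') (s := s * t' + s' * t) (by simp [ht, ht'])
        (by push_cast; rw [← h, ← h']; ring)]
    rw [div_add_div _ _ ht ht', map_add, map_mul, map_mul, map_mul, mul_comm (M.ρ s') (M.ρ t)]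

theorem res_eq (u : M.O) {t s : M.S} (ht : M.ρ t ≠ 0) (h : (u : F) * (t : F) = s) :
    M.res u = M.ρ s / M.ρ t :=
  M.resFun_eq u ht h

/-- An element of the model ring reduces by the given map. -/
@[simp] theorem res_toO (s : M.S) : M.res (M.toO s) = M.ρ s := by
  rw [M.res_eq (M.toO s) (t := 1) (s := s) (by simp) (by simp)]; simp

theorem scale {f : F} (hf : f ≠ 0) :
    ∃ (c : L) (h : c • f ∈ M.O), M.res ⟨c • f, h⟩ ≠ 0 := by
  obtain ⟨e, D, P, he, hD, hP, heq⟩ := M.exists_frac hf
  have h : (e⁻¹ • f) * (M.ev D : F) = M.comb P := by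
    rw [smul_mul_assoc, heq, Algebra.smul_def, ← mul_assoc, ← map_mul, inv_mul_cancel₀ he,
      map_one, one_mul]
  refine ⟨e⁻¹, ⟨_, _, M.ρ_ev_ne_zero hD, h⟩, ?_⟩
  rw [M.res_eq _ (M.ρ_ev_ne_zero hD) h]
  exact div_ne_zero (M.ρ_comb_ne_zero hP) (M.ρ_ev_ne_zero hD)

/-- Elements `∑ aeval x (P i) * b i` with bounded degrees, as coordinates. -/
def coordMap (N : ℕ) : (Fin (N + 1) × Fin M.d → L) →ₗ[L] F where
  toFun a := ∑ p, a p • ((M.x : F) ^ (p.1 : ℕ) * (M.b p.2 : F))
  map_add' a a' := by simp [add_smul, Finset.sum_add_distrib]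
  map_smul' c a := by simp [mul_smul, Finset.smul_sum]

theorem coordMap_eq (N : ℕ) (a : Fin (N + 1) × Fin M.d → L) :
    M.coordMap N a =
      ∑ i, aeval (M.x : F) (∑ n : Fin (N + 1), monomial (n : ℕ) (a (n, i))) * (M.b i : F) := by
  show ∑ p, a p • ((M.x : F) ^ (p.1 : ℕ) * (M.b p.2 : F)) = _
  rw [Fintype.sum_prod_type, Finset.sum_comm]
  refine Finset.sum_congr rfl fun i _ => ?_
  rw [map_sum, Finset.sum_mul]
  refine Finset.sum_congr rfl fun n _ => ?_
  rw [aeval_monomial, Algebra.smul_def, mul_assoc]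

theorem coordMap_injective (N : ℕ) : Function.Injective (M.coordMap N) := by
  rw [injective_iff_map_eq_zero]
  intro a ha
  rw [coordMap_eq] at ha
  funext ⟨n, i⟩
  have h := congrArg (fun q => q.coeff (n : ℕ)) (M.liL _ ha i)
  simpa [coeff_monomial, Fin.val_inj] using h

theorem mem_range_coordMap (N : ℕ) (P : Fin M.d → L[X]) (h : ∀ i, (P i).natDegree ≤ N) :
    ∑ i, aeval (M.x : F) (P i) * (M.b i : F) ∈ LinearMap.range (M.coordMap N) := by
  refine ⟨fun p => (P p.2).coeff p.1, ?_⟩
  rw [coordMap_eq]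
  refine Finset.sum_congr rfl fun i _ => ?_
  congr 2
  rw [Fin.sum_univ_eq_sum_range (fun n => monomial n ((P i).coeff n)) (N + 1)]
  exact ((P i).as_sum_range' (N + 1) (Nat.lt_succ_of_le (h i))).symm

theorem ortho (V : Submodule L F) [FiniteDimensional L V] :
    ∃ u : Fin (Module.finrank L V) → M.O, (∀ i, (u i : F) ∈ V) ∧
      LinearIndependent k (fun i => M.res (u i)) := by
  classical
  let v := Module.finBasis L V
  choose D P hD hDP using fun j => M.span (v j : F)
  set Dt := ∏ j, D j with hDt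
  have hDt0 : Dt ≠ 0 := Finset.prod_ne_zero_iff.mpr fun j _ => hD j
  obtain ⟨c, D', hc, hD', -, z, hu⟩ := exists_normalized M.π (fun _ : Unit => Dt) ⟨(), hDt0⟩
  obtain ⟨E, hE⟩ : ∃ E : Fin (Module.finrank L V) → L[X], ∀ j, Dt = E j * D j :=
    ⟨fun j => ∏ l ∈ Finset.univ.erase j, D l,
      fun j => (Finset.prod_erase_mul Finset.univ D (Finset.mem_univ j)).symm⟩
  obtain ⟨N, hN⟩ : ∃ N : ℕ, ∀ j i, (E j * P j i).natDegree ≤ N :=
    ⟨Finset.univ.sup fun j => Finset.univ.sup fun i => (E j * P j i).natDegree, fun j i =>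
      le_trans (Finset.le_sup (f := fun i => (E j * P j i).natDegree) (Finset.mem_univ i))
        (Finset.le_sup (f := fun j => Finset.univ.sup fun i => (E j * P j i).natDegree)
          (Finset.mem_univ j))⟩
  set g : F := aeval (M.x : F) Dt with hg
  have hg0 : g ≠ 0 := fun h => hDt0 (transcendental_iff.mp M.transF _ h)
  set W : Submodule L F := V.map (LinearMap.mulLeft L g) with hW
  have hWle : W ≤ LinearMap.range (M.coordMap N) := by
    have hV : V = Submodule.span L (Set.range fun j => ((v j : V) : F)) := by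
      conv_lhs => rw [← Submodule.range_subtype V, LinearMap.range_eq_map, ← v.span_eq,
        Submodule.map_span, ← Set.range_comp]
      rfl
    rw [hW, hV, Submodule.map_span, Submodule.span_le]
    rintro _ ⟨_, ⟨j, rfl⟩, rfl⟩
    simp only [LinearMap.mulLeft_apply, hg]
    rw [hE j, map_mul, mul_assoc, hDP j, Finset.mul_sum]
    simp only [← mul_assoc, ← map_mul]
    exact M.mem_range_coordMap N _ fun i => hN j i
  set U := W.comap (M.coordMap N) with hU
  have hUdim : Module.finrank L U = Module.finrank L V := by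
    have h1 : Module.finrank L U = Module.finrank L (U.map (M.coordMap N)) :=
      (Submodule.equivMapOfInjective _ (M.coordMap_injective N) U).finrank_eq
    rw [h1, hU, Submodule.map_comap_eq, inf_eq_right.mpr hWle, hW]
    exact (Submodule.equivMapOfInjective _
      (show Function.Injective (LinearMap.mulLeft L g) from mul_right_injective₀ hg0)
      V).finrank_eq.symm
  obtain ⟨a, haU, hali⟩ := exists_reduced_basis M.π (Module.finrank L V) U hUdim
  let Q : Fin (Module.finrank L V) → Fin M.d → M.A[X] := fun j i =>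
    ∑ n : Fin (N + 1), monomial (n : ℕ) (a j (n, i))
  have hQ : ∀ j, (M.comb (Q j) : F) = M.coordMap N (fun p => ((a j p : M.A) : L)) := by
    intro j
    rw [coe_comb, coordMap_eq]
    refine Finset.sum_congr rfl fun i _ => ?_
    simp [Q, Polynomial.map_sum]
  have hden : (M.ev (D' z) : F) = algebraMap L F c * g := by
    rw [coe_ev, hD', map_mul, aeval_C]
  have hden0 : (M.ev (D' z) : F) ≠ 0 := by
    rw [hden]; exact mul_ne_zero (by simpa using hc) hg0
  have hmem : ∀ j, (M.comb (Q j) : F) / (M.ev (D' z) : F) ∈ M.O := fun j =>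
    ⟨M.ev (D' z), M.comb (Q j), M.ρ_ev_ne_zero hu, div_mul_cancel₀ _ hden0⟩
  refine ⟨fun j => ⟨_, hmem j⟩, fun j => ?_, ?_⟩
  · obtain ⟨w, hw, hwe⟩ := haU j
    simp only [LinearMap.mulLeft_apply] at hwe
    show (M.comb (Q j) : F) / (M.ev (D' z) : F) ∈ V
    rw [show (M.comb (Q j) : F) / (M.ev (D' z) : F) = c⁻¹ • w by
      rw [hQ j, ← hwe, hden, Algebra.smul_def, map_inv₀]
      field_simp]
    exact V.smul_mem _ hw
  · have hres : (fun j => M.res ⟨_, hmem j⟩) =
        fun j => (M.ρ (M.ev (D' z)))⁻¹ • M.ρ (M.comb (Q j)) := by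
      funext j
      rw [M.res_eq ⟨_, hmem j⟩ (M.ρ_ev_ne_zero hu) (div_mul_cancel₀ _ hden0), div_eq_inv_mul,
        smul_eq_mul]
    rw [hres, Fintype.linearIndependent_iff]
    intro e he
    simp only [smul_eq_mul, ← mul_smul_comm, ← Finset.mul_sum] at he
    have he' := (mul_eq_zero.mp he).resolve_left (inv_ne_zero (M.ρ_ev_ne_zero hu))
    rw [Fintype.linearIndependent_iff] at hali
    refine hali e (funext fun p => ?_)
    have hsum : ∑ i, aeval (M.ρ M.x) (∑ j, C (e j) * (Q j i).map M.π) * M.ρ (M.b i) = 0 := by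
      simp only [ρ_comb, Finset.smul_sum] at he'
      rw [Finset.sum_comm] at he'
      rw [← he']
      refine Finset.sum_congr rfl fun i _ => ?_
      rw [map_sum, Finset.sum_mul]
      refine Finset.sum_congr rfl fun j _ => ?_
      rw [map_mul, aeval_C, Algebra.smul_def, mul_assoc]
    have h := congrArg (fun q => q.coeff (p.1 : ℕ)) (M.li _ hsum p.2)
    simpa [Q, Polynomial.map_sum, finsetSum_coeff, coeff_C_mul, coeff_monomial, Fin.val_inj]
      using h

/-- The constant reduction of a model. -/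
def toReduction : Reduction L k F Fb where
  A := M.A
  O := M.O
  π := M.π
  π_surj := M.π_surj
  res := M.res
  algebraMap_mem a := M.S_le_O (M.const_mem a)
  res_algebraMap a := (M.res_toO (M.const a)).trans (M.ρ_const a)
  scale _ hf := M.scale hf
  ortho V _ := M.ortho V

/-- Spanning over `L(x)` from independence and a degree bound. -/
theorem span_of_finrank_le {x : F} {d : ℕ} (b : Fin d → F)
    (hli : ∀ P : Fin d → L[X], ∑ i, aeval x (P i) * b i = 0 → ∀ i, P i = 0)
    [FiniteDimensional (IntermediateField.adjoin L {x}) F]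
    (hd : Module.finrank (IntermediateField.adjoin L {x}) F ≤ d) (f : F) :
    ∃ (D : L[X]) (P : Fin d → L[X]), D ≠ 0 ∧ aeval x D * f = ∑ i, aeval x (P i) * b i := by
  classical
  have hdep : ¬ LinearIndependent (IntermediateField.adjoin L {x})
      (Fin.cons f b : Fin (d + 1) → F) := by
    intro h
    have := h.fintype_card_le_finrank
    simp at this
    omega
  obtain ⟨g, hg, i₀, hi₀⟩ := Fintype.not_linearIndependent_iff.mp hdep
  choose r s hrs using fun i =>
    IntermediateField.mem_adjoin_simple_iff L (g i : F) |>.mp (g i).2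
  set num : Fin (d + 1) → L[X] := fun i => if aeval x (s i) = 0 then 0 else r i with hnum
  set den : Fin (d + 1) → L[X] := fun i => if aeval x (s i) = 0 then 1 else s i with hden
  have hq : ∀ i, aeval x (den i) ≠ 0 ∧ (g i : F) * aeval x (den i) = aeval x (num i) := by
    intro i
    by_cases h : aeval x (s i) = 0
    · simp [hnum, hden, h, hrs i]
    · simp [hnum, hden, h, hrs i]
  set co : Fin (d + 1) → L[X] := fun i => num i * ∏ j ∈ Finset.univ.erase i, den j with hco
  have hco' : ∀ i, aeval x (co i) = aeval x (∏ j, den j) * (g i : F) := by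
    intro i
    rw [hco, ← Finset.mul_prod_erase Finset.univ den (Finset.mem_univ i)]
    simp only [map_mul]
    rw [← (hq i).2]; ring
  have hall : ∑ i, aeval x (co i) * (Fin.cons f b : Fin (d + 1) → F) i = 0 := by
    simp only [hco', mul_assoc, ← Finset.mul_sum]
    rw [show ∑ i, (g i : F) * (Fin.cons f b : Fin (d + 1) → F) i = 0 by
      simpa [IntermediateField.smul_def] using hg, mul_zero]
  rw [Fin.sum_univ_succ] at hall
  simp only [Fin.cons_zero, Fin.cons_succ] at hall
  refine ⟨co 0, fun i => -co i.succ, fun h0 => ?_, ?_⟩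
  · rw [h0, map_zero, zero_mul, zero_add] at hall
    have hall' := hli _ hall
    have hci : co i₀ = 0 := by
      induction i₀ using Fin.cases with
      | zero => exact h0
      | succ i => exact hall' i
    have h := hco' i₀
    rw [hci, map_zero, eq_comm, mul_eq_zero] at h
    refine h.elim (fun h1 => ?_) (fun h1 => hi₀ (Subtype.ext h1))
    rw [map_prod, Finset.prod_eq_zero_iff] at h1
    obtain ⟨j, -, hj⟩ := h1
    exact (hq j).1 hj
  · simp only [map_neg, neg_mul, Finset.sum_neg_distrib]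
    exact eq_neg_of_add_eq_zero_left hall

end Model

end FLTAgent.Deuring
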