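import Fermat.Agent.Deuring.Model
import Fermat.Agent.Deuring.Construct

/-!
# The atlas of a model with surjective reduction on both charts

If reductions of the functions regular in the `x` and `1 / x` charts are surjective, a model gives
an `Atlas` (`Model.atlas`). Used by `Modular` and `Semistable.SpecialRR`.
-/

set_option autoImplicit false

noncomputable section

open AlgebraicCurve Polynomial FLTAgent.FFBasic

namespace FLTAgent.Deuring

section Generic

variable {K F : Type*} [Field K] [Field F] [Algebra K F] [IsFunctionField K F]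

/-- Functions regular where `y` is regular are integral over `K[y]`. -/
theorem isIntegral_of_inB {y f : F} (hf : InB K y f) :
    IsIntegral (Algebra.adjoin K ({y} : Set F)) f := by
  by_contra hni
  set B := integralClosure (Algebra.adjoin K ({y} : Set F)) F with hB
  have hni' : f ∉ B.toSubring := hni
  have : IsIntegrallyClosedIn B.toSubring F :=
    inferInstanceAs (IsIntegrallyClosedIn (integralClosure (Algebra.adjoin K ({y} : Set F)) F) F)
  obtain ⟨V, hV, hfV⟩ := Subring.exists_le_valuationSubring_of_isIntegrallyClosedIn hni'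
  have hgen : ∀ g ∈ Algebra.adjoin K ({y} : Set F), g ∈ V := fun g hg =>
    hV (B.algebraMap_mem (⟨g, hg⟩ : Algebra.adjoin K ({y} : Set F)))
  have hK : ∀ a : K, algebraMap K F a ∈ V := fun a => hgen _ (Subalgebra.algebraMap_mem _ a)
  set v := placeOfValuationSubring V hK (fun h => hfV (h ▸ ValuationSubring.mem_top f)) with hv
  have hy : y ∈ v.toValuationSubring := hgen y (Algebra.self_mem_adjoin_singleton K y)
  exact hfV (mem_of_ord_nonneg v (hf v (ord_nonneg_of_mem v hy)))

omit [IsFunctionField K F] in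
theorem aeval_mem_filt {v : Place K F} {y : F} {o : ℤ} (ho : o ≤ 0) (hy : o ≤ v.ord y)
    {p : K[X]} {N : ℕ} (hp : p.natDegree ≤ N) : aeval y p ∈ filt v (N * o) := by
  rw [aeval_eq_sum_range]
  refine sum_mem fun i hi => Submodule.smul_mem _ _ ?_
  refine filt_antitone v ?_ (pow_mem_filt (mem_filt_of_le hy) i)
  have : i ≤ N := by have := Finset.mem_range.mp hi; omega
  exact mul_le_mul_of_nonpos_right (by exact_mod_cast this) ho

theorem nonneg_of_forall_mul_add {a c e : ℤ} (h : ∀ j : ℕ, c ≤ e + j * a) : 0 ≤ a := by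
  by_contra! ha
  have h1 := h ((e - c).toNat + 1)
  push_cast at h1
  have : ((e - c).toNat + 1 : ℤ) * a ≤ ((e - c).toNat + 1 : ℤ) * (-1) :=
    mul_le_mul_of_nonneg_left (by omega) (by omega)
  omega

end Generic

namespace Model

variable {L k F Fb : Type*} [Field L] [Field k] [Field F] [Field Fb]
  [Algebra L F] [Algebra k Fb] (M : Model L k F Fb)

theorem exists_int_comb (g : M.O) (P : Fin M.d → L[X]) (N : ℕ) (hN : ∀ i, (P i).natDegree ≤ N)
    (h : (g : F) = ∑ i, aeval (M.x : F) (P i) * (M.b i : F)) :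
    ∃ P' : Fin M.d → M.A[X], (∀ i, (P' i).natDegree ≤ N) ∧ g = M.toO (M.comb P') := by
  by_cases h0 : ∀ i, P i = 0
  · refine ⟨fun _ => 0, fun _ => by simp, Subtype.ext ?_⟩
    simp [h, h0, comb]
  push Not at h0
  obtain ⟨c, P', hc, hP', hdeg, hu⟩ := exists_normalized M.π P h0
  have hcg : algebraMap L F c * (g : F) = (M.comb P' : F) := by
    rw [coe_comb, h, Finset.mul_sum]
    simp [hP', mul_assoc]
  have hinv : c⁻¹ ∈ M.A := by
    by_contra hni
    obtain ⟨hc', hπ⟩ := M.toReduction.inv_mem_of_not_mem hni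
    simp only [inv_inv] at hc' hπ
    have he : M.toO (M.comb P') = M.toO (M.const ⟨c, hc'⟩) * g :=
      Subtype.ext (by simp [hcg])
    have hres := congrArg M.res he
    rw [map_mul, res_toO, res_toO,
      show M.ρ (M.const ⟨c, hc'⟩) = algebraMap k Fb (M.π ⟨c, hc'⟩) from M.ρ_const _] at hres
    rw [show M.π ⟨c, hc'⟩ = 0 from hπ, map_zero, zero_mul] at hres
    exact M.ρ_comb_ne_zero hu hres
  refine ⟨fun i => C ⟨c⁻¹, hinv⟩ * P' i,
    fun i => (natDegree_C_mul_le _ _).trans ((hdeg i).trans (hN i)), Subtype.ext ?_⟩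
  rw [coe_toO, coe_comb, h]
  refine Finset.sum_congr rfl fun i _ => ?_
  rw [Polynomial.map_mul, map_C, hP', ← mul_assoc, ← C_mul]
  simp [hc]

variable [IsFunctionField L F] [IsFunctionField k Fb]

/-- A lower bound for the orders of the reduced basis at a place. -/
def basisBound (Q : Place k Fb) : ℤ := -∑ i, pol (K := k) (M.ρ (M.b i)) Q

omit [IsFunctionField L F] in
theorem ρ_comb_mem_filt {Q : Place k Fb} {o : ℤ} (ho : o ≤ 0) (hx : o ≤ Q.ord (M.ρ M.x))
    {P : Fin M.d → M.A[X]} {N : ℕ} (hP : ∀ i, (P i).natDegree ≤ N) :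
    M.ρ (M.comb P) ∈ filt Q (N * o + M.basisBound Q) := by
  rw [ρ_comb]
  refine sum_mem fun i _ => mul_mem_filt
    (aeval_mem_filt ho hx (natDegree_map_le.trans (hP i))) (mem_filt_of_le ?_)
  have h : pol (K := k) (M.ρ (M.b i)) Q ≤ ∑ j, pol (K := k) (M.ρ (M.b j)) Q :=
    Finset.single_le_sum (f := fun j => pol (K := k) (M.ρ (M.b j)) Q)
      (fun j _ => pol_nonneg _ Q) (Finset.mem_univ i)
  simp only [basisBound, pol_apply] at h ⊢
  omega

omit [IsFunctionField L F] [IsFunctionField k Fb] in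
theorem exists_common_den (s : Finset F) :
    ∃ (D : L[X]) (D' : M.A[X]) (c : L) (N : ℕ), c ≠ 0 ∧ D'.map M.A.subtype = C c * D ∧
      D'.map M.π ≠ 0 ∧ ∀ g ∈ s, ∃ P : Fin M.d → L[X], (∀ i, (P i).natDegree ≤ N) ∧
        aeval (M.x : F) D * g = ∑ i, aeval (M.x : F) (P i) * (M.b i : F) := by
  classical
  choose D P hD hDP using fun g : s => M.span (g : F)
  set Dt := ∏ g, D g with hDt
  obtain ⟨c, D', hc, hD', -, z, hu⟩ := exists_normalized M.π (fun _ : Unit => Dt)
    ⟨(), Finset.prod_ne_zero_iff.mpr fun g _ => hD g⟩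
  obtain ⟨E, hE⟩ : ∃ E : s → L[X], ∀ g, Dt = E g * D g :=
    ⟨fun g => ∏ l ∈ Finset.univ.erase g, D l,
      fun g => (Finset.prod_erase_mul Finset.univ D (Finset.mem_univ g)).symm⟩
  refine ⟨Dt, D' z, c, ∑ g, ∑ i, (E g * P g i).natDegree, hc, hD' z, hu, fun g hg => ?_⟩
  refine ⟨fun i => E ⟨g, hg⟩ * P ⟨g, hg⟩ i, fun i => ?_, ?_⟩
  · exact le_trans (Finset.single_le_sum (f := fun i => (E ⟨g, hg⟩ * P ⟨g, hg⟩ i).natDegree)
      (fun _ _ => Nat.zero_le _) (Finset.mem_univ i))
      (Finset.single_le_sum (f := fun g => ∑ i, (E g * P g i).natDegree)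
        (fun _ _ => Nat.zero_le _) (Finset.mem_univ _))
  · rw [hE ⟨g, hg⟩, map_mul, mul_assoc, hDP ⟨g, hg⟩, Finset.mul_sum]
    simp only [map_mul, mul_assoc]

theorem fwd_fin (u : M.O) (hu : InB L (M.x : F) (u : F)) :
    InB k (M.ρ M.x) (M.res u) := by
  intro Q hQ
  rcases eq_or_ne (M.res u) 0 with h0 | h0
  · simp [h0]
  have hint := isIntegral_of_inB hu
  obtain ⟨s, hs⟩ := hint.fg_adjoin_singleton
  obtain ⟨D, D', c, N, hc, hD', hD0, hs'⟩ := M.exists_common_den s
  refine nonneg_of_forall_mul_add (c := M.basisBound Q) (e := Q.ord (M.ρ (M.ev D'))) fun j => ?_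
  have hpow : ∃ P : Fin M.d → L[X],
      aeval (M.x : F) D * (u : F) ^ j = ∑ i, aeval (M.x : F) (P i) * (M.b i : F) := by
    have hmem : (u : F) ^ j ∈
        Submodule.span (Algebra.adjoin L ({(M.x : F)} : Set F)) (s : Set F) := by
      rw [hs]
      exact pow_mem (Algebra.self_mem_adjoin_singleton _ _) j
    revert hmem
    generalize (u : F) ^ j = w
    intro hmem
    induction hmem using Submodule.span_induction with
    | mem g hg => exact (hs' g hg).imp fun P h => h.2
    | zero => exact ⟨fun _ => 0, by simp⟩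
    | add a b _ _ ha hb =>
      obtain ⟨P, hP⟩ := ha
      obtain ⟨P', hP'⟩ := hb
      exact ⟨fun i => P i + P' i, by simp [mul_add, hP, hP', add_mul, Finset.sum_add_distrib]⟩
    | smul r a _ ha =>
      obtain ⟨P, hP⟩ := ha
      obtain ⟨q, hq⟩ := (Algebra.adjoin_singleton_eq_range_aeval L (M.x : F) ▸ r.2 :
        (r : F) ∈ (aeval (R := L) (M.x : F)).range)
      refine ⟨fun i => q * P i, ?_⟩
      rw [Subalgebra.smul_def, smul_eq_mul, ← hq, mul_left_comm, hP, Finset.mul_sum]
      exact Finset.sum_congr rfl fun i _ => by rw [map_mul, mul_assoc]; rfl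
  obtain ⟨P, hP⟩ := hpow
  obtain ⟨P', -, hP'⟩ := M.exists_int_comb (M.toO (M.ev D') * u ^ j) (fun i => C c * P i)
    (∑ i, (C c * P i).natDegree)
    (fun i => Finset.single_le_sum (f := fun i => (C c * P i).natDegree)
      (fun _ _ => Nat.zero_le _) (Finset.mem_univ i))
    (by
      push_cast
      rw [coe_toO, coe_ev, hD', map_mul, aeval_C, mul_assoc, hP, Finset.mul_sum]
      exact Finset.sum_congr rfl fun i _ => by rw [map_mul, aeval_C, mul_assoc])
  have he := congrArg M.res hP'
  rw [map_mul, map_pow, res_toO, res_toO] at he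
  have hmem := M.ρ_comb_mem_filt (le_refl (0 : ℤ)) hQ (P := P') (N := ∑ i, (P' i).natDegree)
    fun i => Finset.single_le_sum (f := fun i => (P' i).natDegree)
      (fun _ _ => Nat.zero_le _) (Finset.mem_univ i)
  rw [← he, mul_zero, zero_add] at hmem
  have h1 := le_ord_of_mem_filt hmem (mul_ne_zero (M.ρ_ev_ne_zero hD0) (pow_ne_zero _ h0))
  rwa [Q.ord_mul (M.ρ_ev_ne_zero hD0) (pow_ne_zero _ h0), FFBasic.ord_pow] at h1

theorem fwd_inf (u : M.O) (hu : InB L (M.x : F)⁻¹ (u : F)) :
    InB k (M.ρ M.x)⁻¹ (M.res u) := by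
  intro Q hQ
  rw [Q.ord_inv] at hQ
  rcases eq_or_ne (M.res u) 0 with h0 | h0
  · simp [h0]
  have hx0 : M.ρ M.x ≠ 0 := fun h => M.transFb (h ▸ isAlgebraic_zero)
  have hxF : (M.x : F) ≠ 0 := fun h => M.transF (h ▸ isAlgebraic_zero)
  have hint := isIntegral_of_inB hu
  obtain ⟨s, hs⟩ := hint.fg_adjoin_singleton
  obtain ⟨D, D', c, N, hc, hD', hD0, hs'⟩ := M.exists_common_den s
  refine nonneg_of_forall_mul_add
    (c := (N : ℤ) * Q.ord (M.ρ M.x) + M.basisBound Q) (e := Q.ord (M.ρ (M.ev D'))) fun j => ?_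
  set good : F → Prop := fun f => ∃ (m : ℕ) (P : Fin M.d → L[X]),
    (∀ i, (P i).natDegree ≤ m + N) ∧
      aeval (M.x : F) D * (M.x : F) ^ m * f = ∑ i, aeval (M.x : F) (P i) * (M.b i : F) with hgood
  have hraise : ∀ (f : F) (m : ℕ) (P : Fin M.d → L[X]), (∀ i, (P i).natDegree ≤ m + N) →
      aeval (M.x : F) D * (M.x : F) ^ m * f = ∑ i, aeval (M.x : F) (P i) * (M.b i : F) →
      ∀ e, ∃ P' : Fin M.d → L[X], (∀ i, (P' i).natDegree ≤ e + m + N) ∧
        aeval (M.x : F) D * (M.x : F) ^ (e + m) * f =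
          ∑ i, aeval (M.x : F) (P' i) * (M.b i : F) := by
    intro f m P hdeg hP e
    refine ⟨fun i => X ^ e * P i, fun i => ?_, ?_⟩
    · refine natDegree_mul_le.trans ?_
      rw [natDegree_X_pow]
      have := hdeg i
      omega
    · rw [pow_add, mul_assoc _ ((M.x : F) ^ e * _), mul_assoc ((M.x : F) ^ e),
        mul_left_comm _ ((M.x : F) ^ e), ← mul_assoc (aeval (M.x : F) D), hP, Finset.mul_sum]
      exact Finset.sum_congr rfl fun i _ => by rw [map_mul, map_pow, aeval_X, mul_assoc]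
  have hgadd : ∀ a b, good a → good b → good (a + b) := by
    rintro a b ⟨m, P, hdeg, hP⟩ ⟨m', P', hdeg', hP'⟩
    obtain ⟨R, hRd, hR⟩ := hraise a m P hdeg hP m'
    obtain ⟨R', hRd', hR'⟩ := hraise b m' P' hdeg' hP' m
    refine ⟨m' + m, fun i => R i + R' i, fun i => ?_, ?_⟩
    · refine natDegree_add_le_of_degree_le (hRd i) ?_
      have := hRd' i
      omega
    · rw [mul_add, hR, Nat.add_comm m', hR', ← Finset.sum_add_distrib]
      exact Finset.sum_congr rfl fun i _ => by rw [map_add, add_mul]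
  have hgzero : good 0 := ⟨0, fun _ => 0, by simp, by simp⟩
  have hpow : good ((u : F) ^ j) := by
    have hmem : (u : F) ^ j ∈
        Submodule.span (Algebra.adjoin L ({(M.x : F)⁻¹} : Set F)) (s : Set F) := by
      rw [hs]
      exact pow_mem (Algebra.self_mem_adjoin_singleton _ _) j
    revert hmem
    generalize (u : F) ^ j = w
    intro hmem
    induction hmem using Submodule.span_induction with
    | mem g hg =>
      obtain ⟨P, hdeg, hP⟩ := hs' g hg
      exact ⟨0, P, fun i => by simpa using hdeg i, by simpa using hP⟩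
    | zero => exact hgzero
    | add a b _ _ ha hb => exact hgadd a b ha hb
    | smul r a _ ha =>
      obtain ⟨q, hq⟩ := (Algebra.adjoin_singleton_eq_range_aeval L (M.x : F)⁻¹ ▸ r.2 :
        (r : F) ∈ (aeval (R := L) (M.x : F)⁻¹).range)
      rw [Subalgebra.smul_def, smul_eq_mul, ← hq]
      clear hq
      induction q using Polynomial.induction_on' with
      | add p q hp hq =>
        show good (aeval (M.x : F)⁻¹ (p + q) * a)
        rw [map_add, add_mul]
        exact hgadd _ _ hp hq
      | monomial n c' =>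
        obtain ⟨m, P, hdeg, hP⟩ := ha
        refine ⟨m + n, fun i => C c' * P i, fun i => ?_, ?_⟩
        · exact (natDegree_C_mul_le _ _).trans (by have := hdeg i; omega)
        · show _ * (aeval (M.x : F)⁻¹ (monomial n c') * a) = _
          rw [aeval_monomial, inv_pow, pow_add,
            show aeval (M.x : F) D * ((M.x : F) ^ m * (M.x : F) ^ n) *
              (algebraMap L F c' * ((M.x : F) ^ n)⁻¹ * a) = algebraMap L F c' *
              (aeval (M.x : F) D * (M.x : F) ^ m * a) by field_simp, hP, Finset.mul_sum]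
          exact Finset.sum_congr rfl fun i _ => by rw [map_mul, aeval_C, mul_assoc]
  obtain ⟨m, P, hdeg, hP⟩ := hpow
  obtain ⟨P', hdeg', hP'⟩ := M.exists_int_comb (M.toO (M.ev D') * M.toO M.x ^ m * u ^ j)
    (fun i => C c * P i) (m + N) (fun i => (natDegree_C_mul_le _ _).trans (hdeg i))
    (by
      push_cast
      rw [coe_toO, coe_toO, coe_ev, hD', map_mul, aeval_C, mul_assoc (algebraMap L F c),
        mul_assoc (algebraMap L F c), hP, Finset.mul_sum]
      exact Finset.sum_congr rfl fun i _ => by rw [map_mul, aeval_C, mul_assoc])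
  have he := congrArg M.res hP'
  rw [map_mul, map_mul, map_pow, map_pow, res_toO, res_toO, res_toO] at he
  have hmem := M.ρ_comb_mem_filt (show Q.ord (M.ρ M.x) ≤ 0 by omega) le_rfl hdeg'
  rw [← he] at hmem
  have hne : M.ρ (M.ev D') * M.ρ M.x ^ m * M.res u ^ j ≠ 0 :=
    mul_ne_zero (mul_ne_zero (M.ρ_ev_ne_zero hD0) (pow_ne_zero _ hx0)) (pow_ne_zero _ h0)
  have h1 := le_ord_of_mem_filt hmem hne
  rw [Q.ord_mul (mul_ne_zero (M.ρ_ev_ne_zero hD0) (pow_ne_zero _ hx0)) (pow_ne_zero _ h0),
    Q.ord_mul (M.ρ_ev_ne_zero hD0) (pow_ne_zero _ hx0), FFBasic.ord_pow, FFBasic.ord_pow] at h1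
  push_cast at h1
  linarith

omit [IsFunctionField L F] [IsFunctionField k Fb] in
theorem isUnit_toO_x : IsUnit (M.toO M.x) :=
  M.toReduction.isUnit_of_res_ne_zero (u := M.toO M.x) (by
    show M.res (M.toO M.x) ≠ 0
    rw [res_toO]
    exact fun h => M.transFb (h ▸ isAlgebraic_zero))

/-- The inverse coordinate. -/
def xInv : M.O := ↑M.isUnit_toO_x.unit⁻¹

omit [IsFunctionField L F] [IsFunctionField k Fb] in
theorem coe_xInv : (M.xInv : F) = (M.x : F)⁻¹ := by
  apply eq_inv_of_mul_eq_one_right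
  exact congrArg Subtype.val M.isUnit_toO_x.mul_val_inv

omit [IsFunctionField L F] [IsFunctionField k Fb] in
theorem res_xInv : M.res M.xInv = (M.ρ M.x)⁻¹ := by
  apply eq_inv_of_mul_eq_one_right
  rw [← res_toO, ← map_mul]
  exact (congrArg M.res M.isUnit_toO_x.mul_val_inv).trans (map_one _)

omit [IsFunctionField L F] [IsFunctionField k Fb] in
theorem inB_ev (P : M.A[X]) : InB L (M.x : F) (M.ev P : F) := by
  rw [coe_ev]
  intro v hv
  exact ord_nonneg_of_mem v
    (aeval_mem v.algebraMap_mem' (mem_of_ord_nonneg v hv) _)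

omit [IsFunctionField L F] [IsFunctionField k Fb] in
theorem inB_comb (hb : ∀ i, InB L (M.x : F) (M.b i : F)) (P : Fin M.d → M.A[X]) :
    InB L (M.x : F) (M.comb P : F) := by
  intro v hv
  refine ord_nonneg_of_mem v ?_
  rw [comb]
  push_cast
  exact sum_mem fun i _ =>
    mul_mem (mem_of_ord_nonneg v (M.inB_ev _ v hv)) (mem_of_ord_nonneg v (hb i v hv))

/-- The atlas of a model. -/
def atlas (hb : ∀ i, InB L (M.x : F) (M.b i : F))
    (hfin : ∀ w : Fb, InB k (M.ρ M.x) w → ∃ s : M.S, InB L (M.x : F) (s : F) ∧ M.ρ s = w)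
    (hinf : ∀ w : Fb, InB k (M.ρ M.x)⁻¹ w →
      ∃ s : M.S, InB L (M.x : F)⁻¹ (s : F) ∧ M.ρ s = w) :
    M.toReduction.Atlas where
  X :=
    { x := M.toO M.x
      transF := M.transF
      transFb := by
        show Transcendental k (M.res (M.toO M.x))
        rw [res_toO]; exact M.transFb
      fwd := fun u hu => by
        show InB k (M.res (M.toO M.x)) (M.res u)
        rw [res_toO]; exact M.fwd_fin u hu
      surj := fun w hw => by
        obtain ⟨s, hs, he⟩ := hfin w (by
          rw [← res_toO]; exact hw)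
        exact ⟨M.toO s, hs, (M.res_toO s).trans he⟩ }
  X' :=
    { x := M.xInv
      transF := by rw [coe_xInv]; exact transcendental_inv M.transF
      transFb := by
        show Transcendental k (M.res M.xInv)
        rw [res_xInv]; exact transcendental_inv M.transFb
      fwd := fun u hu => by
        show InB k (M.res M.xInv) (M.res u)
        rw [res_xInv]
        exact M.fwd_inf u (by rw [← coe_xInv]; exact hu)
      surj := fun w hw => by
        obtain ⟨s, hs, he⟩ := hinf w (by rw [← res_xInv]; exact hw)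
        exact ⟨M.toO s, by rw [coe_xInv]; exact hs, (M.res_toO s).trans he⟩ }
  inv := M.coe_xInv
  frac := by
    intro (u : M.O) hu
    change M.res u ≠ 0 at hu
    have hu0 : (u : F) ≠ 0 := fun h =>
      hu (by rw [show u = (0 : M.O) from Subtype.ext h, map_zero])
    obtain ⟨e, D, P, he, hD, hP, heq⟩ := M.exists_frac hu0
    refine ⟨M.toO (M.ev D), u * M.toO (M.ev D), M.inB_ev D, ?_, ?_, ?_, rfl⟩
    · show InB L (M.x : F) ((u * M.toO (M.ev D) : M.O) : F)
      push_cast
      rw [coe_toO, heq]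
      exact (inB_const _ e).mul (M.inB_comb hb P)
    · show M.res (M.toO (M.ev D)) ≠ 0
      rw [res_toO]; exact M.ρ_ev_ne_zero hD
    · show M.res (u * M.toO (M.ev D)) ≠ 0
      rw [map_mul, res_toO]; exact mul_ne_zero hu (M.ρ_ev_ne_zero hD)

end Model

end FLTAgent.Deuring
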