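import Fermat.Agent.Deuring.Modular

/-!
# The model of `X₀(N)` and reduction on `Pic⁰`

The model, its two `j`-charts (`atlasX0`), the reduction inputs
(`reductionInputsAlong_of_goodReduction`) and injectivity of any reduction map on torsion prime to
the residue characteristic (`eq_zero_of_reductionPic0Along_eq_zero`).
-/

set_option autoImplicit false

noncomputable section

open AlgebraicCurve ModularCurve Polynomial IntermediateField
open FLTAgent.GoodReduction FLTAgent.FFBasic

namespace FLTAgent.Deuring.Modular

variable {L : Type*} [Field L] [Algebra ℚ L] {A : ValuationSubring L}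
variable {k : Type*} [Field k] {π : A →+* k} {N : ℕ}

/-- Constants as integral series. -/
def constS : A →+* seriesRing A N :=
  ((algebraMap L (FF L N)).comp A.subtype).codRestrict (seriesRing A N) const_mem_seriesRing

theorem red_constS (H : X0GoodReduction A π N) (a : A) :
    red H (constS (A := A) (N := N) a) = algebraMap k (modularFunctionFieldFullC k N) (π a) :=
  red_const H a

/-- Evaluation at `j`. -/
def evS : A[X] →+* seriesRing A N := eval₂RingHom (constS (A := A) (N := N)) ⟨jF N, jF_mem⟩

theorem coe_evS (P : A[X]) :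
    ((evS (A := A) (N := N) P : seriesRing A N) : FF L N) =
      aeval (jF (L := L) N) (P.map A.subtype) := by
  show (seriesRing A N).subtype (eval₂ (constS (A := A) (N := N)) ⟨jF N, jF_mem⟩ P) = _
  rw [hom_eval₂, aeval_def, eval₂_map]
  rfl

theorem red_evS (H : X0GoodReduction A π N) (P : A[X]) :
    red H (evS (A := A) (N := N) P) = aeval (jFb (k := k) N) (P.map π) := by
  show red H (eval₂ (constS (A := A) (N := N)) ⟨jF N, jF_mem⟩ P) = _
  rw [hom_eval₂, aeval_def, eval₂_map, red_jF]
  congr 1
  exact RingHom.ext fun a => red_constS H a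

variable [IsAlgClosed k] (H : X0GoodReduction A π N)

/-- Lifts of a basis of the special fibre over `k(j)`. -/
def basisLift : Fin (deg L N) → seriesRing A N := (exists_basis_lifts H).choose

theorem inB_basisLift (i : Fin (deg L N)) :
    InB L (jF (L := L) N) (basisLift H i : FF L N) :=
  (exists_basis_lifts H).choose_spec.1 i

theorem li_basisLift (P : Fin (deg L N) → k[X])
    (h : ∑ i, aeval (jFb (k := k) N) (P i) * red H (basisLift H i) = 0) : ∀ i, P i = 0 :=
  (exists_basis_lifts H).choose_spec.2 P h

theorem liL_basisLift (P : Fin (deg L N) → L[X])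
    (h : ∑ i, aeval (jF (L := L) N) (P i) * (basisLift H i : FF L N) = 0) : ∀ i, P i = 0 := by
  by_contra! hne
  obtain ⟨c, P', -, hP', -, i₀, hi₀⟩ := exists_normalized π P hne
  refine hi₀ (li_basisLift H (fun i => (P' i).map π) ?_ i₀)
  have hs : ∑ i, evS (A := A) (N := N) (P' i) * basisLift H i = 0 := by
    apply Subtype.ext
    push_cast
    simp only [coe_evS, hP', map_mul, aeval_C, mul_assoc, ← Finset.mul_sum, h, mul_zero]
  have := congrArg (red H) hs
  simpa only [map_sum, map_mul, map_zero, red_evS] using this

/-- The model of `X₀(N)` along `π`. -/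
def model (hπ : Function.Surjective π) :
    Model L k (FF L N) (modularFunctionFieldFullC k N) where
  A := A
  π := π
  π_surj := hπ
  S := seriesRing A N
  ρ := red H
  const_mem := const_mem_seriesRing
  ρ_const := red_const H
  x := ⟨jF N, jF_mem⟩
  d := deg L N
  b := basisLift H
  transFb := by rw [red_jF]; exact transcendental_jFb N
  li P h := li_basisLift H P (by rwa [red_jF] at h)
  span f := by
    have := isFunctionFieldL H
    have := IsFunctionField.finiteDimensional_adjoin (transcendental_jF (L := L) N)
    exact Model.span_of_finrank_le _ (liL_basisLift H) le_rfl f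

omit [IsAlgClosed k] in
theorem exists_lift_fin [IsFunctionField k (modularFunctionFieldFullC k N)]
    (w : modularFunctionFieldFullC k N) (hw : InB k (jFb (k := k) N) w) :
    ∃ s : seriesRing A N, InB L (jF (L := L) N) (s : FF L N) ∧ red H s = w := by
  have hi := isIntegral_coe_of_isIntegral _ (isIntegral_of_inB hw)
  rw [coe_jFb] at hi
  obtain ⟨y, hy, hyr⟩ := H.red_surj_fin _ (SetLike.coe_mem _) hi
  have hyF := (mem_chartRing_iff.mp hy).2
  rw [← coe_jF (L := L) N] at hy
  exact ⟨⟨⟨_, hyF⟩, (mem_seriesRing A N).mpr ⟨y, rfl⟩⟩,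
    inB_of_mem_chartRing (f := ⟨_, hyF⟩) hy, Subtype.ext ((red_eq H (y := y) rfl).trans hyr)⟩

omit [IsAlgClosed k] in
theorem exists_lift_inf [IsFunctionField k (modularFunctionFieldFullC k N)]
    (w : modularFunctionFieldFullC k N) (hw : InB k (jFb (k := k) N)⁻¹ w) :
    ∃ s : seriesRing A N, InB L (jF (L := L) N)⁻¹ (s : FF L N) ∧ red H s = w := by
  have hi := isIntegral_coe_of_isIntegral _ (isIntegral_of_inB hw)
  rw [show (((jFb (k := k) N)⁻¹ : modularFunctionFieldFullC k N) : LaurentSeries k) =
    (jqModC k)⁻¹ by rw [IntermediateField.coe_inv, coe_jFb]] at hi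
  obtain ⟨y, hy, hyr⟩ := H.red_surj_inf _ (SetLike.coe_mem _) hi
  have hyF := (mem_chartRing_iff.mp hy).2
  rw [← coe_jF (L := L) N, ← IntermediateField.coe_inv] at hy
  exact ⟨⟨⟨_, hyF⟩, (mem_seriesRing A N).mpr ⟨y, rfl⟩⟩,
    inB_of_mem_chartRing (f := ⟨_, hyF⟩) hy, Subtype.ext ((red_eq H (y := y) rfl).trans hyr)⟩

/-- The constant reduction of `X₀(N)`. -/
abbrev reduction (hπ : Function.Surjective π) :
    Reduction L k (FF L N) (modularFunctionFieldFullC k N) :=
  (model H hπ).toReduction

/-- The two `j`-charts. -/
def atlasX0 [IsFunctionField L (FF L N)] [IsFunctionField k (modularFunctionFieldFullC k N)]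
    (hπ : Function.Surjective π) : (reduction H hπ).Atlas :=
  (model H hπ).atlas (inB_basisLift H)
    (fun w hw => exists_lift_fin H w (by
      rw [show (model H hπ).ρ (model H hπ).x = jFb (k := k) N from red_jF H] at hw
      exact hw))
    (fun w hw => exists_lift_inf H w (by
      rw [show (model H hπ).ρ (model H hπ).x = jFb (k := k) N from red_jF H] at hw
      exact hw))

include H in
theorem principalGeneratedByIntegral (hπ : Function.Surjective π) :
    PrincipalGeneratedByIntegral A π N := by
  have := isFunctionFieldL H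
  rintro D ⟨f, hf, hD⟩
  obtain ⟨e, Dp, P, he, hDp, hP, heq⟩ := (model H hπ).exists_frac hf
  have mem : ∀ s : seriesRing A N, red H s ≠ 0 → ∀ E : Divisor L (FF L N),
      (∀ v, E v = v.ord (s : FF L N)) → E ∈ integralPrincipalDivisors A π N := by
    intro s hs E hE
    refine ⟨seriesHom A N s, ?_, red_seriesOf_mem H s, fun h => hs (Subtype.ext h), fun v => ?_⟩
    · rw [show coeffMap A.subtype (seriesHom A N s) = ((s : FF L N) : LaurentSeries L) from
        coeffMap_seriesOf A N s]
      exact (s : FF L N).2
    · rw [hE v]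
      congr 1
      exact Subtype.ext (coeffMap_seriesOf A N s).symm
  have hs := (model H hπ).ρ_comb_ne_zero hP
  have ht := (model H hπ).ρ_ev_ne_zero hDp
  have hs0 : (((model H hπ).comb P : (model H hπ).S) : FF L N) ≠ 0 := fun h =>
    hs (by rw [show (model H hπ).comb P = 0 from Subtype.ext h, map_zero])
  have ht0 : (((model H hπ).ev Dp : (model H hπ).S) : FF L N) ≠ 0 := fun h =>
    ht (by rw [show (model H hπ).ev Dp = 0 from Subtype.ext h, map_zero])
  have hDeq : D = divFun (K := L) (((model H hπ).comb P : (model H hπ).S) : FF L N) -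
      divFun (K := L) (((model H hπ).ev Dp : (model H hπ).S) : FF L N) := by
    ext v
    have h := congrArg v.ord heq
    rw [v.ord_mul hf ht0, ← Algebra.smul_def, ord_smul_const v he] at h
    rw [hD v, Finsupp.sub_apply, divFun_apply, divFun_apply]
    linarith
  rw [hDeq]
  exact AddSubgroup.sub_mem _ (AddSubgroup.subset_closure (mem _ hs _ fun v => rfl))
    (AddSubgroup.subset_closure (mem _ ht _ fun v => rfl))

include H in
/-- Existence of the reduction inputs from good reduction. -/
theorem reductionInputsAlong_of_goodReduction [IsAlgClosed L] (hπ : Function.Surjective π) :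
    ReductionInputsAlong A π N := by
  have := isFunctionFieldL H
  have := isFunctionFieldk H
  have hr := (atlasX0 H hπ).isReductionMap
  refine ⟨(atlasX0 H hπ).placeMap, ⟨hr.1, fun y hy hyk hne D hD Q => ?_⟩,
    principalGeneratedByIntegral H hπ⟩
  let s : seriesRing A N := ⟨⟨_, hy⟩, (mem_seriesRing A N).mpr ⟨y, rfl⟩⟩
  have hres : (reduction H hπ).res ((model H hπ).toO s) =
      ⟨coeffMap π y, hyk⟩ := ((model H hπ).res_toO s).trans (Subtype.ext (red_eq H rfl))
  have := hr.2 ((model H hπ).toO s) (by rw [hres]; exact fun h => hne (congrArg Subtype.val h))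
    D hD Q
  rw [hres] at this
  exact this

/-- An arbitrary reduction map is a reduction map of the constant reduction. -/
theorem isReductionMap_of_isPlaceReductionAlong (hπ : Function.Surjective π)
    {r : Place L (FF L N) → Place k (modularFunctionFieldFullC k N)}
    (hr : IsPlaceReductionAlong A π N r) : (reduction H hπ).IsReductionMap r := by
  have := isFunctionFieldL H
  refine ⟨hr.1, fun u hu D hD Q => ?_⟩
  obtain ⟨(t : seriesRing A N), (s : seriesRing A N), ht, he⟩ := (model H hπ).mem_O.mp u.2
  have hres : (reduction H hπ).res u = red H s / red H t := (model H hπ).res_eq u ht he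
  rw [hres] at hu ⊢
  have hs : red H s ≠ 0 := fun h => hu (by rw [h, zero_div])
  have key : ∀ w : seriesRing A N, red H w ≠ 0 → ∀ R,
      Finsupp.mapDomain r (divFun (K := L) (w : FF L N)) R = R.ord (red H w) := by
    intro w hw R
    have hy : coeffMap A.subtype (seriesHom A N w) ∈ FF L N := by
      rw [show coeffMap A.subtype (seriesHom A N w) = ((w : FF L N) : LaurentSeries L) from
        coeffMap_seriesOf A N w]
      exact (w : FF L N).2
    have := hr.2 (seriesHom A N w) hy (red_seriesOf_mem H w)
      (fun h => hw (Subtype.ext h)) (divFun (K := L) (w : FF L N)) (fun P => by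
        rw [divFun_apply]; congr 1; exact Subtype.ext (coeffMap_seriesOf A N w).symm) R
    exact this
  have ht' : red H t ≠ 0 := ht
  have htF : (t : FF L N) ≠ 0 := fun h => ht' (by
    rw [show t = 0 from Subtype.ext h, map_zero])
  have hsF : (s : FF L N) ≠ 0 := fun h => hs (by
    rw [show s = 0 from Subtype.ext h, map_zero])
  have hu0 : (u : FF L N) ≠ 0 := fun h => hsF (by rw [← he, h, zero_mul])
  have hD' : D = divFun (K := L) (s : FF L N) - divFun (K := L) (t : FF L N) := by
    ext P
    rw [hD P, Finsupp.sub_apply, divFun_apply, divFun_apply, ← he, P.ord_mul hu0 htF]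
    ring
  rw [hD', Finsupp.mapDomain_sub, Finsupp.sub_apply, key s hs Q, key t ht' Q, div_eq_mul_inv,
    Q.ord_mul hs (inv_ne_zero ht'), Q.ord_inv]
  ring

include H in
/-- Injectivity of reduction on torsion prime to the residue characteristic, for any reduction
map. -/
theorem eq_zero_of_reductionPic0Along_eq_zero [IsAlgClosed L] (hπ : Function.Surjective π)
    (harch : ∀ a b : A, π a = 0 → b ≠ 0 → ∃ n, b ∣ a ^ n) (ht : ∃ t : A, t ≠ 0 ∧ π t = 0)
    {r : Place L (FF L N) → Place k (modularFunctionFieldFullC k N)}
    (hr : IsPlaceReductionAlong A π N r) (hgen : PrincipalGeneratedByIntegral A π N)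
    {m : ℕ} (hm : (m : k) ≠ 0) (z : Pic0 L (FF L N)) (hmz : m • z = 0)
    (hz : reductionPic0Along r hr hgen z = 0) : z = 0 := by
  have := isFunctionFieldL H
  have := isFunctionFieldk H
  obtain ⟨D, rfl⟩ := Pic0.mk_surjective z
  have hrm := isReductionMap_of_isPlaceReductionAlong H hπ hr
  have hnc : ∃ P P', r P ≠ r P' := by
    obtain ⟨P, hP⟩ := exists_place_ord_neg (K := k) (transcendental_jFb (k := k) N)
    by_contra! hconst
    have h := hrm.2 ((model H hπ).toO ⟨jF N, jF_mem⟩) (by
      rw [show (reduction H hπ).res ((model H hπ).toO ⟨jF N, jF_mem⟩) = jFb (k := k) N from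
        ((model H hπ).res_toO _).trans (red_jF H)]
      exact fun h => transcendental_jFb N (h ▸ isAlgebraic_zero)) (divFun (jF (L := L) N))
      (fun _ => rfl) P
    rw [show (reduction H hπ).res ((model H hπ).toO ⟨jF N, jF_mem⟩) = jFb (k := k) N from
        ((model H hπ).res_toO _).trans (red_jF H)] at h
    obtain ⟨P₀⟩ := nonempty_place (K := L) (F := FF L N)
    have hmap : Finsupp.mapDomain r (divFun (jF (L := L) N)) =
        Finsupp.single (r P₀) (Divisor.degree (divFun (K := L) (jF (L := L) N))) := by
      generalize divFun (K := L) (jF (L := L) N) = E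
      induction E using Finsupp.induction with
      | zero => simp
      | single_add Q n E _ _ ih =>
        rw [Finsupp.mapDomain_add, Finsupp.mapDomain_single, ih, hconst Q P₀, map_add,
          degree_single_one, Finsupp.single_add]
    rw [hmap, degree_divFun, Finsupp.single_zero, Finsupp.zero_apply] at h
    omega
  have hmem : ∀ E : Divisor.degZero (K := L) (F := FF L N), Pic0.mk E = 0 →
      (E : Divisor L (FF L N)) ∈ Divisor.principal (K := L) (F := FF L N) := by
    intro E hE
    rw [Pic0.mk, QuotientAddGroup.eq_zero_iff] at hE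
    exact hE
  rw [reductionPic0Along_mk] at hz
  have hrD : Finsupp.mapDomain r (D : Divisor L (FF L N)) ∈
      Divisor.principal (K := k) (F := modularFunctionFieldFullC k N) := by
    rw [Pic0.mk, QuotientAddGroup.eq_zero_iff, AddSubgroup.mem_addSubgroupOf,
      coe_reductionDegZeroAlong] at hz
    exact hz
  have hmD : m • (D : Divisor L (FF L N)) ∈ Divisor.principal (K := L) (F := FF L N) := by
    have h : Pic0.mk (m • D) = 0 := by rw [← hmz]; exact QuotientAddGroup.mk_nsmul _ _ _
    simpa using hmem (m • D) h
  have key := Reduction.mem_principal_of_mapDomain_mem_principal hrm (atlasX0 H hπ).genus_eq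
    (fun P => place_deg_eq_one P) hnc harch ht hm (Divisor.mem_degZero.mp D.2) hmD hrD
  rw [Pic0.mk, QuotientAddGroup.eq_zero_iff, AddSubgroup.mem_addSubgroupOf]
  exact key

end FLTAgent.Deuring.Modular
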